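import Fermat.Agent.CFTLocal.L3

set_option autoImplicit false
set_option maxHeartbeats 400000

/-! Summary: local class field theory (`p`-part) in the form needed for the global theory. -/

namespace Fermat.Agent.CFTLocal

open Fermat.Agent.CFT Finset

variable {q : ℕ} [hq : Fact q.Prime]

theorem map_UU (W : Subgroup (LG q)) :
    (UU W).map (fix (LM q) W).subtype = fix (LM q) W ⊓ LU q := by
  ext x
  constructor
  · rintro ⟨y, hy, rfl⟩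
    refine ⟨y.2, ?_⟩
    change ‖(((y : AA q).toMul : (PadicAlgCl q)ˣ) : PadicAlgCl q)‖₊ = 1
    rw [← NNReal.coe_inj, coe_nnnorm, NNReal.coe_one]
    exact hy
  · rintro ⟨hx, hy⟩
    refine ⟨⟨x, hx⟩, ?_, rfl⟩
    have hy' : ‖((x.toMul : (PadicAlgCl q)ˣ) : PadicAlgCl q)‖₊ = 1 := hy
    rw [← NNReal.coe_inj, coe_nnnorm, NNReal.coe_one] at hy'
    exact hy'

section

variable (p : ℕ) [hp : Fact p.Prime] (N : Subgroup (LG q)) (hN : IsOpen (N : Set (LG q)))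

include hN

/-- (L1) -/
theorem L1 : FinInd (mulN (fix (LM q) N) p) ∧
    ind (mulN (fix (LM q) N) p) = p * (p : ℚ) ^ (if p = q then N.index else 0) :=
  ind_fix hN p

/-- (L1u) -/
theorem L1u : FinInd (mulN ↥(fix (LM q) N ⊓ LU q) p) ∧
    ind (mulN ↥(fix (LM q) N ⊓ LU q) p) = (p : ℚ) ^ (if p = q then N.index else 0) := by
  obtain ⟨h4, h5⟩ := ind_UU hN (p := p)
  obtain ⟨h6, h7⟩ := ind_equiv p (((UU N).equivMapOfInjective (fix (AA q) N).subtype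
    (fix (AA q) N).subtype_injective).trans (AddEquiv.addSubgroupCongr (map_UU N))) h4
  exact ⟨h6, h7.trans h5⟩

/-- (L5) existence of a uniformizer; `‖π‖ ^ e = 1/q`. -/
theorem L5 : ∃ π ∈ fix (LM q) N, ‖((Additive.toMul π : (PadicAlgCl q)ˣ) : PadicAlgCl q)‖ < 1 ∧
    (∀ a ∈ fix (LM q) N, ∃ k : ℤ, a - k • π ∈ LU q) ∧
    ‖((Additive.toMul π : (PadicAlgCl q)ˣ) : PadicAlgCl q)‖ ^ (ram N) = (q : ℝ)⁻¹ ∧ 0 < ram N := by
  obtain ⟨π, h1, h2, h3, h4⟩ := exists_pi_ram hN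
  refine ⟨(π : AA q), π.2, h1, fun a ha => ?_, h3, h4⟩
  obtain ⟨k, hk⟩ := h2 ⟨a, ha⟩
  refine ⟨k, ?_⟩
  rw [mem_LU, ← NNReal.coe_inj, coe_nnnorm, NNReal.coe_one]
  have h5 : ((Additive.toMul (a - k • (π : AA q)) : (PadicAlgCl q)ˣ) : PadicAlgCl q) =
      el a / (el (π : AA q)) ^ k := by
    have := el_sub a (k • (π : AA q))
    rw [el_zsmul] at this
    exact this
  rw [h5, norm_div, norm_zpow]
  have h6 : ‖el a‖ = ‖el (π : AA q)‖ ^ k := hk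
  rw [h6, div_self]
  exact zpow_ne_zero _ (norm_ne_zero_iff.mpr (el_ne_zero _))

end

section

variable {N U : Subgroup (LG q)} (hN : IsOpen (N : Set (LG q))) (hNU : N ≤ U)
  (hnorm : ∀ g ∈ U, ∀ k ∈ N, g * k * g⁻¹ ∈ N) {p : ℕ} [hp : Fact p.Prime]
  (hi : N.relIndex U = p) {s : LG q} (hsU : s ∈ U) (hs : s ∉ N)

include hN hNU hnorm hi hsU hs

/-- (L2) -/
theorem L2 : (∀ a ∈ fix (LM q) N, ∑ i ∈ range p, s ^ i • a = 0 →
    ∃ b ∈ fix (LM q) N, a = s • b - b) ∧ RelFin (nrmGrp p s N) (fix (LM q) U) p ∧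
    (nrmGrp p s N).relIndex (fix (LM q) U) = p :=
  ⟨(L2_main hN hNU hnorm hi hsU hs).1, (L2_relFin hN hNU hnorm hi hsU hs).2,
    (L2_main hN hNU hnorm hi hsU hs).2⟩

/-- (L2u) -/
theorem L2u (hunr : ∀ a ∈ fix (LM q) N, ∃ b ∈ fix (LM q) U, ∃ c ∈ LU q, a = b + c)
    (a : LM q) (ha : a ∈ fix (LM q) U ⊓ LU q) :
    ∃ b ∈ fix (LM q) N ⊓ LU q, a = ∑ i ∈ range p, s ^ i • b := by
  obtain ⟨b, h1, h2, h3⟩ := L2_units hN hNU hnorm hi hsU hs hunr a ha.1 ha.2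
  exact ⟨b, ⟨h1, h2⟩, h3⟩

end

/-- (L3) -/
theorem L3 (p : ℕ) [hp : Fact p.Prime] (N : Subgroup (LG q)) [N.Normal]
    (hN : IsOpen (N : Set (LG q))) :
    ∃ u : (LG q ⧸ N) → (LG q ⧸ N) → fix (LM q) N, CFLayer p (LG q ⧸ N) (fix (LM q) N) u :=
  exists_class p N hN

end Fermat.Agent.CFTLocal
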