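import Fermat.Agent.CFT.Herbrand
import Fermat.Agent.CFT.CohDefs
import Fermat.Agent.CFT.LocalDefs
import Fermat.Agent.CFT.ClassForm

set_option autoImplicit false
set_option maxHeartbeats 400000

/-! Local fields inside `PadicAlgCl q`: basic facts on norms and roots. -/

namespace Fermat.Agent.CFTLocal

open Fermat.Agent.CFT

variable (q : ℕ) [Fact q.Prime]

abbrev Om := PadicAlgCl q
abbrev Gq := PadicAlgCl q ≃ₐ[ℚ_[q]] PadicAlgCl q
abbrev AA := Additive (PadicAlgCl q)ˣ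

variable {q}

/-- the underlying element of `Ω` -/
def el (a : AA q) : Om q := ((a.toMul : (Om q)ˣ) : Om q)

@[simp] theorem el_zero : el (0 : AA q) = 1 := rfl
@[simp] theorem el_add (a b : AA q) : el (a + b) = el a * el b := rfl
@[simp] theorem el_neg (a : AA q) : el (-a) = (el a)⁻¹ := by
  rw [el, toMul_neg, Units.val_inv_eq_inv_val]; rfl
@[simp] theorem el_sub (a b : AA q) : el (a - b) = el a / el b := by
  rw [sub_eq_add_neg, el_add, el_neg, div_eq_mul_inv]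
@[simp] theorem el_nsmul (n : ℕ) (a : AA q) : el (n • a) = el a ^ n := by
  rw [el, toMul_nsmul, Units.val_pow_eq_pow_val]; rfl
@[simp] theorem el_zsmul (n : ℤ) (a : AA q) : el (n • a) = el a ^ n := by
  rw [el, toMul_zsmul, Units.val_zpow_eq_zpow_val]; rfl
@[simp] theorem el_smul (g : Gq q) (a : AA q) : el (g • a) = g (el a) := rfl
theorem el_injective : Function.Injective (el (q := q)) := fun _ _ h =>
  Additive.toMul.injective (Units.ext h)
theorem el_ne_zero (a : AA q) : el a ≠ 0 := Units.ne_zero _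
/-- an element of `AA` from a nonzero element -/
noncomputable def mkA (x : Om q) (hx : x ≠ 0) : AA q := Additive.ofMul (Units.mk0 x hx)
@[simp] theorem el_mkA (x : Om q) (hx : x ≠ 0) : el (mkA x hx) = x := rfl

theorem norm_gal (g : Gq q) (x : Om q) : ‖g x‖ = ‖x‖ :=
  (spectralNorm_eq_of_equiv g x).symm

theorem norm_add_le_max' (x y : Om q) : ‖x + y‖ ≤ max ‖x‖ ‖y‖ :=
  PadicAlgCl.isNonarchimedean q x y

theorem norm_sub_le_max' (x y : Om q) : ‖x - y‖ ≤ max ‖x‖ ‖y‖ := by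
  rw [sub_eq_add_neg, ← norm_neg y]; exact norm_add_le_max' _ _

theorem norm_add_eq_of_lt {x y : Om q} (h : ‖y‖ < ‖x‖) : ‖x + y‖ = ‖x‖ := by
  apply le_antisymm
  · exact (norm_add_le_max' x y).trans (by rw [max_eq_left h.le])
  · have h1 : ‖x‖ ≤ max ‖x + y‖ ‖y‖ := by
      have := norm_sub_le_max' (x + y) y
      rwa [add_sub_cancel_right] at this
    rcases le_max_iff.mp h1 with h2 | h2
    · exact h2
    · exact absurd h2 (not_le.mpr h)

theorem norm_eq_one_of_sub_lt {x : Om q} (h : ‖x - 1‖ < 1) : ‖x‖ = 1 := by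
  have : x = 1 + (x - 1) := by ring
  rw [this, norm_add_eq_of_lt (by rwa [norm_one]), norm_one]

theorem norm_of_pow_eq_one {x : Om q} {n : ℕ} (hn : n ≠ 0) (h : x ^ n = 1) : ‖x‖ = 1 := by
  have h1 : ‖x‖ ^ n = 1 := by rw [← norm_pow, h, norm_one]
  exact (pow_eq_one_iff_of_nonneg (norm_nonneg _) hn).mp h1

theorem norm_natCast_le (n : ℕ) : ‖(n : Om q)‖ ≤ 1 := by
  induction n with
  | zero => simp
  | succ n ih => push_cast; exact (norm_add_le_max' _ _).trans (max_le ih (by rw [norm_one]))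

theorem norm_natCast_eq (n : ℕ) : ‖(n : Om q)‖ = ‖(n : ℚ_[q])‖ := by
  rw [← PadicAlgCl.norm_extends]; simp

section roots

variable {p : ℕ} [hp : Fact p.Prime] {ζ : Om q} (hζ : IsPrimitiveRoot ζ p)

include hζ

theorem norm_zeta : ‖ζ‖ = 1 := norm_of_pow_eq_one hp.out.ne_zero hζ.pow_eq_one

omit hζ in
theorem norm_geom_le {z : Om q} (hz : ‖z‖ = 1) (n : ℕ) : ‖1 - z ^ n‖ ≤ ‖1 - z‖ := by
  have h1 : 1 - z ^ n = (∑ i ∈ Finset.range n, z ^ i) * (1 - z) := (geom_sum_mul_neg z n).symm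
  rw [h1, norm_mul]
  have h2 : ‖∑ i ∈ Finset.range n, z ^ i‖ ≤ 1 := by
    induction n with
    | zero => simp
    | succ n ih =>
      rw [Finset.sum_range_succ]
      refine (norm_add_le_max' _ _).trans (max_le (ih ?_) ?_)
      · exact (geom_sum_mul_neg z n).symm
      · rw [norm_pow, hz, one_pow]
  calc _ ≤ 1 * ‖1 - z‖ := mul_le_mul_of_nonneg_right h2 (norm_nonneg _)
    _ = _ := one_mul _

theorem norm_one_sub_pow {i : ℕ} (hi : i.Coprime p) : ‖1 - ζ ^ i‖ = ‖1 - ζ‖ := by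
  apply le_antisymm (norm_geom_le (norm_zeta hζ) i)
  obtain ⟨j, hj⟩ := Nat.exists_mul_mod_eq_one_of_coprime hi hp.out.one_lt
  have h1 : (ζ ^ i) ^ j = ζ := by
    rw [← pow_mul]
    conv_rhs => rw [← pow_one ζ]
    rw [← hj.2, ← pow_mod_orderOf, ← hζ.eq_orderOf]
  calc ‖1 - ζ‖ = ‖1 - (ζ ^ i) ^ j‖ := by rw [h1]
    _ ≤ ‖1 - ζ ^ i‖ := norm_geom_le (by rw [norm_pow, norm_zeta hζ, one_pow]) j

theorem one_sub_zeta_ne : (1 : Om q) - ζ ≠ 0 :=
  sub_ne_zero.mpr (hζ.ne_one hp.out.one_lt).symm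

theorem rho_pos : 0 < ‖1 - ζ‖ := norm_pos_iff.mpr (one_sub_zeta_ne hζ)

theorem rho_le_one : ‖1 - ζ‖ ≤ 1 :=
  (norm_sub_le_max' _ _).trans (by rw [norm_one, norm_zeta hζ, max_self])

theorem rho_pow : ‖1 - ζ‖ ^ (p - 1) = ‖(p : Om q)‖ := by
  have hp1 : p - 1 + 1 = p := Nat.sub_add_cancel hp.out.one_le
  have hζ' : IsPrimitiveRoot ζ (p - 1 + 1) := by rwa [hp1]
  have h1 := hζ'.prod_one_sub_pow_eq_order
  have h2 : ((p - 1 : ℕ) : Om q) + 1 = (p : Om q) := by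
    rw [← Nat.cast_add_one, hp1]
  rw [h2] at h1
  rw [← h1, norm_prod, Finset.prod_congr rfl (fun k hk => norm_one_sub_pow hζ (i := k + 1) ?_),
    Finset.prod_const, Finset.card_range]
  rw [Finset.mem_range] at hk
  exact (Nat.coprime_of_lt_prime (Nat.succ_ne_zero k) (by omega) hp.out).symm

theorem prod_formula {x : Om q} : 1 - x ^ p = ∏ i ∈ Finset.range p, (1 - ζ ^ i * x) := by
  have h := X_pow_sub_C_eq_prod hζ hp.out.pos (rfl : x ^ p = x ^ p)
  have h2 := congrArg (Polynomial.eval 1) h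
  rw [Polynomial.eval_prod] at h2
  simpa using h2

theorem norm_one_sub_zeta_mul {x : Om q} (hx : ‖1 - x‖ < ‖1 - ζ‖) {i : ℕ} (hi : i.Coprime p) :
    ‖1 - ζ ^ i * x‖ = ‖1 - ζ‖ := by
  have h1 : 1 - ζ ^ i * x = (1 - ζ ^ i) + ζ ^ i * (1 - x) := by ring
  have h2 : ‖ζ ^ i * (1 - x)‖ < ‖1 - ζ ^ i‖ := by
    rw [norm_mul, norm_pow, norm_zeta hζ, one_pow, one_mul, norm_one_sub_pow hζ hi]
    exact hx
  rw [h1, norm_add_eq_of_lt h2, norm_one_sub_pow hζ hi]

theorem norm_one_sub_pow_eq {x : Om q} (hx : ‖1 - x‖ < ‖1 - ζ‖) :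
    ‖1 - x ^ p‖ = ‖1 - x‖ * ‖(p : Om q)‖ := by
  have hp1 : p - 1 + 1 = p := Nat.sub_add_cancel hp.out.one_le
  rw [prod_formula hζ, norm_prod]
  conv_lhs => rw [← hp1]
  rw [Finset.prod_range_succ', pow_zero, one_mul, mul_comm, ← rho_pow hζ]
  congr 1
  rw [Finset.prod_congr rfl (fun k hk => norm_one_sub_zeta_mul hζ hx (i := k + 1) ?_),
    Finset.prod_const, Finset.card_range]
  rw [Finset.mem_range] at hk
  exact (Nat.coprime_of_lt_prime (Nat.succ_ne_zero k) (by omega) hp.out).symm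

theorem root_unique {x y : Om q} (hx : ‖1 - x‖ < ‖1 - ζ‖) (hy : ‖1 - y‖ < ‖1 - ζ‖)
    (h : x ^ p = y ^ p) : x = y := by
  have hy1 : ‖y‖ = 1 := norm_eq_one_of_sub_lt
    (by rw [norm_sub_rev]; exact hy.trans_le (rho_le_one hζ))
  have hy0 : y ≠ 0 := by rintro rfl; simp at hy1
  have h1 : ‖1 - x / y‖ < ‖1 - ζ‖ := by
    have : 1 - x / y = (y - x) / y := by field_simp
    rw [this, norm_div, hy1, div_one]
    have h2 : y - x = (1 - x) - (1 - y) := by ring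
    rw [h2]
    exact (norm_sub_le_max' _ _).trans_lt (max_lt hx hy)
  have h2 := norm_one_sub_pow_eq hζ h1
  rw [div_pow, h, div_self (pow_ne_zero _ hy0), sub_self, norm_zero, zero_eq_mul] at h2
  rcases h2 with h2 | h2
  · rw [norm_eq_zero, sub_eq_zero] at h2
    field_simp at h2
    exact h2.symm
  · rw [norm_eq_zero] at h2
    exact absurd h2 (Nat.cast_ne_zero.mpr hp.out.ne_zero)

theorem root_exists {y : Om q} (hy : ‖1 - y‖ < ‖1 - ζ‖ * ‖(p : Om q)‖) :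
    ∃ x : Om q, x ^ p = y ∧ ‖1 - x‖ < ‖1 - ζ‖ := by
  obtain ⟨x0, hx0⟩ := IsAlgClosed.exists_pow_nat_eq y hp.out.pos
  by_contra hcon
  push Not at hcon
  have h1 : ∀ i ∈ Finset.range p, ‖1 - ζ‖ ≤ ‖1 - ζ ^ i * x0‖ := by
    intro i _
    apply hcon
    rw [mul_pow, ← pow_mul, mul_comm i p, pow_mul, hζ.pow_eq_one, one_pow, one_mul, hx0]
  have h2 : ‖1 - ζ‖ ^ p ≤ ‖1 - y‖ := by
    rw [← hx0, prod_formula hζ, norm_prod]
    calc ‖1 - ζ‖ ^ p = ∏ i ∈ Finset.range p, ‖1 - ζ‖ := by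
          rw [Finset.prod_const, Finset.card_range]
      _ ≤ _ := Finset.prod_le_prod (fun _ _ => norm_nonneg _) h1
  have h3 : ‖1 - ζ‖ ^ p = ‖1 - ζ‖ * ‖(p : Om q)‖ := by
    rw [← rho_pow hζ, ← pow_succ', Nat.sub_add_cancel hp.out.one_le]
  rw [h3] at h2
  exact absurd hy (not_lt.mpr h2)

end roots

end Fermat.Agent.CFTLocal
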