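import Fermat.Agent.CFTLocal.Val

set_option autoImplicit false
set_option maxHeartbeats 400000

/-! (L1) for the full multiplicative group; `e f = n`. -/

namespace Fermat.Agent.CFTLocal

open Fermat.Agent.CFT

variable {q : ℕ} [hq : Fact q.Prime]

theorem ind_int (p : ℕ) [hp : Fact p.Prime] : FinInd (mulN ℤ p) ∧ ind (mulN ℤ p) = p := by
  have hk : (mulN ℤ p).ker = ⊥ := by
    rw [AddMonoidHom.ker_eq_bot_iff]
    intro x y h
    have h1 : (p : ℤ) * x = p * y := by simpa [nsmul_eq_mul] using h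
    exact mul_left_cancel₀ (Nat.cast_ne_zero.mpr hp.out.ne_zero) h1
  have hr : (mulN ℤ p).range = AddSubgroup.zmultiples (p : ℤ) := by
    ext x
    rw [Int.mem_zmultiples_iff]
    constructor
    · rintro ⟨y, rfl⟩
      exact ⟨y, by simp⟩
    · rintro ⟨y, rfl⟩
      exact ⟨y, by simp⟩
  have hi : (mulN ℤ p).range.index = p := by
    rw [hr, Int.index_zmultiples, Int.natAbs_natCast]
  refine ⟨⟨by rw [hk]; simp, by rw [hi]; exact hp.out.ne_zero⟩, ?_⟩
  unfold ind
  rw [hi, hk]
  simp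

theorem ind_zmul {X : Type*} [AddCommGroup X] [Module.IsTorsionFree ℤ X] (b : X) (hb : b ≠ 0)
    (p : ℕ) [hp : Fact p.Prime] : FinInd (mulN (AddSubgroup.zmultiples b) p) ∧
      ind (mulN (AddSubgroup.zmultiples b) p) = p := by
  have hinj : Function.Injective (zmultiplesHom X b) := by
    intro x y h
    have h1 : x • b = y • b := h
    exact smul_left_injective ℤ hb h1
  let e0 : ℤ ≃+ (zmultiplesHom X b).range := AddMonoidHom.ofInjective hinj
  have h1 : (zmultiplesHom X b).range = AddSubgroup.zmultiples b :=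
    (AddSubgroup.range_zmultiplesHom b)
  obtain ⟨h2, h3⟩ := ind_equiv p (e0.trans (AddEquiv.addSubgroupCongr h1)) (ind_int p).1
  exact ⟨h2, h3.trans (ind_int p).2⟩

section

variable {N : Subgroup (Gq q)} (hN : IsOpen (N : Set (Gq q)))

include hN

/-- **(L1)** -/
theorem ind_fix (p : ℕ) [hp : Fact p.Prime] : FinInd (mulN (fix (AA q) N) p) ∧
    ind (mulN (fix (AA q) N) p) = p * (p : ℚ) ^ (if p = q then N.index else 0) := by
  obtain ⟨b, hb, hVG⟩ := VG_discrete hN
  obtain ⟨hV1, hV2⟩ := ind_zmul b hb.ne' p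
  rw [← hVG] at hV1 hV2
  obtain ⟨hU1, hU2⟩ := ind_UU hN (p := p)
  have hex : (UU N).subtype.range = (lg N).rangeRestrict.ker := by
    rw [AddSubgroup.range_subtype, AddMonoidHom.ker_rangeRestrict, ker_lg]
  have h := ind_exact (UU N).subtype (lg N).rangeRestrict (UU N).subtype (lg N).rangeRestrict
    (f' := mulN (UU N) p) (f := mulN (fix (AA q) N) p) (f'' := mulN (lg N).range p)
    (UU N).subtype_injective (lg N).rangeRestrict_surjective hex
    (UU N).subtype_injective (lg N).rangeRestrict_surjective hex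
    (fun _ => rfl) (fun x => (map_nsmul (lg N).rangeRestrict p x).symm) hU1 hV1
  refine ⟨h.1, ?_⟩
  rw [h.2, hU2]
  have : ind (mulN (lg N).range p) = p := hV2
  rw [this, mul_comm]

theorem finite_OO_BB : (BB N 1 one_pos).relIndex (OO N) ≠ 0 := by
  have := finiteDimensional_EE hN
  exact relIndex_ne_zero (EE N) q _ _ (BB_in N 1 one_pos) (OO_in N) (OO_out N)

end

/-- number of elements of the residue field -/
noncomputable def resCard (N : Subgroup (Gq q)) : ℕ := (BB N 1 one_pos).relIndex (OO N)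

/-- ramification index -/
noncomputable def ram (N : Subgroup (Gq q)) : ℕ := (VG (⊤ : Subgroup (Gq q))).relIndex (VG N)

/-- residue degree -/
noncomputable def fdeg (N : Subgroup (Gq q)) : ℕ := Nat.log q (resCard N)

section

variable {N : Subgroup (Gq q)} (hN : IsOpen (N : Set (Gq q)))

include hN

theorem exists_pi_ram : ∃ π : fix (AA q) N, ‖eF π‖ < 1 ∧ (∀ a : fix (AA q) N, ∃ k : ℤ,
    ‖eF a‖ = ‖eF π‖ ^ k) ∧ ‖eF π‖ ^ (ram N) = (q : ℝ)⁻¹ ∧ 0 < ram N := by
  obtain ⟨b, hb, hVG⟩ := VG_discrete hN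
  have h1 : -b ∈ VG N := by rw [hVG]; exact neg_mem (AddSubgroup.mem_zmultiples b)
  obtain ⟨π, hπ⟩ := h1
  rw [lg_apply] at hπ
  have h0 : 0 < ‖eF π‖ := norm_pos_iff.mpr (eF_ne_zero π)
  have hq := log_q_mem N
  rw [hVG, AddSubgroup.mem_zmultiples_iff] at hq
  obtain ⟨k, hk⟩ := hq
  rw [zsmul_eq_mul] at hk
  have hkpos : 0 < k := by
    have h2 : 0 < (k : ℝ) * b := hk ▸ log_q_pos
    have h3 : 0 < (k : ℝ) := by
      by_contra h
      push Not at h
      nlinarith
    exact_mod_cast h3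
  obtain ⟨n, rfl⟩ := Int.eq_ofNat_of_zero_le hkpos.le
  have hram : ram N = n := by
    rw [ram, VG_top, hVG, ← hk, AddSubgroup.relIndex]
    have hinj : Function.Injective (zmultiplesHom ℝ b) := by
      intro x y h
      have h1 : x • b = y • b := h
      exact smul_left_injective ℤ hb.ne' h1
    have e1 : (AddSubgroup.zmultiples (((n : ℤ) : ℝ) * b)) =
        (AddSubgroup.zmultiples (n : ℤ)).map (zmultiplesHom ℝ b) := by
      rw [AddMonoidHom.map_zmultiples]
      congr 1
      simp [zmultiplesHom_apply]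
    have e2 : AddSubgroup.zmultiples b = (⊤ : AddSubgroup ℤ).map (zmultiplesHom ℝ b) := by
      rw [← AddMonoidHom.range_eq_map, AddSubgroup.range_zmultiplesHom]
    have e3 := AddSubgroup.relIndex_map_map_of_injective (AddSubgroup.zmultiples (n : ℤ)) ⊤ hinj
    rw [← e1, ← e2, AddSubgroup.relIndex_top_right, Int.index_zmultiples, Int.natAbs_natCast] at e3
    exact e3
  refine ⟨π, (Real.log_neg_iff h0).mp (by linarith), fun a => ?_, ?_, ?_⟩
  · have h2 : lg N a ∈ VG N := ⟨a, rfl⟩
    rw [hVG, AddSubgroup.mem_zmultiples_iff] at h2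
    obtain ⟨k, hk⟩ := h2
    refine ⟨-k, ?_⟩
    have ha0 : 0 < ‖eF a‖ := norm_pos_iff.mpr (eF_ne_zero a)
    apply Real.log_injOn_pos (Set.mem_Ioi.mpr ha0) (Set.mem_Ioi.mpr (zpow_pos h0 _))
    rw [Real.log_zpow, hπ]
    rw [lg_apply, zsmul_eq_mul] at hk
    rw [← hk]
    push_cast
    ring
  · rw [hram]
    have hq0 : (0 : ℝ) < (q : ℝ)⁻¹ := inv_pos.mpr (Nat.cast_pos.mpr (Fact.out : q.Prime).pos)
    apply Real.log_injOn_pos (Set.mem_Ioi.mpr (pow_pos h0 _)) (Set.mem_Ioi.mpr hq0)
    rw [Real.log_pow, hπ, Real.log_inv, ← hk]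
    push_cast
    ring
  · rw [hram]; exact_mod_cast hkpos

theorem ram_pos : 0 < ram N := by
  obtain ⟨_, _, _, _, h⟩ := exists_pi_ram hN
  exact h

theorem resCard_pow : resCard N ^ ram N = q ^ N.index := by
  have := finiteDimensional_EE hN
  obtain ⟨π, hπ1, hπ2, hπ3, hπ4⟩ := exists_pi_ram hN
  have h0 : 0 < ‖eF π‖ := norm_pos_iff.mpr (eF_ne_zero π)
  let C : ℕ → AddSubgroup (EE N) := fun k => cball (EE N) (‖eF π‖ ^ k) (by positivity)
  have hC : ∀ k x, x ∈ C k ↔ ‖(x : Om q)‖ ≤ ‖eF π‖ ^ k := fun k x => Iff.rfl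
  have hmono : ∀ k, C (k + 1) ≤ C k := by
    intro k x hx
    rw [hC] at hx ⊢
    refine hx.trans ?_
    rw [pow_succ]
    exact mul_le_of_le_one_right (by positivity) hπ1.le
  have h1 : C 1 = BB N 1 one_pos := by
    ext x
    rw [hC, pow_one, mem_ball', ← norm_coeE]
    constructor
    · intro h; exact lt_of_le_of_lt h hπ1
    · intro h
      by_cases hx : (x : Om q) = 0
      · rw [hx, norm_zero]; positivity
      · obtain ⟨k, hk⟩ := hπ2 (ofF (x : Om q) hx x.2)
        rw [eF_ofF] at hk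
        rw [hk] at h ⊢
        have h3 : 0 < k := by
          by_contra h4
          push Not at h4
          have : 1 ≤ ‖eF π‖ ^ k := by
            have h5 : (‖eF π‖ ^ k) = (‖eF π‖⁻¹) ^ (-k) := by rw [inv_zpow', neg_neg]
            rw [h5]
            exact one_le_zpow₀ ((one_le_inv₀ h0).mpr hπ1.le) (by omega)
          linarith
        calc ‖eF π‖ ^ k ≤ ‖eF π‖ ^ (1 : ℤ) := zpow_le_zpow_right_of_le_one₀ h0 hπ1.le (by omega)
          _ = _ := zpow_one _
  have hC0 : C 0 = OO N := by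
    ext x
    rw [hC, pow_zero]
    exact Iff.rfl
  -- shift
  let πE : EE N := ⟨eF π, eF_mem π⟩
  have hπE : (πE : Om q) ≠ 0 := eF_ne_zero π
  let m : EE N →+ EE N := AddMonoidHom.mulLeft πE
  have hm : Function.Injective m := by
    intro x y h
    have h2 : πE * x = πE * y := h
    exact mul_left_cancel₀ (fun h3 => hπE (by rw [h3]; rfl)) h2
  have hmap : ∀ k, (C k).map m = C (k + 1) := by
    intro k
    ext x
    constructor
    · rintro ⟨y, hy, rfl⟩
      rw [hC]
      have : ((m y : EE N) : Om q) = eF π * y := rfl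
      rw [this, norm_mul, pow_succ, mul_comm]
      exact mul_le_mul_of_nonneg_right hy h0.le
    · intro hx
      rw [hC, pow_succ] at hx
      refine ⟨πE⁻¹ * x, ?_, ?_⟩
      · change ‖((πE⁻¹ * x : EE N) : Om q)‖ ≤ _
        have : ((πE⁻¹ * x : EE N) : Om q) = (eF π)⁻¹ * x := rfl
        rw [this, norm_mul, norm_inv, inv_mul_le_iff₀ h0, mul_comm]
        exact hx
      · change πE * (πE⁻¹ * x) = x
        rw [mul_inv_cancel_left₀ (fun h3 => hπE (by rw [h3]; rfl))]
  have hstep : ∀ k, (C (k + 1)).relIndex (C k) = resCard N := by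
    intro k
    induction k with
    | zero => rw [zero_add, h1, hC0]; rfl
    | succ k ih =>
      have h9 := AddSubgroup.relIndex_map_map_of_injective (C (k + 1)) (C k) hm
      rw [hmap, hmap] at h9
      rw [h9, ih]
  have htot : ∀ k, (C k).relIndex (C 0) = resCard N ^ k ∧ C k ≤ C 0 := by
    intro k
    induction k with
    | zero => simp
    | succ k ih =>
      refine ⟨?_, (hmono k).trans ih.2⟩
      rw [← AddSubgroup.relIndex_mul_relIndex _ _ _ (hmono k) ih.2, hstep, ih.1, pow_succ, mul_comm]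
  rw [← (htot (ram N)).1]
  -- multiplication by q
  have h5 := ind_ball q q (EE N) (OO N) (OO_in N) (OO_out N)
  have hk : (mulN (OO N) q).ker = ⊥ := by
    rw [AddMonoidHom.ker_eq_bot_iff]
    intro x y hxy
    have h6 : ((q : ℕ) : Om q) * ((x : EE N) : Om q) = ((q : ℕ) : Om q) * ((y : EE N) : Om q) := by
      have := congrArg (fun z : OO N => ((z : EE N) : Om q)) hxy
      simpa [nsmul_eq_mul] using this
    apply Subtype.ext
    apply Subtype.ext
    exact mul_left_cancel₀ q_ne_zero h6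
  have hr : (mulN (OO N) q).range = (C (ram N)).addSubgroupOf (OO N) := by
    ext x
    rw [AddSubgroup.mem_addSubgroupOf, hC, hπ3]
    constructor
    · rintro ⟨y, rfl⟩
      have h6 : ((((mulN (OO N) q) y : OO N) : EE N) : Om q) =
        ((q : ℕ) : Om q) * ((y : EE N) : Om q) := by simp [nsmul_eq_mul]
      rw [h6, norm_mul, norm_q]
      exact mul_le_of_le_one_right (by positivity) y.2
    · intro hx
      have hmem : ((q : ℕ) : EE N)⁻¹ * x ∈ OO N := by
        rw [mem_cball, ← norm_coeE]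
        have : ((((q : ℕ) : EE N)⁻¹ * (x : EE N) : EE N) : Om q) =
          ((q : ℕ) : Om q)⁻¹ * ((x : EE N) : Om q) := by simp
        rw [this, norm_mul, norm_inv, norm_q, inv_inv]
        have hq0 : (0 : ℝ) < q := Nat.cast_pos.mpr (Fact.out : q.Prime).pos
        calc (q : ℝ) * ‖((x : EE N) : Om q)‖ ≤ q * (q : ℝ)⁻¹ := mul_le_mul_of_nonneg_left hx hq0.le
          _ = 1 := mul_inv_cancel₀ hq0.ne'
      refine ⟨⟨_, hmem⟩, ?_⟩
      apply Subtype.ext
      apply Subtype.ext
      have hq0 : ((q : ℕ) : Om q) ≠ 0 := q_ne_zero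
      simp [nsmul_eq_mul, hq0]
  have h6 : ind (mulN (OO N) q) = (q : ℚ) ^ N.index := by
    rw [h5.2, if_pos rfl, finrank_EE hN]
  unfold ind at h6
  rw [hk, hr] at h6
  have h7 : (((C (ram N)).addSubgroupOf (OO N)).index : ℚ) = ((q ^ N.index : ℕ) : ℚ) := by
    rw [show Nat.card (⊥ : AddSubgroup (OO N)) = 1 by simp] at h6
    push_cast
    simpa using h6
  rw [hC0]
  exact_mod_cast h7

theorem resCard_eq : resCard N = q ^ fdeg N := by
  have h1 := resCard_pow hN
  have h2 : resCard N ∣ q ^ N.index := by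
    rw [← h1]; exact dvd_pow_self _ (ram_pos hN).ne'
  obtain ⟨k, hk, hk2⟩ := (Nat.dvd_prime_pow hq.out).mp h2
  rw [fdeg, hk2, Nat.log_pow hq.out.one_lt]

/-- `e f = n` -/
theorem ram_mul_fdeg : ram N * fdeg N = N.index := by
  have h1 := resCard_pow hN
  rw [resCard_eq hN, ← pow_mul] at h1
  rw [mul_comm]
  exact Nat.pow_right_injective hq.out.two_le h1

end

end Fermat.Agent.CFTLocal
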