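import Fermat.Agent.CFTLocal.Units

set_option autoImplicit false
set_option maxHeartbeats 400000

/-! (L1): the index of `p` on the multiplicative group of a local field. -/

namespace Fermat.Agent.CFTLocal

open Fermat.Agent.CFT

variable {q : ℕ} [hq : Fact q.Prime]

/-- underlying element of `Ω` for an element of `fix` -/
noncomputable def eF {N : Subgroup (Gq q)} (a : fix (AA q) N) : Om q := el (a : AA q)

section eF

variable {N : Subgroup (Gq q)}

theorem eF_def (a : fix (AA q) N) : eF a = el (a : AA q) := rfl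
@[simp] theorem eF_zero : eF (0 : fix (AA q) N) = 1 := rfl
@[simp] theorem eF_add (a b : fix (AA q) N) : eF (a + b) = eF a * eF b := rfl
@[simp] theorem eF_neg (a : fix (AA q) N) : eF (-a) = (eF a)⁻¹ := el_neg _
@[simp] theorem eF_nsmul (n : ℕ) (a : fix (AA q) N) : eF (n • a) = eF a ^ n := el_nsmul _ _
theorem eF_injective : Function.Injective (eF (N := N)) := fun _ _ h =>
  Subtype.ext (el_injective h)
theorem eF_ne_zero (a : fix (AA q) N) : eF a ≠ 0 := el_ne_zero _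
theorem eF_mem (a : fix (AA q) N) : eF a ∈ EE N := mem_fix_iff.mp a.2
theorem eF_fixed (a : fix (AA q) N) {g : Gq q} (hg : g ∈ N) : g (eF a) = eF a :=
  mem_EE.mp (eF_mem a) g hg

/-- nonzero elements of the fixed field -/
noncomputable def ofF (x : Om q) (hx : x ≠ 0) (h : x ∈ EE N) : fix (AA q) N :=
  ⟨mkA x hx, mem_fix_iff.mpr h⟩

@[simp] theorem eF_ofF (x : Om q) (hx : x ≠ 0) (h : x ∈ EE N) :
    eF (ofF x hx h : fix (AA q) N) = x := rfl

end eF

/-- units -/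
def UU (N : Subgroup (Gq q)) : AddSubgroup (fix (AA q) N) where
  carrier := {a | ‖eF a‖ = 1}
  zero_mem' := by simp
  add_mem' := by
    intro a b ha hb
    rw [Set.mem_ofPred_eq] at ha hb ⊢
    rw [eF_add, norm_mul, ha, hb, one_mul]
  neg_mem' := by
    intro a ha
    rw [Set.mem_ofPred_eq] at ha ⊢
    rw [eF_neg, norm_inv, ha, inv_one]

theorem mem_UU {N : Subgroup (Gq q)} {a : fix (AA q) N} : a ∈ UU N ↔ ‖eF a‖ = 1 := Iff.rfl

/-- units close to one -/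
def VV (N : Subgroup (Gq q)) (ρ : ℝ) (hρ : 0 < ρ ∧ ρ ≤ 1) : AddSubgroup (fix (AA q) N) where
  carrier := {a | ‖eF a - 1‖ < ρ}
  zero_mem' := by simpa using hρ.1
  add_mem' := by
    intro a b ha hb
    rw [Set.mem_ofPred_eq] at ha hb ⊢
    have h1 : eF (a + b) - 1 = eF a * (eF b - 1) + (eF a - 1) := by rw [eF_add]; ring
    have h2 : ‖eF a‖ = 1 := norm_eq_one_of_sub_lt (lt_of_lt_of_le ha hρ.2)
    rw [h1]
    refine (norm_add_le_max' _ _).trans_lt (max_lt ?_ ha)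
    rw [norm_mul, h2, one_mul]
    exact hb
  neg_mem' := by
    intro a ha
    rw [Set.mem_ofPred_eq] at ha ⊢
    have h2 : ‖eF a‖ = 1 := norm_eq_one_of_sub_lt (lt_of_lt_of_le ha hρ.2)
    have h1 : eF (-a) - 1 = (1 - eF a) / eF a := by
      have := eF_ne_zero a
      rw [eF_neg]; field_simp
    rw [h1, norm_div, h2, div_one, norm_sub_rev]
    exact ha

theorem mem_VV {N : Subgroup (Gq q)} {ρ : ℝ} {hρ : 0 < ρ ∧ ρ ≤ 1} {a : fix (AA q) N} :
    a ∈ VV N ρ hρ ↔ ‖eF a - 1‖ < ρ := Iff.rfl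

theorem VV_le_UU (N : Subgroup (Gq q)) (ρ : ℝ) (hρ : 0 < ρ ∧ ρ ≤ 1) : VV N ρ hρ ≤ UU N :=
  fun _ ha => norm_eq_one_of_sub_lt (lt_of_lt_of_le ha hρ.2)

/-- the open ball in the fixed field -/
noncomputable abbrev BB (N : Subgroup (Gq q)) (ρ : ℝ) (hρ : 0 < ρ) : AddSubgroup (EE N) :=
  ball' (EE N) ρ hρ

/-- the ring of integers -/
noncomputable abbrev OO (N : Subgroup (Gq q)) : AddSubgroup (EE N) := cball (EE N) 1 zero_le_one

theorem BB_in (N : Subgroup (Gq q)) (ρ : ℝ) (hρ : 0 < ρ) :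
    ∃ ρ' : ℝ, 0 < ρ' ∧ ∀ x : EE N, ‖x‖ ≤ ρ' → x ∈ BB N ρ hρ :=
  ⟨ρ / 2, by positivity, fun x hx => lt_of_le_of_lt hx (by linarith)⟩

theorem BB_out (N : Subgroup (Gq q)) (ρ : ℝ) (hρ : 0 < ρ) : ∃ ρ' : ℝ, ∀ x ∈ BB N ρ hρ, ‖x‖ ≤ ρ' :=
  ⟨ρ, fun _ hx => le_of_lt hx⟩

theorem OO_in (N : Subgroup (Gq q)) : ∃ ρ' : ℝ, 0 < ρ' ∧ ∀ x : EE N, ‖x‖ ≤ ρ' → x ∈ OO N :=
  ⟨1, one_pos, fun _ hx => hx⟩

theorem OO_out (N : Subgroup (Gq q)) : ∃ ρ' : ℝ, ∀ x ∈ OO N, ‖x‖ ≤ ρ' :=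
  ⟨1, fun _ hx => hx⟩

theorem norm_coeE {N : Subgroup (Gq q)} (x : EE N) : ‖(x : Om q)‖ = ‖x‖ := rfl

section

variable {N : Subgroup (Gq q)} (hN : IsOpen (N : Set (Gq q)))

include hN

theorem VV_relIndex (ρ : ℝ) (hρ : 0 < ρ ∧ ρ ≤ 1) : (VV N ρ hρ).relIndex (UU N) ≠ 0 := by
  have := finiteDimensional_EE hN
  have h1 : (BB N ρ hρ.1).relIndex (OO N) ≠ 0 :=
    relIndex_ne_zero (EE N) q _ _ (BB_in N ρ hρ.1) (OO_in N) (OO_out N)
  have hfin : Finite (OO N ⧸ (BB N ρ hρ.1).addSubgroupOf (OO N)) := by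
    have : ((BB N ρ hρ.1).addSubgroupOf (OO N)).FiniteIndex := ⟨h1⟩
    exact AddSubgroup.finite_quotient_of_finiteIndex
  have : Finite (UU N ⧸ (VV N ρ hρ).addSubgroupOf (UU N)) := by
    refine Finite.of_injective
      (fun x : UU N ⧸ (VV N ρ hρ).addSubgroupOf (UU N) =>
        (QuotientAddGroup.mk (⟨⟨eF (Quotient.out x : UU N).1, eF_mem _⟩,
          le_of_eq (Quotient.out x : UU N).2⟩ :
          OO N) : OO N ⧸ (BB N ρ hρ.1).addSubgroupOf (OO N))) ?_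
    intro x y hxy
    have h2 := QuotientAddGroup.eq.mp hxy
    rw [AddSubgroup.mem_addSubgroupOf] at h2
    have h3 : ‖-(eF (Quotient.out x : UU N).1) + eF (Quotient.out y : UU N).1‖ < ρ := h2
    rw [← Quotient.out_eq x, ← Quotient.out_eq y]
    apply QuotientAddGroup.eq.mpr
    rw [AddSubgroup.mem_addSubgroupOf, AddSubgroup.coe_add, AddSubgroup.coe_neg, mem_VV, eF_add,
      eF_neg]
    have h4 : ‖eF (Quotient.out x : UU N).1‖ = 1 := (Quotient.out x : UU N).2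
    have h5 := eF_ne_zero (Quotient.out x : UU N).1
    have h6 : (eF (Quotient.out x : UU N).1)⁻¹ * eF (Quotient.out y : UU N).1 - 1 =
      (-(eF (Quotient.out x : UU N).1) + eF (Quotient.out y : UU N).1) /
        eF (Quotient.out x : UU N).1 := by field_simp; ring
    rw [h6, norm_div, h4, div_one]
    exact h3
  exact AddSubgroup.index_ne_zero_of_finite

variable {p : ℕ} [hp : Fact p.Prime]

omit hN in
theorem norm_p_pos : 0 < ‖(p : Om q)‖ :=
  norm_pos_iff.mpr (Nat.cast_ne_zero.mpr hp.out.ne_zero)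

omit hN in
theorem hrho_mul {ρ : ℝ} (hρ : 0 < ρ ∧ ρ ≤ 1) : 0 < ρ * ‖(p : Om q)‖ ∧ ρ * ‖(p : Om q)‖ ≤ 1 :=
  ⟨mul_pos hρ.1 norm_p_pos, by
    have h1 := norm_natCast_le (q := q) p
    have h2 := hρ.2
    have h3 := hρ.1
    nlinarith⟩

omit hN in
/-- `p` on `V(ρ)` is injective with image `V(ρ‖p‖)`. -/
theorem mulN_VV {ζ : Om q} (hζ : IsPrimitiveRoot ζ p) {ρ : ℝ} (hρ : 0 < ρ ∧ ρ ≤ 1)
    (hρ' : ρ ≤ ‖1 - ζ‖) :
    (mulN (VV N ρ hρ) p).ker = ⊥ ∧ (mulN (VV N ρ hρ) p).range =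
      (VV N (ρ * ‖(p : Om q)‖) (hrho_mul hρ)).addSubgroupOf (VV N ρ hρ) := by
  constructor
  · rw [AddMonoidHom.ker_eq_bot_iff]
    intro x y hxy
    have h1 : eF (x : fix (AA q) N) ^ p = eF (y : fix (AA q) N) ^ p := by
      rw [← eF_nsmul, ← eF_nsmul]
      exact congrArg (fun z : VV N ρ hρ => eF (z : fix (AA q) N)) hxy
    apply Subtype.ext
    apply eF_injective
    refine root_unique hζ ?_ ?_ h1
    · rw [norm_sub_rev]; exact lt_of_lt_of_le x.2 hρ'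
    · rw [norm_sub_rev]; exact lt_of_lt_of_le y.2 hρ'
  · ext x
    rw [AddSubgroup.mem_addSubgroupOf, mem_VV]
    constructor
    · rintro ⟨y, rfl⟩
      have h0 : eF ((((mulN (VV N ρ hρ) p) y : VV N ρ hρ)) : fix (AA q) N) =
        eF (y : fix (AA q) N) ^ p := by rw [← eF_nsmul]; rfl
      rw [h0, norm_sub_rev, norm_one_sub_pow_eq hζ
        (by rw [norm_sub_rev]; exact lt_of_lt_of_le y.2 hρ')]
      refine mul_lt_mul_of_pos_right ?_ norm_p_pos
      rw [norm_sub_rev]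
      exact y.2
    · intro hx
      have h1 : ‖1 - eF (x : fix (AA q) N)‖ < ‖1 - ζ‖ * ‖(p : Om q)‖ := by
        rw [norm_sub_rev]
        exact lt_of_lt_of_le hx (mul_le_mul_of_nonneg_right hρ' (norm_nonneg _))
      obtain ⟨z, hz1, hz2⟩ := root_exists hζ h1
      have hz3 : ‖1 - z‖ < ρ := by
        have h2 := norm_one_sub_pow_eq hζ hz2
        rw [hz1, norm_sub_rev] at h2
        rw [h2] at hx
        exact lt_of_mul_lt_mul_right hx (norm_nonneg _)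
      have hz0 : z ≠ 0 := by
        rintro rfl
        rw [zero_pow hp.out.ne_zero] at hz1
        exact eF_ne_zero _ hz1.symm
      have hzf : z ∈ EE N := by
        rw [mem_EE]
        intro g hg
        refine root_unique hζ ?_ hz2 ?_
        · have : 1 - g z = g (1 - z) := by rw [map_sub, map_one]
          rw [this, norm_gal]
          exact hz2
        · rw [← map_pow, hz1, eF_fixed _ hg]
      refine ⟨⟨ofF z hz0 hzf, ?_⟩, ?_⟩
      · rw [mem_VV, eF_ofF, norm_sub_rev]; exact hz3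
      · apply Subtype.ext
        apply eF_injective
        have h0 : eF ((((mulN (VV N ρ hρ) p) ⟨ofF z hz0 hzf, by
          rw [mem_VV, eF_ofF, norm_sub_rev]; exact hz3⟩ : VV N ρ hρ)) : fix (AA q) N) =
          eF (ofF z hz0 hzf : fix (AA q) N) ^ p := by rw [← eF_nsmul]; rfl
        rw [h0, eF_ofF, hz1]

omit hN in
/-- comparison of the multiplicative and additive filtrations -/
theorem VV_BB_index {ρ ρ' : ℝ} (hρ : 0 < ρ ∧ ρ ≤ 1) (hρ' : 0 < ρ' ∧ ρ' ≤ 1)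
    (h2 : ρ * ρ ≤ ρ') (hlt : ρ < 1) : (VV N ρ' hρ').relIndex (VV N ρ hρ) =
      (BB N ρ' hρ'.1).relIndex (BB N ρ hρ.1) := by
  have hmem : ∀ a : VV N ρ hρ, (⟨eF (a : fix (AA q) N) - 1, sub_mem (eF_mem _) (one_mem _)⟩ : EE N)
      ∈ BB N ρ hρ.1 := fun a => a.2
  let φ : VV N ρ hρ →+ BB N ρ hρ.1 ⧸ (BB N ρ' hρ'.1).addSubgroupOf (BB N ρ hρ.1) :=
    AddMonoidHom.mk' (fun a => QuotientAddGroup.mk ⟨_, hmem a⟩) (by
      intro a b
      rw [← QuotientAddGroup.mk_add]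
      apply QuotientAddGroup.eq.mpr
      rw [AddSubgroup.mem_addSubgroupOf]
      have h3 : ‖-(eF (a : fix (AA q) N) * eF (b : fix (AA q) N) - 1) +
        ((eF (a : fix (AA q) N) - 1) + (eF (b : fix (AA q) N) - 1))‖ < ρ' := by
        have h3 : -(eF (a : fix (AA q) N) * eF (b : fix (AA q) N) - 1) +
          ((eF (a : fix (AA q) N) - 1) + (eF (b : fix (AA q) N) - 1)) =
          - ((eF (a : fix (AA q) N) - 1) * (eF (b : fix (AA q) N) - 1)) := by ring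
        rw [h3, norm_neg, norm_mul]
        exact lt_of_lt_of_le (mul_lt_mul'' a.2 b.2 (norm_nonneg _) (norm_nonneg _)) h2
      exact h3)
  have hker : φ.ker = (VV N ρ' hρ').addSubgroupOf (VV N ρ hρ) := by
    ext a
    rw [AddMonoidHom.mem_ker, AddSubgroup.mem_addSubgroupOf]
    have h4 : φ a = QuotientAddGroup.mk ⟨_, hmem a⟩ := rfl
    rw [h4, QuotientAddGroup.eq_zero_iff, AddSubgroup.mem_addSubgroupOf]
    exact Iff.rfl
  have hsurj : Function.Surjective φ := by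
    intro y
    obtain ⟨x, rfl⟩ := QuotientAddGroup.mk_surjective y
    have h3 : ‖((x : EE N) : Om q)‖ < ρ := x.2
    have h4 : (1 : Om q) + ((x : EE N) : Om q) ≠ 0 := by
      intro h
      have h5 : ((x : EE N) : Om q) = -1 := by linear_combination h
      rw [h5, norm_neg, norm_one] at h3
      exact absurd h3 (not_lt.mpr hlt.le)
    refine ⟨⟨ofF ((1 : Om q) + ((x : EE N) : Om q)) h4 (add_mem (one_mem _) (x : EE N).2), ?_⟩, ?_⟩
    · rw [mem_VV, eF_ofF, add_sub_cancel_left]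
      exact h3
    · have h5 : ∀ z (hz : z ∈ VV N ρ hρ), φ ⟨z, hz⟩ = QuotientAddGroup.mk ⟨_, hmem ⟨z, hz⟩⟩ :=
        fun _ _ => rfl
      rw [h5]
      congr 1
      apply Subtype.ext
      apply Subtype.ext
      change (1 : Om q) + ((x : EE N) : Om q) - 1 = _
      ring
  rw [AddSubgroup.relIndex, ← hker, AddSubgroup.index_ker, AddMonoidHom.range_eq_top.mpr hsurj,
    AddSubgroup.card_top]
  rfl

omit hN in
theorem mulN_BB {ρ : ℝ} (hρ : 0 < ρ) : (mulN (BB N ρ hρ) p).ker = ⊥ ∧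
    (mulN (BB N ρ hρ) p).range =
      (BB N (ρ * ‖(p : Om q)‖) (mul_pos hρ norm_p_pos)).addSubgroupOf (BB N ρ hρ) := by
  have hp0 : (p : Om q) ≠ 0 := Nat.cast_ne_zero.mpr hp.out.ne_zero
  have hval : ∀ y : BB N ρ hρ, ((((mulN (BB N ρ hρ) p) y : BB N ρ hρ) : EE N) : Om q) =
        (p : Om q) * ((y : EE N) : Om q) := by intro y; simp [nsmul_eq_mul]
  constructor
  · rw [AddMonoidHom.ker_eq_bot_iff]
    intro x y hxy
    have h1 : (p : Om q) * ((x : EE N) : Om q) = (p : Om q) * ((y : EE N) : Om q) := by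
      rw [← hval, ← hval, hxy]
    apply Subtype.ext
    apply Subtype.ext
    exact mul_left_cancel₀ hp0 h1
  · ext x
    rw [AddSubgroup.mem_addSubgroupOf, mem_ball']
    constructor
    · rintro ⟨y, rfl⟩
      rw [← norm_coeE, hval, norm_mul, mul_comm]
      exact mul_lt_mul_of_pos_right y.2 norm_p_pos
    · intro hx
      have hmem : (p : EE N)⁻¹ * x ∈ BB N ρ hρ := by
        rw [mem_ball', ← norm_coeE]
        have : (((p : EE N)⁻¹ * (x : EE N) : EE N) : Om q) = (p : Om q)⁻¹ * ((x : EE N) : Om q) := by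
          simp
        rw [this, norm_mul, norm_inv, inv_mul_lt_iff₀ norm_p_pos, mul_comm]
        exact hx
      refine ⟨⟨(p : EE N)⁻¹ * x, hmem⟩, ?_⟩
      apply Subtype.ext
      apply Subtype.ext
      rw [hval]
      simp [hp0]

/-- **(L1) for units** -/
theorem ind_UU : FinInd (mulN (UU N) p) ∧
    ind (mulN (UU N) p) = (p : ℚ) ^ (if p = q then N.index else 0) := by
  have := finiteDimensional_EE hN
  obtain ⟨ζ, hζ⟩ : ∃ ζ : Om q, IsPrimitiveRoot ζ p := by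
    have : NeZero ((p : ℕ) : Om q) := ⟨Nat.cast_ne_zero.mpr hp.out.ne_zero⟩
    exact HasEnoughRootsOfUnity.exists_primitiveRoot (Om q) p
  have h0 := rho_pos hζ
  have h1 := rho_le_one hζ
  have h2 := norm_p_pos (q := q) (p := p)
  have h3 := norm_natCast_le (q := q) p
  -- choose ρ
  set ρ : ℝ := min (‖1 - ζ‖) (‖(p : Om q)‖) / 2 with hρdef
  have hρ0 : 0 < ρ := by rw [hρdef]; exact half_pos (lt_min h0 h2)
  have hm1 := min_le_left (‖1 - ζ‖) (‖(p : Om q)‖)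
  have hm2 := min_le_right (‖1 - ζ‖) (‖(p : Om q)‖)
  have hρlt : ρ < 1 := by rw [hρdef]; linarith [lt_min h0 h2]
  have hρ : 0 < ρ ∧ ρ ≤ 1 := ⟨hρ0, hρlt.le⟩
  have hρ1 : ρ ≤ ‖1 - ζ‖ := by rw [hρdef]; linarith [lt_min h0 h2]
  have hρ2 : ρ ≤ ‖(p : Om q)‖ := by rw [hρdef]; linarith [lt_min h0 h2]
  obtain ⟨hk, hr⟩ := mulN_VV (N := N) hζ hρ hρ1
  obtain ⟨hk', hr'⟩ := mulN_BB (N := N) (p := p) hρ0
  have hidx : (mulN (VV N ρ hρ) p).range.index = (mulN (BB N ρ hρ0) p).range.index := by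
    rw [hr, hr']
    exact VV_BB_index hρ (hrho_mul hρ) (mul_le_mul_of_nonneg_left hρ2 hρ0.le) hρlt
  have hBB := ind_ball q p (EE N) (BB N ρ hρ0) (BB_in N ρ hρ0) (BB_out N ρ hρ0)
  have hVV : FinInd (mulN (VV N ρ hρ) p) ∧
      ind (mulN (VV N ρ hρ) p) = (p : ℚ) ^ (if p = q then N.index else 0) := by
    refine ⟨⟨by rw [hk]; simp, by rw [hidx]; exact hBB.1.coker⟩, ?_⟩
    have h4 : ind (mulN (VV N ρ hρ) p) = ind (mulN (BB N ρ hρ0) p) := by
      unfold ind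
      rw [hidx, hk, hk']
      simp
    rw [h4, hBB.2, finrank_EE hN]
    split_ifs <;> simp
  obtain ⟨h5, h6⟩ := ind_commens p (VV N ρ hρ) (UU N) (VV_le_UU N ρ hρ) (VV_relIndex hN ρ hρ) hVV.1
  exact ⟨h5, h6.trans hVV.2⟩

end

end Fermat.Agent.CFTLocal
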