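import Fermat.Agent.CFTLocal.EF

set_option autoImplicit false
set_option maxHeartbeats 400000

/-! (L2): Hilbert 90 and norm indices for layers of order `p`. -/

namespace Fermat.Agent.CFTLocal

open Fermat.Agent.CFT Finset

section chev

variable {G : Type*} [Group G] {L : Type*} [AddCommGroup L] [DistribMulAction G L]

/-- norm subgroup of a stable subgroup -/
def nrmSub (p : ℕ) (s : G) (M : AddSubgroup L) : AddSubgroup L where
  carrier := {a | ∃ b ∈ M, a = ∑ i ∈ range p, s ^ i • b}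
  zero_mem' := ⟨0, M.zero_mem, by simp⟩
  add_mem' := by
    rintro a b ⟨x, hx, rfl⟩ ⟨y, hy, rfl⟩
    exact ⟨x + y, M.add_mem hx hy, by simp [sum_add_distrib]⟩
  neg_mem' := by
    rintro a ⟨x, hx, rfl⟩
    exact ⟨-x, M.neg_mem hx, by simp⟩

/-- invariants of a subgroup -/
def fixSub (s : G) (M : AddSubgroup L) : AddSubgroup L where
  carrier := {a | a ∈ M ∧ s • a = a}
  zero_mem' := ⟨M.zero_mem, by simp⟩
  add_mem' := by
    rintro a b ⟨h1, h2⟩ ⟨h3, h4⟩
    exact ⟨M.add_mem h1 h3, by rw [smul_add, h2, h4]⟩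
  neg_mem' := by
    rintro a ⟨h1, h2⟩
    exact ⟨M.neg_mem h1, by rw [smul_neg, h2]⟩

theorem mem_fixSub {s : G} {M : AddSubgroup L} {a : L} : a ∈ fixSub s M ↔ a ∈ M ∧ s • a = a :=
  Iff.rfl

theorem mem_nrmSub {p : ℕ} {s : G} {M : AddSubgroup L} {a : L} :
    a ∈ nrmSub p s M ↔ ∃ b ∈ M, a = ∑ i ∈ range p, s ^ i • b := Iff.rfl

theorem chev {p : ℕ} [hp : Fact p.Prime] (s : G) (M : AddSubgroup L) (hM : ∀ a ∈ M, s • a ∈ M)
    (hsp : ∀ a ∈ M, s ^ p • a = a) (hfin : FinInd (mulN M p))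
    (h90 : ∀ a ∈ M, ∑ i ∈ range p, s ^ i • a = 0 → ∃ b ∈ M, a = s • b - b) :
    FinInd (mulN (fixSub s M) p) ∧ (nrmSub p s M).relIndex (fixSub s M) ≠ 0 ∧
    nrmSub p s M ≤ fixSub s M ∧
    ((nrmSub p s M).relIndex (fixSub s M) : ℚ) ^ (p - 1) * ind (mulN M p) =
      ind (mulN (fixSub s M) p) ^ p := by
  let S : Module.End ℤ M := ((AddMonoidHom.mk' (fun a : M => (⟨s • (a : L), hM a a.2⟩ : M))
    (fun a b => Subtype.ext (smul_add s (a : L) b))) : M →+ M).toIntLinearMap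
  have hS : ∀ a : M, ((S a : M) : L) = s • (a : L) := fun _ => rfl
  have hSpow : ∀ (i : ℕ) (a : M), (((S ^ i) a : M) : L) = s ^ i • (a : L) := by
    intro i
    induction i with
    | zero => intro a; simp
    | succ i ih => intro a; rw [pow_succ', Module.End.mul_apply, hS, ih, pow_succ', mul_smul]
  have hSp : S ^ p = 1 := by
    apply LinearMap.ext
    intro a
    apply Subtype.ext
    rw [hSpow, hsp a a.2]; rfl
  have hnrm : ∀ a : M, ((nrm p S a : M) : L) = ∑ i ∈ range p, s ^ i • (a : L) := by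
    intro a
    rw [nrm_apply, AddSubgroup.val_finsetSum]
    exact sum_congr rfl fun i _ => hSpow i a
  obtain ⟨h1, h2, h3, h4⟩ := chevalley p S hSp hfin
  have hfix : (fixedG S).map M.subtype = fixSub s M := by
    ext a
    constructor
    · rintro ⟨b, hb, rfl⟩
      exact ⟨b.2, congrArg Subtype.val ((mem_fixedG S).mp hb)⟩
    · rintro ⟨ha, hb⟩
      exact ⟨⟨a, ha⟩, (mem_fixedG S).mpr (Subtype.ext hb), rfl⟩
  have hrange : (ad (nrm p S)).range.map M.subtype = nrmSub p s M := by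
    ext a
    constructor
    · rintro ⟨_, ⟨c, rfl⟩, rfl⟩
      exact ⟨c, c.2, hnrm c⟩
    · rintro ⟨c, hc, rfl⟩
      exact ⟨_, ⟨⟨c, hc⟩, rfl⟩, hnrm ⟨c, hc⟩⟩
  have hker : (augG S).relIndex (ad (nrm p S)).ker = 1 := by
    rw [AddSubgroup.relIndex_eq_one]
    intro a ha
    have ha' : nrm p S a = 0 := ha
    have h5 : ∑ i ∈ range p, s ^ i • (a : L) = 0 := by
      rw [← hnrm, ha']; rfl
    obtain ⟨b, hb, hab⟩ := h90 a a.2 h5
    exact ⟨⟨b, hb⟩, Subtype.ext hab.symm⟩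
  let e : fixedG S ≃+ fixSub s M :=
    ((fixedG S).equivMapOfInjective M.subtype M.subtype_injective).trans
      (AddEquiv.addSubgroupCongr hfix)
  obtain ⟨h5, h6⟩ := ind_equiv p e h1
  have h7 : (nrmSub p s M).relIndex (fixSub s M) = (ad (nrm p S)).range.relIndex (fixedG S) := by
    rw [← hfix, ← hrange]
    exact AddSubgroup.relIndex_map_map_of_injective _ _ M.subtype_injective
  refine ⟨h5, by rw [h7]; exact h2, ?_, ?_⟩
  · rw [← hfix, ← hrange]
    apply AddSubgroup.map_mono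
    rintro _ ⟨c, rfl⟩
    exact nrm_mem_fixedG p S hSp c
  · rw [hker, Nat.cast_one, div_one] at h4
    rw [h7, h6, h4]

end chev

variable {q : ℕ} [hq : Fact q.Prime]

section group

variable {G : Type*} [Group G]

theorem pow_of_relIndex {p : ℕ} [hp : Fact p.Prime] {N U : Subgroup G}
    (hnorm : ∀ g ∈ U, ∀ k ∈ N, g * k * g⁻¹ ∈ N) (hi : N.relIndex U = p) {s : G} (hsU : s ∈ U)
    (hs : s ∉ N) :
    s ^ p ∈ N ∧ (∀ g ∈ U, ∃ i : ℕ, ∃ k ∈ N, g = s ^ i * k) ∧ ∀ i : ℕ, s ^ i ∈ N → p ∣ i := by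
  have : (N.subgroupOf U).Normal := ⟨fun k hk g => hnorm g g.2 k hk⟩
  obtain ⟨h1, h2, h3⟩ := pow_of_index (N.subgroupOf U) hi (s := ⟨s, hsU⟩) hs
  refine ⟨h1, fun g hg => ?_, fun i hi => h3 i hi⟩
  obtain ⟨i, k, hk, hgk⟩ := h2 ⟨g, hg⟩
  exact ⟨i, k, hk, congrArg Subtype.val hgk⟩

end group

section H90

variable {N U : Subgroup (Gq q)} (hN : IsOpen (N : Set (Gq q)))

include hN

/-- Hilbert 90 in the cyclic case. -/
theorem hilbert90 {n : ℕ} (s : Gq q) (hnorm : ∀ k ∈ N, s⁻¹ * k * s ∈ N) (hn : 0 < n)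
    (hsn : s ^ n ∈ N) (hord : ∀ i : ℕ, s ^ i ∈ N → n ∣ i) (a : AA q) (ha : a ∈ fix (AA q) N)
    (hsum : ∑ i ∈ range n, s ^ i • a = 0) : ∃ b ∈ fix (AA q) N, a = s • b - b := by
  classical
  have hsE : ∀ x ∈ EE N, s x ∈ EE N := by
    intro x hx
    rw [mem_EE] at hx ⊢
    intro g hg
    have h1 := hx _ (hnorm g hg)
    have h2 : (s * (s⁻¹ * g * s)) x = s x := by rw [AlgEquiv.mul_apply, h1]
    have h3 : g * s = s * (s⁻¹ * g * s) := by group
    calc g (s x) = (g * s) x := rfl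
      _ = s x := by rw [h3, h2]
  -- independent homs
  let f : Fin n → (EE N →* Om q) := fun i =>
    { toFun := fun x => (s ^ (i : ℕ)) (x : Om q)
      map_one' := by simp
      map_mul' := fun x y => by simp }
  have hfinj : Function.Injective f := by
    have key : ∀ i j : ℕ, i ≤ j → j < n → (∀ x : EE N, (s ^ i) (x : Om q) = (s ^ j) (x : Om q)) →
        i = j := by
      intro i j hij hjn h
      have h1 : s ^ (j - i) ∈ (EE N).fixingSubgroup := by
        rw [IntermediateField.mem_fixingSubgroup_iff]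
        intro x hx
        have h2 := h ⟨x, hx⟩
        have h3 : s ^ j = s ^ i * s ^ (j - i) := by rw [← pow_add]; congr 1; omega
        rw [h3, AlgEquiv.mul_apply] at h2
        exact ((s ^ i).injective h2).symm
      rw [fixing_EE hN] at h1
      have h4 := hord _ h1
      have h5 := Nat.eq_zero_of_dvd_of_lt h4 (by omega)
      omega
    intro i j hij
    have h6 : ∀ x : EE N, (s ^ (i : ℕ)) (x : Om q) = (s ^ (j : ℕ)) (x : Om q) :=
      fun x => DFunLike.congr_fun hij x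
    apply Fin.ext
    rcases le_total (i : ℕ) (j : ℕ) with h | h
    · exact key i j h j.2 h6
    · exact (key j i h i.2 (fun x => (h6 x).symm)).symm
  have hind := (linearIndependent_monoidHom (EE N) (Om q)).comp f hfinj
  -- coefficients
  let c : ℕ → Om q := fun i => ∏ j ∈ range i, (s ^ j) (el a)
  have hc0 : c 0 = 1 := by simp [c]
  have hcs : ∀ i, el a * s (c i) = c (i + 1) := by
    intro i
    simp only [c]
    rw [map_prod, prod_range_succ', pow_zero, AlgEquiv.one_apply, mul_comm]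
    congr 1
    refine prod_congr rfl fun j _ => ?_
    rw [pow_succ']; rfl
  have hcn : c n = 1 := by
    have : ∀ i, el (∑ j ∈ range i, s ^ j • a) = c i := by
      intro i
      induction i with
      | zero => simp [c]
      | succ i ih => rw [sum_range_succ, el_add, ih]; simp only [c, prod_range_succ]; rfl
    rw [← this, hsum, el_zero]
  have hne : ∃ x : EE N, ∑ i ∈ range n, c i * (s ^ i) (x : Om q) ≠ 0 := by
    by_contra hcon
    push Not at hcon
    have h1 : ∑ i : Fin n, c i • (((fun f => f : (EE N →* Om q) → EE N → Om q)) ∘ f) i = 0 := by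
      funext x
      rw [Finset.sum_apply]
      have := hcon x
      rw [Finset.sum_range] at this
      simpa [f] using this
    have h2 := Fintype.linearIndependent_iff.mp hind (fun i => c i) h1 ⟨0, hn⟩
    rw [show ((⟨0, hn⟩ : Fin n) : ℕ) = 0 from rfl, hc0] at h2
    exact one_ne_zero h2
  obtain ⟨x, hx⟩ := hne
  set B := ∑ i ∈ range n, c i * (s ^ i) (x : Om q) with hB
  have hsB : el a * s B = B := by
    obtain ⟨m, rfl⟩ : ∃ m, n = m + 1 := ⟨n - 1, by omega⟩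
    rw [hB, map_sum, mul_sum]
    have h1 : ∀ i ∈ range (m + 1), el a * s (c i * (s ^ i) (x : Om q)) =
        c (i + 1) * (s ^ (i + 1)) (x : Om q) := by
      intro i _
      rw [map_mul, ← mul_assoc, hcs, pow_succ']; rfl
    rw [sum_congr rfl h1, sum_range_succ, sum_range_succ' (fun i => c i * (s ^ i) (x : Om q)) m]
    congr 1
    rw [hcn, hc0, pow_zero, AlgEquiv.one_apply]
    rw [mem_EE.mp x.2 _ hsn]
  have hpowE : ∀ (i : ℕ) (y : Om q), y ∈ EE N → (s ^ i) y ∈ EE N := by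
    intro i
    induction i with
    | zero => intro y hy; simpa using hy
    | succ i ih =>
      intro y hy
      rw [pow_succ']
      exact hsE _ (ih y hy)
  have hBE : B ∈ EE N := by
    refine sum_mem fun i _ => mul_mem (prod_mem fun j _ => ?_) (hpowE i _ x.2)
    exact hpowE j _ (mem_fix_iff.mp ha)
  refine ⟨-(mkA B hx), neg_mem (mem_fix_iff.mpr (by rw [el_mkA]; exact hBE)), ?_⟩
  apply el_injective
  rw [smul_neg, sub_neg_eq_add, neg_add_eq_sub, el_sub, el_smul, el_mkA, eq_div_iff]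
  · exact hsB
  · intro h
    exact hx ((map_eq_zero_iff s s.injective).mp h)

end H90

theorem norm_inv' {G : Type*} [Group G] {N U : Subgroup G} {s : G}
    (hnorm : ∀ g ∈ U, ∀ k ∈ N, g * k * g⁻¹ ∈ N) (hsU : s ∈ U) {k : G} (hk : k ∈ N) :
    s⁻¹ * k * s ∈ N := by
  have := hnorm s⁻¹ (U.inv_mem hsU) k hk
  simpa using this

section L2

variable {N U : Subgroup (Gq q)} (hN : IsOpen (N : Set (Gq q))) (hNU : N ≤ U)
  (hnorm : ∀ g ∈ U, ∀ k ∈ N, g * k * g⁻¹ ∈ N) {p : ℕ} [hp : Fact p.Prime]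
  (hi : N.relIndex U = p) {s : Gq q} (hsU : s ∈ U) (hs : s ∉ N)

include hNU hnorm hi hsU hs

theorem smul_fix {a : AA q} (ha : a ∈ fix (AA q) N) : s • a ∈ fix (AA q) N := by
  intro k hk
  have h1 := ha _ (norm_inv' hnorm hsU hk)
  calc k • s • a = s • (s⁻¹ * k * s) • a := by rw [smul_smul, smul_smul]; congr 1; group
    _ = s • a := by rw [h1]

theorem fixSub_eq : fixSub s (fix (AA q) N) = fix (AA q) U := by
  obtain ⟨h1, h2, h3⟩ := pow_of_relIndex hnorm hi hsU hs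
  ext a
  constructor
  · rintro ⟨ha, hb⟩ g hg
    obtain ⟨i, k, hk, rfl⟩ := h2 g hg
    rw [mul_smul, ha k hk]
    clear hg
    induction i with
    | zero => simp
    | succ i ih => rw [pow_succ, mul_smul, hb, ih]
  · intro ha
    exact ⟨fix_mono hNU ha, ha s hsU⟩

include hN

/-- **(L2)** -/
theorem L2_main : (∀ a ∈ fix (AA q) N, ∑ i ∈ range p, s ^ i • a = 0 →
    ∃ b ∈ fix (AA q) N, a = s • b - b) ∧ (nrmGrp p s N).relIndex (fix (AA q) U) = p := by
  obtain ⟨h1, h2, h3⟩ := pow_of_relIndex hnorm hi hsU hs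
  have h90 : ∀ a ∈ fix (AA q) N, ∑ i ∈ range p, s ^ i • a = 0 →
      ∃ b ∈ fix (AA q) N, a = s • b - b := fun a ha h =>
    hilbert90 hN s (fun k hk => norm_inv' hnorm hsU hk) hp.out.pos h1 h3 a ha h
  refine ⟨h90, ?_⟩
  have hU : IsOpen (U : Set (Gq q)) := Subgroup.isOpen_mono hNU hN
  obtain ⟨h4, h5, h6, h7⟩ := chev s (fix (AA q) N)
    (fun a ha => smul_fix hNU hnorm hi hsU hs ha) (fun a ha => ha _ h1) (ind_fix hN p).1 h90
  rw [fixSub_eq hNU hnorm hi hsU hs] at h5 h7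
  rw [(ind_fix hN p).2, (ind_fix hU p).2] at h7
  have hidx : N.index = p * U.index := by rw [← hi, Subgroup.relIndex_mul_index hNU]
  have hp0 : (p : ℚ) ≠ 0 := Nat.cast_ne_zero.mpr hp.out.ne_zero
  have hp1 : p - 1 + 1 = p := Nat.sub_add_cancel hp.out.one_le
  have h8 : ((nrmSub p s (fix (AA q) N)).relIndex (fix (AA q) U) : ℚ) ^ (p - 1) =
      (p : ℚ) ^ (p - 1) := by
    have h9 : ((p : ℚ) ^ (if p = q then U.index else 0)) ^ p =
        (p : ℚ) ^ (if p = q then N.index else 0) := by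
      rw [hidx, ← pow_mul]
      congr 1
      split_ifs <;> simp [mul_comm]
    rw [mul_pow, h9] at h7
    have h10 : (p : ℚ) ^ p = (p : ℚ) ^ (p - 1) * p := by rw [← pow_succ, hp1]
    rw [h10] at h7
    have h11 : (p : ℚ) * (p : ℚ) ^ (if p = q then N.index else 0) ≠ 0 :=
      mul_ne_zero hp0 (pow_ne_zero _ hp0)
    apply mul_right_cancel₀ h11
    rw [h7]; ring
  have h9 : (nrmSub p s (fix (AA q) N)).relIndex (fix (AA q) U) ^ (p - 1) = p ^ (p - 1) := by
    exact_mod_cast h8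
  exact Nat.pow_left_injective (by have := hp.out.two_le; omega : p - 1 ≠ 0) h9

/-- **(L2)** in the form needed for layers -/
theorem L2_relFin : (∀ a ∈ fix (AA q) N, ∑ i ∈ range p, s ^ i • a = 0 →
    ∃ b ∈ fix (AA q) N, a = s • b - b) ∧ RelFin (nrmGrp p s N) (fix (AA q) U) p := by
  obtain ⟨h1, h2⟩ := L2_main hN hNU hnorm hi hsU hs
  exact ⟨h1, by rw [h2]; exact hp.out.ne_zero, by rw [h2]⟩

/-- **(L2u)** -/
theorem L2_units (hunr : ∀ a ∈ fix (AA q) N, ∃ b ∈ fix (AA q) U, ∃ c ∈ LU q, a = b + c)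
    (a : AA q) (ha : a ∈ fix (AA q) U) (ha' : a ∈ LU q) :
    ∃ b ∈ fix (AA q) N, b ∈ LU q ∧ a = ∑ i ∈ range p, s ^ i • b := by
  obtain ⟨h1, h2, h3⟩ := pow_of_relIndex hnorm hi hsU hs
  have hU : IsOpen (U : Set (Gq q)) := Subgroup.isOpen_mono hNU hN
  have hUU : ∀ (W : Subgroup (Gq q)), (UU W).map (fix (AA q) W).subtype = fix (AA q) W ⊓ LU q := by
    intro W
    ext x
    constructor
    · rintro ⟨y, hy, rfl⟩
      refine ⟨y.2, ?_⟩
      change ‖(((y : AA q).toMul : (PadicAlgCl q)ˣ) : PadicAlgCl q)‖₊ = 1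
      rw [← NNReal.coe_inj, coe_nnnorm, NNReal.coe_one]
      exact hy
    · rintro ⟨hx, hy⟩
      refine ⟨⟨x, hx⟩, ?_, rfl⟩
      have hy' : ‖((x.toMul : (PadicAlgCl q)ˣ) : PadicAlgCl q)‖₊ = 1 := hy
      rw [← NNReal.coe_inj, coe_nnnorm, NNReal.coe_one] at hy'
      exact hy'
  have hind : ∀ (W : Subgroup (Gq q)), IsOpen (W : Set (Gq q)) →
      FinInd (mulN ↥(fix (AA q) W ⊓ LU q) p) ∧
      ind (mulN ↥(fix (AA q) W ⊓ LU q) p) = (p : ℚ) ^ (if p = q then W.index else 0) := by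
    intro W hW
    obtain ⟨h4, h5⟩ := ind_UU hW (p := p)
    obtain ⟨h6, h7⟩ := ind_equiv p (((UU W).equivMapOfInjective (fix (AA q) W).subtype
      (fix (AA q) W).subtype_injective).trans (AddEquiv.addSubgroupCongr (hUU W))) h4
    exact ⟨h6, h7.trans h5⟩
  have h90 : ∀ a ∈ fix (AA q) N ⊓ LU q, ∑ i ∈ range p, s ^ i • a = 0 →
      ∃ b ∈ fix (AA q) N ⊓ LU q, a = s • b - b := by
    intro a ha h
    obtain ⟨b, hb, hab⟩ :=
      hilbert90 hN s (fun k hk => norm_inv' hnorm hsU hk) hp.out.pos h1 h3 a ha.1 h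
    obtain ⟨b', hb', c, hc, rfl⟩ := hunr b hb
    refine ⟨c, ⟨?_, hc⟩, ?_⟩
    · have : c = (b' + c) - b' := by abel
      rw [this]
      exact (fix (AA q) N).sub_mem hb (fix_mono hNU hb')
    · rw [hab, smul_add, hb' s hsU]; abel
  obtain ⟨h4, h5, h6, h7⟩ := chev s (fix (AA q) N ⊓ LU q)
    (fun a ha => ⟨smul_fix hNU hnorm hi hsU hs ha.1, smul_mem_LU s ha.2⟩)
    (fun a ha => ha.1 _ h1) (hind N hN).1 h90
  have h8 : fixSub s (fix (AA q) N ⊓ LU q) = fix (AA q) U ⊓ LU q := by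
    rw [← fixSub_eq hNU hnorm hi hsU hs]
    ext x
    constructor
    · rintro ⟨⟨h1, h2⟩, h3⟩; exact ⟨⟨h1, h3⟩, h2⟩
    · rintro ⟨⟨h1, h3⟩, h2⟩; exact ⟨⟨h1, h2⟩, h3⟩
  rw [h8] at h5 h6 h7
  rw [(hind N hN).2, (hind U hU).2] at h7
  have hidx : N.index = p * U.index := by rw [← hi, Subgroup.relIndex_mul_index hNU]
  have hp0 : (p : ℚ) ≠ 0 := Nat.cast_ne_zero.mpr hp.out.ne_zero
  have h9 : ((p : ℚ) ^ (if p = q then U.index else 0)) ^ p =
      (p : ℚ) ^ (if p = q then N.index else 0) := by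
    rw [hidx, ← pow_mul]
    congr 1
    split_ifs <;> simp [mul_comm]
  rw [h9] at h7
  have h10 : ((nrmSub p s (fix (AA q) N ⊓ LU q)).relIndex (fix (AA q) U ⊓ LU q) : ℚ) ^ (p - 1) =
      1 := mul_right_cancel₀ (pow_ne_zero _ hp0) (h7.trans (one_mul _).symm)
  have h11 : (nrmSub p s (fix (AA q) N ⊓ LU q)).relIndex (fix (AA q) U ⊓ LU q) = 1 := by
    have h12 : (nrmSub p s (fix (AA q) N ⊓ LU q)).relIndex (fix (AA q) U ⊓ LU q) ^ (p - 1) =
      1 ^ (p - 1) := by rw [one_pow]; exact_mod_cast h10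
    exact Nat.pow_left_injective (by have := hp.out.two_le; omega : p - 1 ≠ 0) h12
  rw [AddSubgroup.relIndex_eq_one] at h11
  obtain ⟨b, hb, hab⟩ := h11 ⟨ha, ha'⟩
  exact ⟨b, hb.1, hb.2, hab⟩

end L2

end Fermat.Agent.CFTLocal
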