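import Fermat.Agent.CFTLocal.L2

set_option autoImplicit false
set_option maxHeartbeats 400000

/-! Layer hypotheses on quotients, and `H¹ = 0`. -/

namespace Fermat.Agent.CFT

open Finset

section quot

variable {U : Type*} [Group U] {A : Type*} [AddCommGroup A] [DistribMulAction U A]

theorem fix_quot_map (N : Subgroup U) [N.Normal] (Q : Subgroup (U ⧸ N)) :
    (fix (fix A N) Q).map (fix A N).subtype = fix A (Q.comap (QuotientGroup.mk' N)) := by
  ext a
  constructor
  · rintro ⟨b, hb, rfl⟩ g hg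
    have h1 := hb _ hg
    exact congrArg Subtype.val h1
  · intro ha
    have haN : a ∈ fix A N := by
      intro n hn
      apply ha
      rw [Subgroup.mem_comap]
      have : (QuotientGroup.mk' N) n = 1 := (QuotientGroup.eq_one_iff n).mpr hn
      rw [this]; exact Q.one_mem
    refine ⟨⟨a, haN⟩, ?_, rfl⟩
    intro g hg
    induction g using QuotientGroup.induction_on with
    | H g => exact Subtype.ext (ha g hg)

/-- transfer of the layer hypothesis to a quotient -/
theorem layerHyp_quot (p : ℕ) (N : Subgroup U) [hN : N.Normal]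
    (h : ∀ (Q' Q : Subgroup U) (s : U), N ≤ Q' → Q' ≤ Q → s ∈ Q → s ∉ Q' → Q'.relIndex Q = p →
      (∀ g ∈ Q, ∀ k ∈ Q', g * k * g⁻¹ ∈ Q') →
      (∀ a ∈ fix A Q', ∑ i ∈ range p, s ^ i • a = 0 → ∃ b ∈ fix A Q', a = s • b - b) ∧
        RelFin (nrmGrp p s Q') (fix A Q) p) : LayerHyp p (U ⧸ N) (fix A N) := by
  intro Q' Q s hQ _ hs hs' hrel hnorm
  obtain ⟨t, rfl⟩ := QuotientGroup.mk'_surjective N s
  set π := QuotientGroup.mk' N with hπ
  have hπs : Function.Surjective π := QuotientGroup.mk'_surjective N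
  have hle : N ≤ Q'.comap π := by
    intro n hn
    rw [Subgroup.mem_comap]
    have : π n = 1 := (QuotientGroup.eq_one_iff n).mpr hn
    rw [this]; exact Q'.one_mem
  obtain ⟨h1, h2⟩ := h (Q'.comap π) (Q.comap π) t hle (Subgroup.comap_mono hQ) hs hs'
    (by rw [Subgroup.relIndex_comap, Subgroup.map_comap_eq_self_of_surjective hπs, hrel])
    (fun g hg k hk => by
      rw [Subgroup.mem_comap, map_mul, map_mul, map_inv]
      exact hnorm _ hg _ hk)
  have hval : ∀ (i : ℕ) (b : fix A N), (((π t) ^ i • b : fix A N) : A) = t ^ i • (b : A) := by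
    intro i b
    rw [← map_pow]; rfl
  have hsum : ∀ (b : fix A N), ((∑ i ∈ range p, (π t) ^ i • b : fix A N) : A) =
      ∑ i ∈ range p, t ^ i • (b : A) := by
    intro b
    rw [AddSubgroup.val_finsetSum]
    exact sum_congr rfl fun i _ => hval i b
  refine ⟨?_, ?_⟩
  · intro a ha hsa
    obtain ⟨b, hb, hab⟩ := h1 (a : A) (by rw [← fix_quot_map]; exact ⟨a, ha, rfl⟩) (by
      rw [← hsum, hsa]; rfl)
    rw [← fix_quot_map] at hb
    obtain ⟨b', hb', rfl⟩ := hb
    exact ⟨b', hb', Subtype.ext hab⟩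
  · have e1 : (nrmGrp p (π t) Q' : AddSubgroup (fix A N)).map (fix A N).subtype =
        nrmGrp p t (Q'.comap π) := by
      ext a
      constructor
      · rintro ⟨_, ⟨b, hb, rfl⟩, rfl⟩
        exact ⟨b, by rw [← fix_quot_map]; exact ⟨b, hb, rfl⟩, hsum b⟩
      · rintro ⟨b, hb, rfl⟩
        rw [← fix_quot_map] at hb
        obtain ⟨b', hb', rfl⟩ := hb
        exact ⟨_, ⟨b', hb', rfl⟩, hsum b'⟩
    have e2 := AddSubgroup.relIndex_map_map_of_injective
      (nrmGrp p (π t) Q' : AddSubgroup (fix A N)) (fix (fix A N) Q) (fix A N).subtype_injective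
    rw [e1, fix_quot_map] at e2
    unfold RelFin at h2 ⊢
    rwa [e2] at h2

end quot

end Fermat.Agent.CFT

namespace Fermat.Agent.CFTLocal

open Fermat.Agent.CFT Finset

variable {q : ℕ} [hq : Fact q.Prime]

theorem layerHyp_local (p : ℕ) [hp : Fact p.Prime] (N : Subgroup (Gq q)) [N.Normal]
    (hN : IsOpen (N : Set (Gq q))) : LayerHyp p (Gq q ⧸ N) (fix (AA q) N) :=
  layerHyp_quot p N fun _ _ _ h1 h2 h3 h4 h5 h6 =>
    L2_relFin (Subgroup.isOpen_mono h1 hN) h2 h6 h5 h3 h4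

/-- `H¹ = 0` for all subgroups. -/
theorem h1_zero (N : Subgroup (Gq q)) [hNn : N.Normal] (hN : IsOpen (N : Set (Gq q)))
    (H : Subgroup (Gq q ⧸ N)) : Z1 H (fix (AA q) N) ≤ B1 H (fix (AA q) N) := by
  classical
  intro c hc
  have hfin : Finite (Gq q ⧸ N) := Subgroup.quotient_finite_of_isOpen N hN
  have : Fintype H := Fintype.ofFinite H
  let f : H → (EE N →* Om q) := fun h =>
    { toFun := fun x => (Quotient.out (h : Gq q ⧸ N) : Gq q) (x : Om q)
      map_one' := by simp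
      map_mul' := fun x y => by simp }
  have hout : ∀ (g : Gq q) (x : Om q), x ∈ EE N →
      (Quotient.out (QuotientGroup.mk g : Gq q ⧸ N) : Gq q) x = g x := by
    intro g x hx
    have h1 : (QuotientGroup.mk (Quotient.out (QuotientGroup.mk g : Gq q ⧸ N)) : Gq q ⧸ N) =
      QuotientGroup.mk g := Quotient.out_eq _
    rw [QuotientGroup.eq] at h1
    have h2 := mem_EE.mp hx _ h1
    have h3 : g x = (Quotient.out (QuotientGroup.mk g : Gq q ⧸ N) : Gq q)
        (((Quotient.out (QuotientGroup.mk g : Gq q ⧸ N) : Gq q)⁻¹ * g) x) := by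
      rw [← AlgEquiv.mul_apply]; congr 1; group
    rw [h3, h2]
  have hfinj : Function.Injective f := by
    intro h h' hh
    have h1 : (Quotient.out (h : Gq q ⧸ N) : Gq q)⁻¹ * Quotient.out (h' : Gq q ⧸ N) ∈
        (EE N).fixingSubgroup := by
      rw [IntermediateField.mem_fixingSubgroup_iff]
      intro x hx
      have h2 : (Quotient.out (h : Gq q ⧸ N) : Gq q) x = (Quotient.out (h' : Gq q ⧸ N) : Gq q) x :=
        DFunLike.congr_fun hh ⟨x, hx⟩
      rw [AlgEquiv.mul_apply, ← h2, ← AlgEquiv.mul_apply]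
      simp
    rw [fixing_EE hN, ← QuotientGroup.eq] at h1
    have e1 : ∀ y : Gq q ⧸ N, (QuotientGroup.mk (Quotient.out y) : Gq q ⧸ N) = y :=
      fun y => Quotient.out_eq y
    rw [e1, e1] at h1
    exact Subtype.ext h1
  have hind := (linearIndependent_monoidHom (EE N) (Om q)).comp f hfinj
  have hne : ∃ x : EE N, ∑ h : H, eF (c h) * (Quotient.out (h : Gq q ⧸ N) : Gq q) (x : Om q)
      ≠ 0 := by
    by_contra hcon
    push Not at hcon
    have h1 : ∑ h : H, eF (c h) • (((fun f => f : (EE N →* Om q) → EE N → Om q)) ∘ f) h = 0 := by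
      funext x
      rw [Finset.sum_apply]
      exact hcon x
    exact eF_ne_zero _ (Fintype.linearIndependent_iff.mp hind (fun h => eF (c h)) h1 1)
  obtain ⟨x, hx⟩ := hne
  obtain ⟨B, hB⟩ : ∃ B, B = ∑ h : H, eF (c h) * (Quotient.out (h : Gq q ⧸ N) : Gq q) (x : Om q) :=
    ⟨_, rfl⟩
  rw [← hB] at hx
  have hgx : ∀ g : Gq q, g (x : Om q) ∈ EE N := by
    intro g
    rw [mem_EE]
    intro n hn
    have h1 : g⁻¹ * n * g ∈ N := by simpa using hNn.conj_mem n hn g⁻¹
    have h2 := mem_EE.mp x.2 _ h1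
    calc n (g (x : Om q)) = g ((g⁻¹ * n * g) (x : Om q)) := by
          rw [← AlgEquiv.mul_apply, ← AlgEquiv.mul_apply]; congr 1; group
      _ = g (x : Om q) := by rw [h2]
  have hBE : B ∈ EE N := by
    rw [hB]
    exact sum_mem fun h _ => mul_mem (eF_mem _) (hgx _)
  have key : ∀ (g : Gq q) (hg : (QuotientGroup.mk g : Gq q ⧸ N) ∈ H),
      eF (c ⟨QuotientGroup.mk g, hg⟩) * g B = B := by
    intro g hg
    obtain ⟨γ, hγ⟩ : ∃ γ : H, γ = ⟨QuotientGroup.mk g, hg⟩ := ⟨_, rfl⟩
    rw [← hγ]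
    have hγ' : (γ : Gq q ⧸ N) = QuotientGroup.mk g := by rw [hγ]
    conv_rhs => rw [hB]
    conv_lhs => rw [hB]
    rw [map_sum, mul_sum]
    rw [← Equiv.sum_comp (Equiv.mulLeft γ)
      (fun h : H => eF (c h) * (Quotient.out (h : Gq q ⧸ N) : Gq q) (x : Om q))]
    refine sum_congr rfl fun h _ => ?_
    rw [map_mul, ← mul_assoc]
    have h1 : eF (c γ) * g (eF (c h)) = eF (c (γ * h)) := by
      rw [hc γ h, eF_add]
      congr 1
      have h2 : (γ • c h : fix (AA q) N) = (QuotientGroup.mk g : Gq q ⧸ N) • c h := by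
        rw [← hγ']; rfl
      rw [h2]
      rfl
    have h2 : g ((Quotient.out (h : Gq q ⧸ N) : Gq q) (x : Om q)) =
        (Quotient.out ((γ * h : H) : Gq q ⧸ N) : Gq q) (x : Om q) := by
      have h3 : ((γ * h : H) : Gq q ⧸ N) =
          QuotientGroup.mk (g * (Quotient.out (h : Gq q ⧸ N) : Gq q)) := by
        rw [QuotientGroup.mk_mul, Subgroup.coe_mul, hγ']
        congr 1
        exact (Quotient.out_eq (h : Gq q ⧸ N)).symm
      rw [h3, hout _ _ x.2]; rfl
    rw [h1, h2]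
    rfl
  refine ⟨-(ofF B hx hBE), fun γ => ?_⟩
  obtain ⟨γ, hγ⟩ := γ
  obtain ⟨g, rfl⟩ := QuotientGroup.mk_surjective γ
  apply eF_injective
  rw [smul_neg, sub_neg_eq_add, eF_add, eF_neg, eF_ofF]
  have h1 : eF ((⟨QuotientGroup.mk g, hγ⟩ : H) • (ofF B hx hBE : fix (AA q) N)) = g B := rfl
  rw [h1, inv_mul_eq_div, eq_div_iff]
  · exact key g hγ
  · intro h
    exact hx ((map_eq_zero_iff g g.injective).mp h)

end Fermat.Agent.CFTLocal
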