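import Fermat.Agent.CFTLocal.Unram
import Fermat.Agent.CFTLocal.Layer

set_option autoImplicit false
set_option maxHeartbeats 400000

/-! (L3): the local fundamental class. -/

namespace Fermat.Agent.CFTLocal

open Fermat.Agent.CFT Finset

variable {q : ℕ} [hq : Fact q.Prime]

theorem norm_sum_pow (s : Gq q) (b : AA q) (n : ℕ) :
    ‖el (∑ i ∈ range n, s ^ i • b)‖ = ‖el b‖ ^ n := by
  induction n with
  | zero => simp
  | succ n ih => rw [sum_range_succ, el_add, norm_mul, ih, el_smul, norm_gal, pow_succ]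

/-- surjectivity of the divided character -/
theorem exists_gen {m : ℕ} (hm : 0 < m) {N : Subgroup (Gq q)} (hN : IsOpen (N : Set (Gq q))) :
    ∃ s ∈ N, (((dg m s).val / m.gcd (fdeg N) : ℕ) : ZMod (m / m.gcd (fdeg N))) = 1 := by
  have hNZ : NeZero m := ⟨hm.ne'⟩
  have h1 := (unram hm hN).2
  have hdv : ∀ σ ∈ N, m.gcd (fdeg N) ∣ (dg m σ).val := fun σ hσ => gcd_dvd_dg hm hN hσ
  have hg0pos : 0 < m.gcd (fdeg N) := Nat.gcd_pos_of_pos_left _ hm
  have hgm : m.gcd (fdeg N) ∣ m := Nat.gcd_dvd_left _ _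
  generalize m.gcd (fdeg N) = g0 at h1 hdv hg0pos hgm ⊢
  obtain ⟨M, hmM⟩ := hgm
  have hM : m / g0 = M := by rw [hmM, Nat.mul_div_cancel_left _ hg0pos]
  rw [hM] at h1 ⊢
  have hMpos : 0 < M := Nat.pos_of_ne_zero (by rintro h; rw [h, mul_zero] at hmM; omega)
  have : NeZero M := ⟨hMpos.ne'⟩
  let ψ : N →* Multiplicative (ZMod M) := MonoidHom.mk' (fun σ =>
    Multiplicative.ofAdd (((dg m (σ : Gq q)).val / g0 : ℕ) : ZMod M)) (by
      intro a b
      rw [← ofAdd_add]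
      congr 1
      rw [Subgroup.coe_mul, dg_mul hm]
      exact div_add hmM hg0pos _ _ (hdv _ a.2) (hdv _ b.2))
  have hker : ψ.ker = (N ⊓ Km q hm).subgroupOf N := by
    ext σ
    rw [MonoidHom.mem_ker, Subgroup.mem_subgroupOf]
    have h1 : ψ σ = Multiplicative.ofAdd (((dg m (σ : Gq q)).val / g0 : ℕ) : ZMod M) := rfl
    rw [h1, ofAdd_eq_one, ZMod.natCast_eq_zero_iff, Subgroup.mem_inf, mem_Km]
    obtain ⟨c, hc⟩ := hdv _ σ.2
    constructor
    · rintro h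
      refine ⟨σ.2, ?_⟩
      rw [hc, Nat.mul_div_cancel_left _ hg0pos] at h
      rw [← ZMod.val_eq_zero]
      have h2 : m ∣ (dg m (σ : Gq q)).val := by rw [hc, hmM]; exact Nat.mul_dvd_mul_left _ h
      exact Nat.eq_zero_of_dvd_of_lt h2 (ZMod.val_lt _)
    · rintro ⟨_, h⟩
      rw [h, ZMod.val_zero, Nat.zero_div]; exact dvd_zero _
  rw [Subgroup.relIndex, ← hker, Subgroup.index_ker] at h1
  have h5 : ψ.range = ⊤ := by
    apply Subgroup.eq_top_of_card_eq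
    rw [h1, Nat.card_congr Multiplicative.toAdd, Nat.card_zmod]
  have h6 : Multiplicative.ofAdd (1 : ZMod M) ∈ ψ.range := by rw [h5]; trivial
  obtain ⟨s, hs⟩ := h6
  exact ⟨s, s.2, hs⟩

/-- the residue degree of `ℚ_q` is one -/
theorem fdeg_top : fdeg (⊤ : Subgroup (Gq q)) = 1 := by
  have hT : IsOpen ((⊤ : Subgroup (Gq q)) : Set (Gq q)) := isOpen_univ
  have h1 := ram_mul_fdeg hT
  rw [Subgroup.index_top] at h1
  exact Nat.eq_one_of_mul_eq_one_left h1

theorem dg_surj {m : ℕ} (hm : 0 < m) : ∃ s : Gq q, dg m s = 1 := by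
  have : NeZero m := ⟨hm.ne'⟩
  have hT : IsOpen ((⊤ : Subgroup (Gq q)) : Set (Gq q)) := isOpen_univ
  obtain ⟨s, -, hs⟩ := exists_gen hm hT
  rw [fdeg_top, Nat.gcd_one_right, Nat.div_one, Nat.div_one, ZMod.natCast_zmod_val] at hs
  exact ⟨s, hs⟩

/-- norms in value groups -/
theorem exists_pow_of_mem_VG {N N' : Subgroup (Gq q)} {π : fix (AA q) N}
    (hπ : ∀ a : fix (AA q) N, ∃ k : ℤ, ‖eF a‖ = ‖eF π‖ ^ k) (hVG : VG N' = VG N)
    (b : AA q) (hb : b ∈ fix (AA q) N') : ∃ k : ℤ, ‖el b‖ = ‖eF π‖ ^ k := by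
  have h1 : lg N' ⟨b, hb⟩ ∈ VG N := hVG ▸ ⟨_, rfl⟩
  obtain ⟨a, ha⟩ := h1
  obtain ⟨k, hk⟩ := hπ a
  refine ⟨k, ?_⟩
  rw [← hk]
  have h2 : Real.log ‖eF a‖ = Real.log ‖el b‖ := ha
  exact (Real.log_injOn_pos (Set.mem_Ioi.mpr (norm_pos_iff.mpr (eF_ne_zero a)))
    (Set.mem_Ioi.mpr (norm_pos_iff.mpr (el_ne_zero b))) h2).symm

section L3

variable (p : ℕ) [hp : Fact p.Prime] {m : ℕ} (hm : 0 < m) (N : Subgroup (Gq q))

/-- the intersection with the kernel of the unramified character -/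
noncomputable abbrev NN : Subgroup (Gq q) := N ⊓ Km q hm

instance [N.Normal] : (NN hm N).Normal := by
  have := Km_normal (q := q) hm
  infer_instance

/-- the induced character on the quotient -/
noncomputable def chiQ [N.Normal] (g : Gq q ⧸ NN hm N) : ZMod m :=
  Multiplicative.toAdd (QuotientGroup.lift (NN hm N)
    (MonoidHom.mk' (fun σ => Multiplicative.ofAdd (dg m σ))
      (fun a b => by rw [← ofAdd_add, dg_mul hm]) : Gq q →* Multiplicative (ZMod m))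
    (fun x hx => by
      have : dg m x = 0 := hx.2
      change Multiplicative.ofAdd (dg m x) = 1
      rw [this]; rfl) g)

theorem chiQ_mk [N.Normal] (g : Gq q) :
    chiQ hm N (QuotientGroup.mk g : Gq q ⧸ NN hm N) = dg m g := rfl

theorem chiQ_mul [N.Normal] (g h : Gq q ⧸ NN hm N) :
    chiQ hm N (g * h) = chiQ hm N g + chiQ hm N h := by
  rw [chiQ, map_mul, toAdd_mul]; rfl

variable {N} [hNn : N.Normal] (hN : IsOpen (N : Set (Gq q)))

/-- the subgroup `N/N'` -/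
noncomputable abbrev HH (N : Subgroup (Gq q)) [N.Normal] : Subgroup (Gq q ⧸ NN hm N) :=
  N.map (QuotientGroup.mk' (NN hm N))

instance : (HH hm N).Normal :=
  Subgroup.Normal.map hNn (QuotientGroup.mk' (NN hm N)) (QuotientGroup.mk'_surjective _)

include hN in
theorem card_HH : Nat.card (HH hm N) = m / m.gcd (fdeg N) := by
  rw [← (unram hm hN).2, ← Subgroup.relIndex_ker, QuotientGroup.ker_mk']

include hN in
theorem pgroup_HH (hmp : ∃ k, m = p ^ k) : IsPGroup p (HH hm N) := by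
  obtain ⟨k, hk⟩ := hmp
  have h1 : Nat.card (HH hm N) ∣ p ^ k := by
    rw [card_HH hm hN, ← hk]; exact Nat.div_dvd_of_dvd (Nat.gcd_dvd_left _ _)
  obtain ⟨j, _, hj⟩ := (Nat.dvd_prime_pow hp.out).mp h1
  exact IsPGroup.of_card hj

include hN in
/-- Claim 1: the restriction to `N/N'` of the class is trivial. -/
theorem claim1 (hmp : ∃ k, m = p ^ k) (hmN : m ∣ N.index) :
    res2 (HH hm N) (cup m (lft (chiQ hm N)) (qF (NN hm N))) ∈ B2 (HH hm N) (fix (AA q) (NN hm N)) := by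
  have hNZ : NeZero m := ⟨hm.ne'⟩
  have hfin : Finite (Gq q ⧸ NN hm N) := Subgroup.quotient_finite_of_isOpen _ (inf_open hm hN)
  have hlay := layers (layerHyp_local p (NN hm N) (inf_open hm hN)) (HH hm N)
    (pgroup_HH p hm hN hmp)
  have hcard := card_HH hm hN
  have hVG := (unram hm hN).1
  have hdv : ∀ σ ∈ N, m.gcd (fdeg N) ∣ (dg m σ).val := fun σ hσ => gcd_dvd_dg hm hN hσ
  obtain ⟨s0, hs0N, hs0⟩ := exists_gen hm hN
  have hef := ram_mul_fdeg hN
  have hg0pos : 0 < m.gcd (fdeg N) := Nat.gcd_pos_of_pos_left _ hm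
  have hcop : (m / m.gcd (fdeg N)).Coprime (fdeg N / m.gcd (fdeg N)) :=
    Nat.coprime_div_gcd_div_gcd hg0pos
  have hgf : m.gcd (fdeg N) ∣ fdeg N := Nat.gcd_dvd_right _ _
  have hgm : m.gcd (fdeg N) ∣ m := Nat.gcd_dvd_left _ _
  generalize m.gcd (fdeg N) = g0 at hcard hdv hs0 hg0pos hcop hgf hgm
  obtain ⟨M, hmM⟩ := hgm
  have hM : m / g0 = M := by rw [hmM, Nat.mul_div_cancel_left _ hg0pos]
  rw [hM] at hcard hs0 hcop
  have hMpos : 0 < M := Nat.pos_of_ne_zero (by rintro h; rw [h, mul_zero] at hmM; omega)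
  have hMZ : NeZero M := ⟨hMpos.ne'⟩
  rw [hcard] at hlay
  -- `M ∣ e`
  obtain ⟨e, he⟩ : ∃ e, e = ram N := ⟨_, rfl⟩
  have hMe : M ∣ e := by
    obtain ⟨f', hf'⟩ := hgf
    rw [hf', Nat.mul_div_cancel_left _ hg0pos] at hcop
    rw [← hef, ← he, hf', hmM, mul_left_comm] at hmN
    have h1 := Nat.dvd_of_mul_dvd_mul_left hg0pos hmN
    exact hcop.dvd_of_dvd_mul_right h1
  -- the divided character
  let ψ : HH hm N → ZMod M := fun h => (((chiQ hm N (h : Gq q ⧸ NN hm N)).val / g0 : ℕ) : ZMod M)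
  have hval : ∀ h : HH hm N, g0 ∣ (chiQ hm N (h : Gq q ⧸ NN hm N)).val := by
    rintro ⟨_, n, hn, rfl⟩
    exact hdv n hn
  have hψ : ∀ g h, ψ (g * h) = ψ g + ψ h := by
    intro g h
    change (((chiQ hm N ((g : Gq q ⧸ NN hm N) * h)).val / g0 : ℕ) : ZMod M) = _
    rw [chiQ_mul]
    exact div_add hmM hg0pos _ _ (hval g) (hval h)
  have hlft : ∀ h : HH hm N, lft (chiQ hm N) (h : Gq q ⧸ NN hm N) = g0 * lft ψ h := by
    intro h
    obtain ⟨c, hc⟩ := hval h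
    have hclt : c < M := by
      have := ZMod.val_lt (chiQ hm N (h : Gq q ⧸ NN hm N))
      rw [hc] at this
      rw [hmM] at this
      exact Nat.lt_of_mul_lt_mul_left this
    have h1 : ψ h = (c : ZMod M) := by
      change (((chiQ hm N (h : Gq q ⧸ NN hm N)).val / g0 : ℕ) : ZMod M) = _
      rw [hc, Nat.mul_div_cancel_left _ hg0pos]
    rw [lft, lft, h1, ZMod.val_natCast, Nat.mod_eq_of_lt hclt, hc]
    push_cast; rfl
  have hcup : ∀ a : fix (AA q) (NN hm N), res2 (HH hm N) (cup m (lft (chiQ hm N)) a) =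
      cup M (lft ψ) a := by
    intro a
    funext g h
    change ((lft (chiQ hm N) (g : Gq q ⧸ NN hm N) + lft (chiQ hm N) (h : Gq q ⧸ NN hm N) -
      lft (chiQ hm N) (((g * h : HH hm N)) : Gq q ⧸ NN hm N)) / (m : ℤ)) • a =
      ((lft ψ g + lft ψ h - lft ψ (g * h)) / (M : ℤ)) • a
    have hmM' : (m : ℤ) = g0 * M := by exact_mod_cast hmM
    rw [hlft, hlft, hlft]
    congr 1
    rw [← mul_add, ← mul_sub, hmM', Int.mul_ediv_mul_of_pos _ _ (by exact_mod_cast hg0pos)]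
  rw [hcup]
  -- generator
  let s : HH hm N := ⟨QuotientGroup.mk s0, s0, hs0N, rfl⟩
  have hs : ψ s = 1 := hs0
  have hker : ∀ g : HH hm N, g ∈ (⊥ : Subgroup (HH hm N)) ↔ ψ g = 0 := by
    rintro ⟨_, n, hn, rfl⟩
    rw [Subgroup.mem_bot]
    constructor
    · intro h
      rw [h]; exact chi_one ψ hψ
    · intro h
      have h1 : lft (chiQ hm N) ((QuotientGroup.mk' (NN hm N)) n) = 0 := by
        have := hlft ⟨(QuotientGroup.mk' (NN hm N)) n, n, hn, rfl⟩
        rw [lft, lft, h, ZMod.val_zero] at this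
        rw [lft]
        simpa using this
      have h2 : dg m n = 0 := by
        rw [lft, Nat.cast_eq_zero, ZMod.val_eq_zero] at h1
        exact h1
      apply Subtype.ext
      exact (QuotientGroup.eq_one_iff n).mpr ⟨hn, h2⟩
  -- uniformizer
  obtain ⟨π, hπ1, hπ2, hπ3, hπ4⟩ := exists_pi_ram hN
  rw [← he] at hπ3
  let π' : fix (AA q) (NN hm N) := ⟨(π : AA q), fix_mono inf_le_left π.2⟩
  have hfixH : ∀ a : fix (AA q) (NN hm N), (a : AA q) ∈ fix (AA q) N →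
      a ∈ fix (fix (AA q) (NN hm N)) (⊤ : Subgroup (HH hm N)) := by
    rintro a ha ⟨_, n, hn, rfl⟩ _
    exact Subtype.ext (ha n hn)
  have hπfix : π' ∈ fix (fix (AA q) (NN hm N)) (⊤ : Subgroup (HH hm N)) := hfixH _ π.2
  have hqfix : qF (NN hm N) ∈ fix (fix (AA q) (NN hm N)) (⊤ : Subgroup (HH hm N)) :=
    hfixH _ (qF N).2
  have hpos : 0 < ‖eF π‖ := norm_pos_iff.mpr (eF_ne_zero π)
  have hsum : ∀ (b : fix (AA q) (NN hm N)) (n : ℕ),
      ‖eF (∑ i ∈ range n, s ^ i • b)‖ = ‖eF b‖ ^ n := by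
    intro b n
    have h1 : ((∑ i ∈ range n, s ^ i • b : fix (AA q) (NN hm N)) : AA q) =
        ∑ i ∈ range n, s0 ^ i • (b : AA q) := by
      rw [AddSubgroup.val_finsetSum]; rfl
    rw [eF_def, h1]
    exact norm_sum_pow s0 (b : AA q) n
  have hzpow : ∀ j l : ℤ, ‖eF π‖ ^ j = ‖eF π‖ ^ l → j = l := fun j l h =>
    zpow_right_injective₀ hpos hπ1.ne h
  have hbfix : ∀ b : fix (AA q) (NN hm N), b ∈ fix (fix (AA q) (NN hm N)) (⊥ : Subgroup (HH hm N)) := by
    intro b g hg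
    rw [Subgroup.mem_bot] at hg
    rw [hg, one_smul]
  have hH1 : Z1 (⊥ : Subgroup (HH hm N)) (fix (AA q) (NN hm N)) ≤
      B1 (⊥ : Subgroup (HH hm N)) (fix (AA q) (NN hm N)) := by
    intro c hc
    refine ⟨0, fun g => ?_⟩
    rw [Subsingleton.elim g 1, Z1.one hc]; simp
  -- order of cup π
  have hord : ∀ j : ℤ, j • cup M (lft ψ) π' ∈ B2 (HH hm N) (fix (AA q) (NN hm N)) → (M : ℤ) ∣ j := by
    intro j hj
    rw [← cup_zsmul_right] at hj
    obtain ⟨b, _, hb⟩ := norm_of_cup_mem_B2 ψ hψ hs hker hH1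
      ((fix (fix (AA q) (NN hm N)) (⊤ : Subgroup (HH hm N))).zsmul_mem hπfix j) hj
    obtain ⟨l, hl⟩ := exists_pow_of_mem_VG hπ2 hVG (b : AA q) b.2
    have h1 : ‖eF (j • π')‖ = ‖eF b‖ ^ M := by rw [hb, hsum]
    have h2 : ‖eF (j • π')‖ = ‖eF π‖ ^ j := by
      have : eF (j • π') = eF π ^ j := el_zsmul j (π : AA q)
      rw [this, norm_zpow]
    rw [h2, eF_def b, hl, ← zpow_natCast, ← zpow_mul] at h1
    exact ⟨l, by rw [hzpow _ _ h1, mul_comm]⟩
  have hcupZ : ∀ a, a ∈ fix (fix (AA q) (NN hm N)) (⊤ : Subgroup (HH hm N)) →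
      cup M (lft ψ) a ∈ Z2 (HH hm N) (fix (AA q) (NN hm N)) := fun a ha =>
    cup_mem_Z2 hMpos (lft_dvd ψ hψ) ha
  obtain ⟨j, hj⟩ := exists_int_mul_sub B2_le_Z2 hMpos hlay.2 (hcupZ π' hπfix) hord
    (hcupZ _ hqfix)
  -- `j` is divisible by `M`
  have hMj : (M : ℤ) ∣ j := by
    have h0 : cup M (lft ψ) (qF (NN hm N)) - j • cup M (lft ψ) π' =
        cup M (lft ψ) (qF (NN hm N) + (-j) • π') := by
      rw [cup_add_right, cup_zsmul_right, neg_smul, sub_eq_add_neg]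
    rw [h0] at hj
    obtain ⟨b, _, hb⟩ := norm_of_cup_mem_B2 ψ hψ hs hker hH1
      ((fix (fix (AA q) (NN hm N)) (⊤ : Subgroup (HH hm N))).add_mem hqfix
        ((fix (fix (AA q) (NN hm N)) (⊤ : Subgroup (HH hm N))).zsmul_mem hπfix (-j))) hj
    obtain ⟨l, hl⟩ := exists_pow_of_mem_VG hπ2 hVG (b : AA q) b.2
    have h1 : ‖eF (qF (NN hm N) + (-j) • π')‖ = ‖eF b‖ ^ M := by rw [hb, hsum]
    have h2 : ‖eF (qF (NN hm N) + (-j) • π')‖ = ‖eF π‖ ^ ((e : ℤ) - j) := by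
      have h3 : eF ((-j) • π') = eF π ^ (-j) := el_zsmul (-j) (π : AA q)
      have h4 : ‖eF (qF (NN hm N))‖ = ‖eF π‖ ^ (e : ℤ) := by
        rw [zpow_natCast, hπ3, qF, eF_ofF, norm_q]
      rw [eF_add, norm_mul, h3, norm_zpow, h4, ← zpow_add₀ hpos.ne', sub_eq_add_neg]
    rw [h2, eF_def b, hl, ← zpow_natCast, ← zpow_mul] at h1
    have h5 := hzpow _ _ h1
    have h6 : j = (e : ℤ) - l * M := by linarith
    rw [h6]
    exact dvd_sub (Int.natCast_dvd_natCast.mpr hMe) (dvd_mul_left _ _)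
  obtain ⟨j', hj'⟩ := hMj
  have hfinal : j • cup M (lft ψ) π' ∈ B2 (HH hm N) (fix (AA q) (NN hm N)) := by
    rw [hj', mul_comm, mul_smul]
    apply (B2 (HH hm N) (fix (AA q) (NN hm N))).zsmul_mem
    rw [← cup_zsmul_right]
    refine cup_mem_B2_of_norm ψ hψ hs hker (hbfix π') ?_
    rw [natCast_zsmul]
    rw [sum_congr rfl (fun i _ => hπfix (s ^ i) trivial), sum_const, card_range]
  have h7 := (B2 (HH hm N) (fix (AA q) (NN hm N))).add_mem hj hfinal
  rwa [sub_add_cancel] at h7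

/-- descent of cocycles of level `N/N'` -/
theorem descend {x : (Gq q ⧸ NN hm N) → (Gq q ⧸ NN hm N) → fix (AA q) (NN hm N)}
    (hlev : IsLevel2 (HH hm N) x) :
    ∃ u : (Gq q ⧸ N) → (Gq q ⧸ N) → fix (AA q) N, ∀ σ τ : Gq q,
      ((u (QuotientGroup.mk σ) (QuotientGroup.mk τ) : fix (AA q) N) : AA q) =
        (x (QuotientGroup.mk σ) (QuotientGroup.mk τ) : fix (AA q) (NN hm N)) := by
  have hfix : ∀ g h, ((x g h : fix (AA q) (NN hm N)) : AA q) ∈ fix (AA q) N := by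
    intro g h n hn
    exact congrArg Subtype.val (hlev.2.2 g h (QuotientGroup.mk n) ⟨n, hn, rfl⟩)
  refine ⟨fun g h => ⟨x (QuotientGroup.mk (Quotient.out g)) (QuotientGroup.mk (Quotient.out h)),
    hfix _ _⟩, fun σ τ => ?_⟩
  obtain ⟨n, hn⟩ := QuotientGroup.mk_out_eq_mul N σ
  obtain ⟨n', hn'⟩ := QuotientGroup.mk_out_eq_mul N τ
  change ((x (QuotientGroup.mk (Quotient.out (QuotientGroup.mk σ : Gq q ⧸ N)))
    (QuotientGroup.mk (Quotient.out (QuotientGroup.mk τ : Gq q ⧸ N))) :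
      fix (AA q) (NN hm N)) : AA q) = _
  rw [hn, hn', QuotientGroup.mk_mul, QuotientGroup.mk_mul,
    hlev.1 _ _ (QuotientGroup.mk (n : Gq q)) ⟨(n : Gq q), n.2, rfl⟩,
    hlev.2.1 _ _ (QuotientGroup.mk (n' : Gq q)) ⟨(n' : Gq q), n'.2, rfl⟩]

end L3

/-- **(L3)**: the local fundamental class. -/
theorem exists_class (p : ℕ) [hp : Fact p.Prime] (N : Subgroup (Gq q)) [hNn : N.Normal]
    (hN : IsOpen (N : Set (Gq q))) :
    ∃ u : (Gq q ⧸ N) → (Gq q ⧸ N) → fix (AA q) N, CFLayer p (Gq q ⧸ N) (fix (AA q) N) u := by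
  have hfin : Finite (Gq q ⧸ N) := Subgroup.quotient_finite_of_isOpen N hN
  obtain ⟨m, hmdef⟩ : ∃ m, m = p ^ (Nat.card (Gq q ⧸ N)).factorization p := ⟨_, rfl⟩
  have hm : 0 < m := by rw [hmdef]; exact pow_pos hp.out.pos _
  have hNZ : NeZero m := ⟨hm.ne'⟩
  have hmN : m ∣ N.index := by rw [hmdef]; exact Nat.ordProj_dvd _ _
  have hfin' : Finite (Gq q ⧸ NN hm N) := Subgroup.quotient_finite_of_isOpen _ (inf_open hm hN)
  have hchi : ∀ g h, chiQ hm N (g * h) = chiQ hm N g + chiQ hm N h := chiQ_mul hm N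
  have hqtop : ∀ k : ℤ, k • qF (NN hm N) ∈ fix (fix (AA q) (NN hm N))
      (⊤ : Subgroup (Gq q ⧸ NN hm N)) := by
    intro k
    apply AddSubgroup.zsmul_mem
    intro g _
    induction g using QuotientGroup.induction_on with
    | H g =>
      apply eF_injective
      change g ((q : ℕ) : Om q) = ((q : ℕ) : Om q)
      exact map_natCast g q
  have hx : cup m (lft (chiQ hm N)) (qF (NN hm N)) ∈ Z2 (Gq q ⧸ NN hm N) (fix (AA q) (NN hm N)) :=
    cup_mem_Z2 hm (lft_dvd _ hchi) (by simpa using hqtop 1)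
  have hres := claim1 p hm hN ⟨_, hmdef⟩ hmN
  have hH1 : Z1 (HH hm N) (fix (AA q) (NN hm N)) ≤ B1 (HH hm N) (fix (AA q) (NN hm N)) :=
    h1_zero (NN hm N) (inf_open hm hN) (HH hm N)
  obtain ⟨x', hx', hxx', hlev⟩ := infres2 (HH hm N) hH1 hx hres
  obtain ⟨u, hu⟩ := descend hm hlev
  refine ⟨u, CFLayer.mk' (layerHyp_local p N hN) ?_ ?_⟩
  · intro g h k
    obtain ⟨g, rfl⟩ := QuotientGroup.mk_surjective g
    obtain ⟨h, rfl⟩ := QuotientGroup.mk_surjective h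
    obtain ⟨k, rfl⟩ := QuotientGroup.mk_surjective k
    apply Subtype.ext
    have h1 := congrArg Subtype.val (hx' (QuotientGroup.mk g) (QuotientGroup.mk h)
      (QuotientGroup.mk k))
    rw [AddSubgroup.coe_add, AddSubgroup.coe_add] at h1 ⊢
    rw [← QuotientGroup.mk_mul, ← QuotientGroup.mk_mul] at h1 ⊢
    rw [coe_quot_smul] at h1 ⊢
    rw [hu, hu, hu, hu]
    exact h1
  · intro k hk
    rw [← hmdef]
    obtain ⟨b, hb⟩ := hk
    -- inflate
    have hinf : k • x' ∈ B2 (Gq q ⧸ NN hm N) (fix (AA q) (NN hm N)) := by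
      let π : (Gq q ⧸ NN hm N) →* (Gq q ⧸ N) := QuotientGroup.map (NN hm N) N (MonoidHom.id _)
        (fun x hx => hx.1)
      refine ⟨fun g => ⟨(b (π g) : AA q), fix_mono inf_le_left (b (π g)).2⟩, fun g h => ?_⟩
      obtain ⟨g, rfl⟩ := QuotientGroup.mk_surjective g
      obtain ⟨h, rfl⟩ := QuotientGroup.mk_surjective h
      apply Subtype.ext
      have h1 := congrArg Subtype.val (hb (QuotientGroup.mk g) (QuotientGroup.mk h))
      have h2 : (((k • u) (QuotientGroup.mk g) (QuotientGroup.mk h) : fix (AA q) N) : AA q) =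
          k • (x' (QuotientGroup.mk g) (QuotientGroup.mk h) : AA q) := by
        rw [← hu]; rfl
      rw [h2] at h1
      exact h1
    have h3 : k • cup m (lft (chiQ hm N)) (qF (NN hm N)) ∈
        B2 (Gq q ⧸ NN hm N) (fix (AA q) (NN hm N)) := by
      have h4 := (B2 (Gq q ⧸ NN hm N) (fix (AA q) (NN hm N))).add_mem
        ((B2 (Gq q ⧸ NN hm N) (fix (AA q) (NN hm N))).zsmul_mem hxx' k) hinf
      rwa [smul_sub, sub_add_cancel] at h4
    rw [← cup_zsmul_right] at h3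
    -- the kernel of the character
    obtain ⟨s0, hs0⟩ := dg_surj (q := q) hm
    have hKn := Km_normal (q := q) hm
    let K : Subgroup (Gq q ⧸ NN hm N) := (Km q hm).map (QuotientGroup.mk' (NN hm N))
    have hK : K.Normal := Subgroup.Normal.map hKn (QuotientGroup.mk' (NN hm N))
      (QuotientGroup.mk'_surjective _)
    have hker : ∀ g, g ∈ K ↔ chiQ hm N g = 0 := by
      intro g
      constructor
      · rintro ⟨g, hg, rfl⟩
        exact hg
      · intro h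
        obtain ⟨g, rfl⟩ := QuotientGroup.mk_surjective g
        exact ⟨g, h, rfl⟩
    obtain ⟨b, hb, hsum⟩ := norm_of_cup_mem_B2 (chiQ hm N) hchi
      (s := (QuotientGroup.mk s0 : Gq q ⧸ NN hm N)) hs0 hker
      (h1_zero (NN hm N) (inf_open hm hN) K) (hqtop k) h3
    have hbK : (b : AA q) ∈ fix (AA q) (Km q hm) := by
      intro g hg
      exact congrArg Subtype.val (hb (QuotientGroup.mk g) ⟨g, hg, rfl⟩)
    have hT : IsOpen ((⊤ : Subgroup (Gq q)) : Set (Gq q)) := isOpen_univ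
    obtain ⟨π, hπ1, hπ2, hπ3, hπ4⟩ := exists_pi_ram hT
    have hram : ram (⊤ : Subgroup (Gq q)) = 1 := by
      rw [ram, AddSubgroup.relIndex_self]
    rw [hram, pow_one] at hπ3
    have hVG := (unram hm hT).1
    rw [top_inf_eq] at hVG
    obtain ⟨l, hl⟩ := exists_pow_of_mem_VG hπ2 hVG (b : AA q) hbK
    have h5 : ‖eF (k • qF (NN hm N))‖ = ‖el (b : AA q)‖ ^ m := by
      rw [hsum, eF_def]
      have h6 : ((∑ i ∈ range m, (QuotientGroup.mk s0 : Gq q ⧸ NN hm N) ^ i • b :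
          fix (AA q) (NN hm N)) : AA q) = ∑ i ∈ range m, s0 ^ i • (b : AA q) := by
        rw [AddSubgroup.val_finsetSum]; rfl
      rw [h6]
      exact norm_sum_pow s0 (b : AA q) m
    have h6 : ‖eF (k • qF (NN hm N))‖ = ‖eF π‖ ^ k := by
      have : eF (k • qF (NN hm N)) = eF (qF (NN hm N)) ^ k :=
        el_zsmul k ((qF (NN hm N) : fix (AA q) (NN hm N)) : AA q)
      rw [this, norm_zpow, hπ3, qF, eF_ofF, norm_q]
    have hpos : 0 < ‖eF π‖ := norm_pos_iff.mpr (eF_ne_zero π)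
    rw [h6, hl, ← zpow_natCast, ← zpow_mul] at h5
    have h7 := zpow_right_injective₀ hpos hπ1.ne h5
    exact ⟨l, by rw [h7, mul_comm]⟩

end Fermat.Agent.CFTLocal
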