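import Fermat.Agent.CFTLocal.Basic

set_option autoImplicit false
set_option maxHeartbeats 400000

/-! Index of multiplication by `p` on balls in finite dimensional `ℚ_q`-spaces. -/

namespace Fermat.Agent.CFTLocal

open Fermat.Agent.CFT

section General

variable {X : Type*} [AddCommGroup X]

theorem ind_of_sub (p : ℕ) (Y : AddSubgroup X) (hY : Y.index ≠ 0) (h : FinInd (mulN Y p)) :
    FinInd (mulN X p) ∧ ind (mulN X p) = ind (mulN Y p) := by
  have : Y.FiniteIndex := ⟨hY⟩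
  have : Finite (X ⧸ Y) := AddSubgroup.finite_quotient_of_finiteIndex
  have h1 := ind_exact Y.subtype (QuotientAddGroup.mk' Y) Y.subtype (QuotientAddGroup.mk' Y)
    (f' := mulN Y p) (f := mulN X p) (f'' := mulN (X ⧸ Y) p)
    Y.subtype_injective (QuotientAddGroup.mk'_surjective Y)
    (by rw [QuotientAddGroup.ker_mk', AddSubgroup.range_subtype])
    Y.subtype_injective (QuotientAddGroup.mk'_surjective Y)
    (by rw [QuotientAddGroup.ker_mk', AddSubgroup.range_subtype])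
    (fun _ => rfl) (fun _ => rfl) h (finInd_of_finite _)
  refine ⟨h1.1, ?_⟩
  rw [h1.2, ind_of_finite (mulN (X ⧸ Y) p), mul_one]

theorem ind_sub_of (p : ℕ) (Y : AddSubgroup X) (hY : Y.index ≠ 0) (h : FinInd (mulN X p)) :
    FinInd (mulN Y p) ∧ ind (mulN Y p) = ind (mulN X p) := by
  have : Y.FiniteIndex := ⟨hY⟩
  have : Finite (X ⧸ Y) := AddSubgroup.finite_quotient_of_finiteIndex
  have h1 : FinInd (mulN Y p) :=
    finInd_left Y.subtype (QuotientAddGroup.mk' Y) Y.subtype (QuotientAddGroup.mk' Y)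
    (f' := mulN Y p) (f := mulN X p) (f'' := mulN (X ⧸ Y) p)
    Y.subtype_injective (QuotientAddGroup.mk'_surjective Y)
    (by rw [QuotientAddGroup.ker_mk', AddSubgroup.range_subtype])
    Y.subtype_injective (QuotientAddGroup.mk'_surjective Y)
    (by rw [QuotientAddGroup.ker_mk', AddSubgroup.range_subtype])
    (fun _ => rfl) (fun _ => rfl) h (finInd_of_finite _)
  exact ⟨h1, (ind_of_sub p Y hY h1).2.symm⟩

theorem ind_equiv {Y : Type*} [AddCommGroup Y] (p : ℕ) (e : X ≃+ Y) (h : FinInd (mulN X p)) :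
    FinInd (mulN Y p) ∧ ind (mulN Y p) = ind (mulN X p) :=
  FinInd.of_addEquiv e (mulN X p) (mulN Y p) (fun x => (map_nsmul e p x).symm) h

/-- transfer to commensurable subgroups of an ambient group -/
theorem ind_commens (p : ℕ) (Y Z : AddSubgroup X) (hYZ : Y ≤ Z) (hidx : Y.relIndex Z ≠ 0)
    (h : FinInd (mulN Y p)) : FinInd (mulN Z p) ∧ ind (mulN Z p) = ind (mulN Y p) := by
  obtain ⟨h1, h2⟩ := ind_equiv p (AddSubgroup.addSubgroupOfEquivOfLe hYZ).symm h
  obtain ⟨h3, h4⟩ := ind_of_sub p (Y.addSubgroupOf Z) hidx h1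
  exact ⟨h3, h4.trans h2⟩

theorem ind_commens' (p : ℕ) (Y Z : AddSubgroup X) (hYZ : Y ≤ Z) (hidx : Y.relIndex Z ≠ 0)
    (h : FinInd (mulN Z p)) : FinInd (mulN Y p) ∧ ind (mulN Y p) = ind (mulN Z p) := by
  obtain ⟨h3, h4⟩ := ind_sub_of p (Y.addSubgroupOf Z) hidx h
  obtain ⟨h1, h2⟩ := ind_equiv p (AddSubgroup.addSubgroupOfEquivOfLe hYZ) h3
  exact ⟨h1, h2.trans h4⟩

end General

variable (q : ℕ) [hq : Fact q.Prime] (p : ℕ) [hp : Fact p.Prime]

/-- the index of `p` on `ℤ_q^n` -/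
theorem ind_padicInt (n : ℕ) : FinInd (mulN (Fin n → ℤ_[q]) p) ∧
    ind (mulN (Fin n → ℤ_[q]) p) = if p = q then (p : ℚ) ^ n else 1 := by
  have hinj : (mulN (Fin n → ℤ_[q]) p).ker = ⊥ := by
    rw [AddMonoidHom.ker_eq_bot_iff]
    intro x y hxy
    ext1 i
    have h1 : (p : ℤ_[q]) * x i = p * y i := by
      have := congrFun hxy i
      simpa [nsmul_eq_mul] using this
    exact mul_left_cancel₀ (Nat.cast_ne_zero.mpr hp.out.ne_zero) h1
  split_ifs with hpq
  · subst hpq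
    have hr : (mulN (Fin n → ℤ_[p]) p).range =
        (AddMonoidHom.mk' (fun (x : Fin n → ℤ_[p]) (i : Fin n) => PadicInt.toZMod (x i))
          (fun a b => by ext i; simp)).ker := by
      ext x
      rw [AddMonoidHom.mem_ker]
      constructor
      · rintro ⟨y, rfl⟩
        ext i
        simp
      · intro hx
        have h1 : ∀ i, ∃ y : ℤ_[p], (p : ℤ_[p]) * y = x i := by
          intro i
          have h2 : PadicInt.toZMod (x i) = 0 := congrFun hx i
          rw [← RingHom.mem_ker, PadicInt.ker_toZMod, PadicInt.maximalIdeal_eq_span_p,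
            Ideal.mem_span_singleton] at h2
          obtain ⟨y, hy⟩ := h2
          exact ⟨y, hy.symm⟩
        choose y hy using h1
        refine ⟨y, ?_⟩
        ext1 i
        simp [nsmul_eq_mul, hy]
    have hidx : (mulN (Fin n → ℤ_[p]) p).range.index = p ^ n := by
      rw [hr, AddSubgroup.index_ker, AddMonoidHom.range_eq_top.mpr]
      · simp
      · intro y
        have h1 : ∀ i, ∃ x : ℤ_[p], PadicInt.toZMod x = y i := fun i =>
          (ZMod.ringHom_surjective (PadicInt.toZMod (p := p))) (y i)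
        choose x hx using h1
        exact ⟨x, funext hx⟩
    have hf : FinInd (mulN (Fin n → ℤ_[p]) p) := by
      refine ⟨?_, ?_⟩
      · rw [hinj]; simp
      · rw [hidx]; exact pow_ne_zero _ hp.out.ne_zero
    refine ⟨hf, ?_⟩
    unfold ind
    rw [hidx, hinj]
    simp
  · have hu : IsUnit (p : ℤ_[q]) := by
      rw [PadicInt.isUnit_iff]
      have h1 : ‖((p : ℤ) : ℤ_[q])‖ = 1 := by
        refine le_antisymm (PadicInt.norm_le_one _) (not_lt.mp ?_)
        rw [PadicInt.norm_int_lt_one_iff_dvd]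
        intro h
        have := Int.natCast_dvd_natCast.mp h
        exact hpq ((Nat.prime_dvd_prime_iff_eq hq.out hp.out).mp this).symm
      simpa using h1
    have hs : (mulN (Fin n → ℤ_[q]) p).range = ⊤ := by
      rw [AddMonoidHom.range_eq_top]
      intro y
      obtain ⟨u, hu⟩ := hu
      refine ⟨fun i => (u⁻¹ : ℤ_[q]ˣ) * y i, ?_⟩
      ext1 i
      simp [nsmul_eq_mul, ← hu]
    have hf : FinInd (mulN (Fin n → ℤ_[q]) p) := by
      refine ⟨?_, ?_⟩
      · rw [hinj]; simp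
      · rw [hs]; simp
    refine ⟨hf, ?_⟩
    unfold ind
    rw [hs, hinj]
    simp

variable (V : Type*) [NormedAddCommGroup V] [NormedSpace ℚ_[q] V] [IsUltrametricDist V]

/-- open ball as a subgroup -/
def ball' (ρ : ℝ) (hρ : 0 < ρ) : AddSubgroup V where
  carrier := {x | ‖x‖ < ρ}
  zero_mem' := by simpa using hρ
  add_mem' := by
    intro a b ha hb
    exact (IsUltrametricDist.norm_add_le_max a b).trans_lt (max_lt ha hb)
  neg_mem' := by intro a ha; simpa using ha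

/-- the closed balls as a subgroup -/
def cball (ρ : ℝ) (hρ : 0 ≤ ρ) : AddSubgroup V where
  carrier := {x | ‖x‖ ≤ ρ}
  zero_mem' := by simpa using hρ
  add_mem' := by
    intro a b ha hb
    exact (IsUltrametricDist.norm_add_le_max a b).trans (max_le ha hb)
  neg_mem' := by intro a ha; simpa using ha

variable {q V}

theorem mem_ball' {ρ : ℝ} {hρ : 0 < ρ} {x : V} : x ∈ ball' V ρ hρ ↔ ‖x‖ < ρ := Iff.rfl
theorem mem_cball {ρ : ℝ} {hρ : 0 ≤ ρ} {x : V} : x ∈ cball V ρ hρ ↔ ‖x‖ ≤ ρ := Iff.rfl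

/-- scaling by `q^k` -/
noncomputable def scal (k : ℤ) : V ≃+ V where
  toFun x := ((q : ℚ_[q]) ^ k) • x
  invFun x := ((q : ℚ_[q]) ^ (-k)) • x
  left_inv x := by
    change ((q : ℚ_[q]) ^ (-k)) • ((q : ℚ_[q]) ^ k) • x = x
    rw [smul_smul, ← zpow_add₀ (Nat.cast_ne_zero.mpr hq.out.ne_zero)]; simp
  right_inv x := by
    change ((q : ℚ_[q]) ^ k) • ((q : ℚ_[q]) ^ (-k)) • x = x
    rw [smul_smul, ← zpow_add₀ (Nat.cast_ne_zero.mpr hq.out.ne_zero)]; simp
  map_add' x y := smul_add _ x y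

variable (q V)

/-- index of `p` on a sandwich of a lattice -/
theorem ind_ball [FiniteDimensional ℚ_[q] V] (B : AddSubgroup V)
    (hB1 : ∃ ρ : ℝ, 0 < ρ ∧ ∀ x : V, ‖x‖ ≤ ρ → x ∈ B) (hB2 : ∃ ρ : ℝ, ∀ x ∈ B, ‖x‖ ≤ ρ) :
    FinInd (mulN B p) ∧
      ind (mulN B p) = if p = q then (p : ℚ) ^ (Module.finrank ℚ_[q] V) else 1 := by
  classical
  have hq1 : (1 : ℝ) < q := by exact_mod_cast hq.out.one_lt
  set n := Module.finrank ℚ_[q] V with hn
  let b : Module.Basis (Fin n) ℚ_[q] V := Module.finBasis ℚ_[q] V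
  let e : V ≃L[ℚ_[q]] (Fin n → ℚ_[q]) := b.equivFunL
  -- lattices
  let Λ : ℤ → AddSubgroup V := fun k =>
    { carrier := {x | ∀ i, ‖e x i‖ ≤ (q : ℝ) ^ (-k)}
      zero_mem' := by intro i; simp only [map_zero, Pi.zero_apply, norm_zero]; positivity
      add_mem' := by
        intro x y hx hy i
        rw [map_add, Pi.add_apply]
        exact (Padic.nonarchimedean _ _).trans (max_le (hx i) (hy i))
      neg_mem' := by
        intro x hx i
        rw [map_neg, Pi.neg_apply, norm_neg]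
        exact hx i }
  have hΛmem : ∀ k x, x ∈ Λ k ↔ ∀ i, ‖e x i‖ ≤ (q : ℝ) ^ (-k) := fun k x => Iff.rfl
  -- `Λ 0 ≃ ℤ_q^n`
  let f0 : (Fin n → ℤ_[q]) ≃+ Λ 0 :=
    { toFun := fun x => ⟨e.symm (fun i => (x i : ℚ_[q])), by
        rw [hΛmem]; intro i; simpa using (x i).2⟩
      invFun := fun y => fun i => ⟨e (y : V) i, by simpa using (hΛmem 0 _).mp y.2 i⟩
      left_inv := fun x => by ext i; simp
      right_inv := fun y => by
        apply Subtype.ext
        change e.symm (fun i => e (y : V) i) = y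
        exact e.symm_apply_apply _
      map_add' := fun x y => by
        apply Subtype.ext
        change e.symm _ = e.symm _ + e.symm _
        rw [← map_add]
        rfl }
  have hscal : ∀ k l : ℤ, ∀ x : V, x ∈ Λ l ↔ scal (q := q) k x ∈ Λ (l + k) := by
    intro k l x
    rw [hΛmem, hΛmem]
    refine forall_congr' fun i => ?_
    change _ ↔ ‖e (((q : ℚ_[q]) ^ k) • x) i‖ ≤ _
    rw [map_smul, Pi.smul_apply, smul_eq_mul, norm_mul, norm_zpow, Padic.norm_p,
      neg_add, zpow_add₀ (by positivity), inv_zpow', mul_comm]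
    exact (mul_le_mul_iff_left₀ (zpow_pos (by linarith) _)).symm
  let fk : ∀ k l : ℤ, Λ l ≃+ Λ (l + k) := fun k l =>
    { toFun := fun x => ⟨scal (q := q) k x, (hscal k l x).mp x.2⟩
      invFun := fun y => ⟨(scal (q := q) k).symm y, by
        rw [hscal k l, AddEquiv.apply_symm_apply]; exact y.2⟩
      left_inv := fun x => by apply Subtype.ext; simp
      right_inv := fun x => by apply Subtype.ext; simp
      map_add' := fun x y => by apply Subtype.ext; simp }
  have hind0 := ind_padicInt q p n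
  have hind1 := ind_equiv p f0 hind0.1
  have hindk : ∀ k, FinInd (mulN (Λ k) p) ∧ ind (mulN (Λ k) p) =
      if p = q then (p : ℚ) ^ n else 1 := by
    intro k
    have := ind_equiv p (fk k 0) hind1.1
    rw [zero_add] at this
    exact ⟨this.1, this.2.trans (hind1.2.trans hind0.2)⟩
  -- index of Λ (k+j) in Λ k is nonzero
  have hmono : ∀ k : ℤ, ∀ j : ℕ, Λ (k + j) ≤ Λ k := by
    intro k j x hx
    rw [hΛmem] at hx ⊢
    intro i
    refine (hx i).trans (zpow_le_zpow_right₀ hq1.le (by omega))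
  have hone : ∀ k : ℤ, (Λ (k + 1)).relIndex (Λ k) ≠ 0 := by
    intro k
    have h0 := ind_padicInt q q n
    have h1 := ind_equiv q f0 h0.1
    have h2 : FinInd (mulN (Λ k) q) := by
      have := ind_equiv q (fk k 0) h1.1
      rw [zero_add] at this
      exact this.1
    have h3 := h2.coker
    have h4 : (mulN (Λ k) q).range = (Λ (k + 1)).addSubgroupOf (Λ k) := by
      ext x
      rw [AddSubgroup.mem_addSubgroupOf]
      constructor
      · rintro ⟨y, rfl⟩
        have := (hscal 1 k y).mp y.2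
        have h5 : scal (q := q) 1 (y : V) = ((mulN (Λ k) q) y : V) := by
          change ((q : ℚ_[q]) ^ (1 : ℤ)) • (y : V) = q • (y : V)
          rw [zpow_one, Nat.cast_smul_eq_nsmul]
        rwa [h5] at this
      · intro hx
        refine ⟨⟨(scal (q := q) 1).symm x, by rw [hscal 1 k, AddEquiv.apply_symm_apply]; exact hx⟩,
          ?_⟩
        apply Subtype.ext
        change q • ((scal (q := q) 1).symm (x : V)) = x
        rw [← Nat.cast_smul_eq_nsmul ℚ_[q]]
        conv_rhs => rw [← (scal (q := q) 1).apply_symm_apply (x : V)]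
        change _ = ((q : ℚ_[q]) ^ (1 : ℤ)) • ((scal (q := q) 1).symm (x : V))
        rw [zpow_one]
    rw [h4] at h3
    exact h3
  have hfin : ∀ k : ℤ, ∀ j : ℕ, (Λ (k + j)).relIndex (Λ k) ≠ 0 := by
    intro k j
    induction j with
    | zero => simp
    | succ j ih =>
      have h1 := AddSubgroup.relIndex_mul_relIndex (Λ (k + (j + 1 : ℕ))) (Λ (k + j)) (Λ k)
        (by have := hmono (k + j) 1; push_cast at this ⊢; rwa [← add_assoc]) (hmono k j)
      rw [← h1]
      refine mul_ne_zero ?_ ih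
      have := hone (k + j)
      push_cast
      rwa [← add_assoc]
  -- sandwich
  obtain ⟨ρ1, hρ1, hin⟩ := hB1
  obtain ⟨ρ2, hout⟩ := hB2
  have hC1 : ∃ C : ℝ, 0 < C ∧ ∀ x : V, ∀ i, ‖e x i‖ ≤ C * ‖x‖ := by
    refine ⟨‖(e : V →L[ℚ_[q]] (Fin n → ℚ_[q]))‖ + 1, by positivity, fun x i => ?_⟩
    calc ‖e x i‖ ≤ ‖e x‖ := norm_le_pi_norm _ i
      _ ≤ ‖(e : V →L[ℚ_[q]] (Fin n → ℚ_[q]))‖ * ‖x‖ :=
        (e : V →L[ℚ_[q]] (Fin n → ℚ_[q])).le_opNorm x
      _ ≤ _ := mul_le_mul_of_nonneg_right (by linarith) (norm_nonneg _)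
  have hC2 : ∃ C : ℝ, 0 < C ∧ ∀ x : V, ∀ r : ℝ, 0 ≤ r → (∀ i, ‖e x i‖ ≤ r) → ‖x‖ ≤ C * r := by
    refine ⟨‖(e.symm : (Fin n → ℚ_[q]) →L[ℚ_[q]] V)‖ + 1, by positivity, fun x r hr h => ?_⟩
    have h1 : ‖e x‖ ≤ r := (pi_norm_le_iff_of_nonneg hr).mpr h
    calc ‖x‖ = ‖(e.symm : (Fin n → ℚ_[q]) →L[ℚ_[q]] V) (e x)‖ := by simp
      _ ≤ ‖(e.symm : (Fin n → ℚ_[q]) →L[ℚ_[q]] V)‖ * ‖e x‖ :=
        (e.symm : (Fin n → ℚ_[q]) →L[ℚ_[q]] V).le_opNorm _
      _ ≤ _ := mul_le_mul (by linarith) h1 (norm_nonneg _) (by positivity)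
  obtain ⟨C1, hC1p, hC1⟩ := hC1
  obtain ⟨C2, hC2p, hC2⟩ := hC2
  -- lower lattice
  obtain ⟨k1, hk1⟩ : ∃ k : ℕ, C2 * (q : ℝ) ^ (-(k : ℤ)) ≤ ρ1 := by
    obtain ⟨k, hk⟩ := pow_unbounded_of_one_lt (C2 / ρ1) hq1
    refine ⟨k, ?_⟩
    rw [zpow_neg, zpow_natCast, ← div_eq_mul_inv, div_le_iff₀ (by positivity)]
    rw [div_lt_iff₀ hρ1] at hk
    linarith
  obtain ⟨k2, hk2⟩ : ∃ k : ℕ, C1 * ρ2 ≤ (q : ℝ) ^ (k : ℤ) := by
    obtain ⟨k, hk⟩ := pow_unbounded_of_one_lt (C1 * ρ2) hq1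
    exact ⟨k, by rw [zpow_natCast]; exact hk.le⟩
  have hle1 : Λ k1 ≤ B := by
    intro x hx
    exact hin x ((hC2 x _ (by positivity) ((hΛmem _ _).mp hx)).trans hk1)
  have hle2 : B ≤ Λ (-k2) := by
    intro x hx
    rw [hΛmem]
    intro i
    rw [neg_neg]
    exact (hC1 x i).trans ((mul_le_mul_of_nonneg_left (hout x hx) hC1p.le).trans hk2)
  have hidx : (Λ k1).relIndex B ≠ 0 := by
    have h1 := hfin (-k2) (k2 + k1)
    have h2 : (-(k2 : ℤ) + ((k2 + k1 : ℕ) : ℤ)) = k1 := by push_cast; ring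
    rw [h2] at h1
    rw [← AddSubgroup.relIndex_mul_relIndex _ B _ hle1 hle2] at h1
    exact left_ne_zero_of_mul h1
  obtain ⟨h1, h2⟩ := ind_commens p (Λ k1) B hle1 hidx (hindk k1).1
  exact ⟨h1, h2.trans (hindk k1).2⟩

end Fermat.Agent.CFTLocal
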