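import Fermat.Agent.CFTLocal.EF

set_option autoImplicit false
set_option maxHeartbeats 400000

/-! Residue fields and roots of unity of order prime to `q`. -/

namespace Fermat.Agent.CFTLocal

open Fermat.Agent.CFT Polynomial

/-- a finite set of `n` elements with `s^n = s` consists of all such elements -/
theorem mem_of_pow_eq {K : Type*} [Field K] {n : ℕ} (hn : 1 < n) (S : Set K)
    (hcard : Nat.card S = n) (hS : ∀ s ∈ S, s ^ n = s) {x : K} (hx : x ^ n = x) : x ∈ S := by
  classical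
  have hfin : Finite S := Nat.finite_of_card_ne_zero (by omega)
  have hSf : S.Finite := Set.toFinite S
  have hne : (X ^ n - X : K[X]) ≠ 0 := FiniteField.X_pow_card_sub_X_ne_zero K hn
  have hdeg : (X ^ n - X : K[X]).natDegree = n := FiniteField.X_pow_card_sub_X_natDegree_eq K hn
  have hsub : hSf.toFinset ⊆ (X ^ n - X : K[X]).roots.toFinset := by
    intro s hs
    rw [Set.Finite.mem_toFinset] at hs
    rw [Multiset.mem_toFinset, mem_roots hne]
    simp [IsRoot, hS s hs]
  have hc1 : hSf.toFinset.card = n := by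
    rw [← hcard, Nat.card_eq_card_finite_toFinset hSf]
  have hc2 : (X ^ n - X : K[X]).roots.toFinset.card ≤ n := by
    calc _ ≤ Multiset.card (X ^ n - X : K[X]).roots := Multiset.toFinset_card_le _
      _ ≤ (X ^ n - X : K[X]).natDegree := card_roots' _
      _ = n := hdeg
  have heq := Finset.eq_of_subset_of_card_le hsub (by rw [hc1]; exact hc2)
  have : x ∈ (X ^ n - X : K[X]).roots.toFinset := by
    rw [Multiset.mem_toFinset, mem_roots hne]
    simp [IsRoot, hx]
  rw [← heq, Set.Finite.mem_toFinset] at this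
  exact this

/-- elements of a finite subring of a field -/
theorem subring_pow_card {K : Type*} [Field K] (R : Subring K) [Finite R] {x : K} (hx : x ∈ R) :
    x ^ Nat.card R = x := by
  classical
  have : Fintype R := Fintype.ofFinite R
  let _ : Field R := Fintype.fieldOfDomain R
  have h := FiniteField.pow_card (⟨x, hx⟩ : R)
  rw [Nat.card_eq_fintype_card]
  exact congrArg Subtype.val h

variable (q : ℕ) [hq : Fact q.Prime]

/-- the valuation ring of `Ω` -/
def VO : ValuationSubring (Om q) where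
  carrier := {x | ‖x‖ ≤ 1}
  mul_mem' := by
    intro a b ha hb
    change ‖a * b‖ ≤ 1
    rw [norm_mul]
    exact mul_le_one₀ ha (norm_nonneg _) hb
  one_mem' := by change ‖(1 : Om q)‖ ≤ 1; rw [norm_one]
  add_mem' := fun {a b} ha hb => (norm_add_le_max' a b).trans (max_le ha hb)
  zero_mem' := by change ‖(0 : Om q)‖ ≤ 1; rw [norm_zero]; exact zero_le_one
  neg_mem' := by intro a ha; change ‖-a‖ ≤ 1; rw [norm_neg]; exact ha
  mem_or_inv_mem' := by
    intro x
    by_cases hx : ‖x‖ ≤ 1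
    · exact Or.inl hx
    · right
      change ‖x⁻¹‖ ≤ 1
      rw [norm_inv]
      exact inv_le_one_of_one_le₀ (not_le.mp hx).le

variable {q}

theorem mem_VO {x : Om q} : x ∈ VO q ↔ ‖x‖ ≤ 1 := Iff.rfl

theorem mem_VO_of_norm_eq {x : Om q} (h : ‖x‖ = 1) : x ∈ VO q := h.le

variable (q) in
/-- the residue field of `Ω` -/
abbrev KK : Type := IsLocalRing.ResidueField (VO q)

/-- reduction -/
noncomputable abbrev red : VO q →+* KK q := IsLocalRing.residue (VO q)

theorem red_eq_zero {x : VO q} : red x = 0 ↔ ‖(x : Om q)‖ < 1 := by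
  rw [IsLocalRing.residue_eq_zero_iff, IsLocalRing.mem_maximalIdeal, mem_nonunits_iff, not_iff_comm,
    not_lt]
  have hx : ‖(x : Om q)‖ ≤ 1 := x.2
  constructor
  · intro h
    have h1 : ‖(x : Om q)‖ = 1 := le_antisymm hx h
    have h0 : (x : Om q) ≠ 0 := by intro h2; rw [h2, norm_zero] at h1; exact zero_ne_one h1
    refine isUnit_iff_exists_inv.mpr ⟨⟨(x : Om q)⁻¹, ?_⟩, Subtype.ext (mul_inv_cancel₀ h0)⟩
    rw [mem_VO, norm_inv, h1, inv_one]
  · intro h
    obtain ⟨y, hy⟩ := isUnit_iff_exists_inv.mp h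
    have h2 : ‖(x : Om q)‖ * ‖(y : Om q)‖ = 1 := by
      rw [← norm_mul, show (x : Om q) * (y : Om q) = 1 from congrArg Subtype.val hy, norm_one]
    have hy : ‖(y : Om q)‖ ≤ 1 := y.2
    calc 1 = ‖(x : Om q)‖ * ‖(y : Om q)‖ := h2.symm
      _ ≤ ‖(x : Om q)‖ := mul_le_of_le_one_right (norm_nonneg _) hy

theorem red_eq {x y : VO q} : red x = red y ↔ ‖(x : Om q) - y‖ < 1 := by
  rw [← sub_eq_zero, ← map_sub, red_eq_zero]; rfl

instance : CharP (KK q) q := by
  rw [CharP.charP_iff_prime_eq_zero hq.out]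
  have h1 : ((q : ℕ) : KK q) = red ((q : ℕ) : VO q) := (map_natCast red q).symm
  rw [h1, red_eq_zero]
  have h2 : (((q : ℕ) : VO q) : Om q) = ((q : ℕ) : Om q) := map_natCast (VO q).subtype q
  rw [h2, norm_q]
  exact inv_lt_one_of_one_lt₀ (by exact_mod_cast hq.out.one_lt)

theorem prime_field {c : KK q} (hc : c ^ q = c) : ∃ k : ℤ, c = k := by
  let f : ZMod q →+* KK q := ZMod.castHom (dvd_refl q) (KK q)
  have h1 : c ∈ Set.range f := by
    refine mem_of_pow_eq hq.out.one_lt _ ?_ ?_ hc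
    · rw [Nat.card_congr (Equiv.ofInjective f f.injective).symm, Nat.card_zmod]
    · rintro _ ⟨y, rfl⟩
      rw [← map_pow, ZMod.pow_card]
  obtain ⟨y, rfl⟩ := h1
  refine ⟨(y.val : ℤ), ?_⟩
  conv_lhs => rw [← ZMod.natCast_zmod_val y]
  rw [map_natCast]; simp

theorem sep {n : ℕ} (hn : n.Coprime q) {x y : Om q} (hx : x ^ n = 1) (hy : y ^ n = 1)
    (h : ‖x - y‖ < 1) : x = y := by
  have hn0 : n ≠ 0 := by
    rintro rfl
    rw [Nat.coprime_zero_left] at hn
    exact hq.out.one_lt.ne' hn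
  have hy1 : ‖y‖ = 1 := norm_of_pow_eq_one hn0 hy
  have hy0 : y ≠ 0 := by rintro rfl; rw [norm_zero] at hy1; exact zero_ne_one hy1
  set z := x / y with hz
  have hzn : z ^ n = 1 := by rw [hz, div_pow, hx, hy, div_one]
  have hz1 : ‖z - 1‖ < 1 := by
    have : z - 1 = (x - y) / y := by rw [hz]; field_simp
    rw [this, norm_div, hy1, div_one]; exact h
  have hzz : ‖z‖ = 1 := norm_of_pow_eq_one hn0 hzn
  by_contra hne
  have hz2 : z ≠ 1 := by
    intro h2
    apply hne
    rw [hz, div_eq_one_iff_eq hy0] at h2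
    exact h2
  have h3 : ∑ i ∈ Finset.range n, z ^ i = 0 := by
    have := geom_sum_mul z n
    rw [hzn, sub_self, mul_eq_zero] at this
    rcases this with h4 | h4
    · exact h4
    · exact absurd (sub_eq_zero.mp h4) hz2
  have h4 : ‖(n : Om q)‖ < 1 := by
    have h5 : (n : Om q) = ∑ i ∈ Finset.range n, (1 - z ^ i) := by
      rw [Finset.sum_sub_distrib, h3]; simp
    rw [h5]
    have h6 : ∀ m : ℕ, ‖∑ i ∈ Finset.range m, (1 - z ^ i)‖ < 1 := by
      intro m
      induction m with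
      | zero => simp
      | succ m ih =>
        rw [Finset.sum_range_succ]
        refine (norm_add_le_max' _ _).trans_lt (max_lt ih ?_)
        refine (norm_geom_le hzz m).trans_lt ?_
        rw [norm_sub_rev]; exact hz1
    exact h6 n
  rw [norm_natCast_eq] at h4
  have h5 : ‖((n : ℤ) : ℚ_[q])‖ < 1 := by simpa using h4
  rw [Padic.norm_intCast_lt_one_iff] at h5
  have h6 : q ∣ n := Int.natCast_dvd_natCast.mp h5
  exact hq.out.one_lt.ne' (Nat.Coprime.eq_one_of_dvd hn.symm h6)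

/-- integers of the fixed field -/
noncomputable def OE (N : Subgroup (Gq q)) : Subring (VO q) := (EE N).toSubring.comap (VO q).subtype

/-- residue field of the fixed field -/
noncomputable def RE (N : Subgroup (Gq q)) : Subring (KK q) := (OE N).map red

theorem mem_RE {N : Subgroup (Gq q)} {c : KK q} :
    c ∈ RE N ↔ ∃ x : VO q, (x : Om q) ∈ EE N ∧ red x = c := Iff.rfl

theorem card_RE (N : Subgroup (Gq q)) : Nat.card (RE N) = resCard N := by
  let φ : OO N →+ KK q := AddMonoidHom.mk' (fun x => red ⟨((x : EE N) : Om q), x.2⟩) (by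
    intro a b
    rw [← map_add]; rfl)
  have h1 : φ.ker = (BB N 1 one_pos).addSubgroupOf (OO N) := by
    ext x
    rw [AddMonoidHom.mem_ker, AddSubgroup.mem_addSubgroupOf]
    exact red_eq_zero
  rw [resCard, AddSubgroup.relIndex, ← h1, AddSubgroup.index_ker]
  refine Nat.card_congr (Equiv.setCongr ?_)
  ext c
  constructor
  · rintro ⟨x, hx, rfl⟩
    exact ⟨⟨⟨(x : Om q), hx⟩, x.2⟩, rfl⟩
  · rintro ⟨x, rfl⟩
    exact ⟨⟨((x : EE N) : Om q), x.2⟩, (x : EE N).2, rfl⟩

section

variable {N : Subgroup (Gq q)} (hN : IsOpen (N : Set (Gq q)))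

include hN

theorem resCard_gt : 1 < resCard N := by
  have h1 : resCard N ≠ 0 := finite_OO_BB hN
  have h2 : Finite (RE N) := Nat.finite_of_card_ne_zero (by rw [card_RE]; exact h1)
  rw [← card_RE]
  exact Finite.one_lt_card

theorem fdeg_pos : 0 < fdeg N := by
  have h1 := resCard_gt hN
  rw [resCard_eq hN] at h1
  by_contra h
  push Not at h
  have : fdeg N = 0 := by omega
  rw [this, pow_zero] at h1
  exact lt_irrefl _ h1

theorem mem_RE_iff {c : KK q} : c ∈ RE N ↔ c ^ (q ^ fdeg N) = c := by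
  have h1 : resCard N ≠ 0 := finite_OO_BB hN
  have h2 : Finite (RE N) := Nat.finite_of_card_ne_zero (by rw [card_RE]; exact h1)
  have h3 : Nat.card (RE N) = q ^ fdeg N := by rw [card_RE, resCard_eq hN]
  have h4 : ∀ s ∈ RE N, s ^ (q ^ fdeg N) = s := by
    intro s hs
    rw [← h3]; exact subring_pow_card (RE N) hs
  constructor
  · exact h4 c
  · intro h
    refine mem_of_pow_eq (S := (RE N : Set (KK q))) ?_ h3 h4 h
    rw [← h3, card_RE]; exact resCard_gt hN

end

/-- divisibility of exponents -/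
theorem dvd_of_pow_sub_one_dvd {a m d : ℕ} (ha : 1 < a) (h : a ^ m - 1 ∣ a ^ d - 1) : m ∣ d := by
  have h1 := Nat.pow_sub_one_gcd_pow_sub_one a m d
  rw [Nat.gcd_eq_left h] at h1
  have h2 : a ^ m = a ^ (m.gcd d) := by
    have e1 := Nat.one_le_pow m a (by omega)
    have e2 := Nat.one_le_pow (m.gcd d) a (by omega)
    omega
  have h3 := Nat.pow_right_injective (by omega : 2 ≤ a) h2
  rw [h3]; exact Nat.gcd_dvd_right m d

theorem pow_sub_one_dvd {a m d : ℕ} (h : m ∣ d) : a ^ m - 1 ∣ a ^ d - 1 := by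
  obtain ⟨k, rfl⟩ := h
  rw [pow_mul]
  simpa using Nat.sub_dvd_pow_sub_pow (a ^ m) 1 k

section zeta

variable {m : ℕ} (hm : 0 < m) {ζ : Om q} (hζ : IsPrimitiveRoot ζ (q ^ m - 1))

omit hq in
theorem one_lt_pow' [Fact q.Prime] (hm : 0 < m) : 1 < q ^ m :=
  Nat.one_lt_pow hm.ne' (Fact.out : q.Prime).one_lt

include hm

omit hζ in
theorem coprime_pow_sub_one : (q ^ m - 1).Coprime q := by
  have h1 := one_lt_pow' (q := q) hm
  rw [Nat.coprime_comm, hq.out.coprime_iff_not_dvd]
  intro h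
  have h2 : q ∣ q ^ m := dvd_pow_self q hm.ne'
  have h3 : q ∣ 1 := by
    have := Nat.dvd_sub h2 h
    rwa [Nat.sub_sub_self h1.le] at this
  exact hq.out.one_lt.ne' (Nat.dvd_one.mp h3)

include hζ

theorem zeta_pow_q : ζ ^ (q ^ m) = ζ := by
  have h1 := one_lt_pow' (q := q) hm
  have h2 : ζ ^ (q ^ m) = ζ ^ (q ^ m - 1) * ζ := by
    rw [← pow_succ]; congr 1; omega
  rw [h2, hζ.pow_eq_one, one_mul]

theorem norm_zeta' : ‖ζ‖ = 1 := by
  have h1 := one_lt_pow' (q := q) hm
  exact norm_of_pow_eq_one (by omega) hζ.pow_eq_one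

/-- the exponents of `ζ` -/
theorem zeta_pow_eq_iff {a b : ℕ} : ζ ^ (q ^ a) = ζ ^ (q ^ b) ↔ (a : ZMod m) = b := by
  have key : ∀ a b : ℕ, a ≤ b → (ζ ^ (q ^ a) = ζ ^ (q ^ b) ↔ (a : ZMod m) = b) := by
    intro a b hab
    have hle : q ^ a ≤ q ^ b := Nat.pow_le_pow_right hq.out.pos hab
    have hζ0 : ζ ≠ 0 := by
      intro h
      have := norm_zeta' hm hζ
      rw [h, norm_zero] at this
      exact zero_ne_one this
    have e0 : ζ ^ (q ^ a) = ζ ^ (q ^ b) ↔ ζ ^ (q ^ b - q ^ a) = 1 := by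
      have : ζ ^ (q ^ b) = ζ ^ (q ^ a) * ζ ^ (q ^ b - q ^ a) := by rw [← pow_add]; congr 1; omega
      rw [this, eq_comm, mul_eq_left₀ (pow_ne_zero _ hζ0)]
    rw [ZMod.natCast_eq_natCast_iff, (Nat.modEq_iff_dvd' hab), e0, hζ.pow_eq_one_iff_dvd]
    have e1 : q ^ b - q ^ a = q ^ a * (q ^ (b - a) - 1) := by
      rw [Nat.mul_sub, ← pow_add, mul_one]; congr 2; omega
    rw [e1]
    have hc : (q ^ m - 1).Coprime (q ^ a) := (coprime_pow_sub_one hm).pow_right a
    rw [hc.dvd_mul_left]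
    exact ⟨dvd_of_pow_sub_one_dvd hq.out.one_lt, pow_sub_one_dvd⟩
  rcases le_total a b with h | h
  · exact key a b h
  · rw [eq_comm, key b a h, eq_comm]

/-- Galois acts on `ζ` through powers of Frobenius -/
theorem gal_zeta (σ : Gq q) : ∃ a : ℕ, σ ζ = ζ ^ (q ^ a) := by
  classical
  let z : VO q := ⟨ζ, mem_VO_of_norm_eq (norm_zeta' hm hζ)⟩
  have hσz : ‖σ ζ‖ = 1 := by rw [norm_gal]; exact norm_zeta' hm hζ
  let zσ : VO q := ⟨σ ζ, mem_VO_of_norm_eq hσz⟩
  let zb : KK q := red z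
  have hzb : zb ^ (q ^ m) = zb := by
    rw [← map_pow]; congr 1; apply Subtype.ext; exact zeta_pow_q hm hζ
  -- the polynomial
  let P : (KK q)[X] := ∏ a ∈ Finset.range m, (X - C (zb ^ (q ^ a)))
  have hPfrob : P.map (frobenius (KK q) q) = P := by
    obtain ⟨k, rfl⟩ : ∃ k, m = k + 1 := ⟨m - 1, by omega⟩
    simp only [P]
    rw [Polynomial.map_prod, Finset.prod_range_succ, Finset.prod_range_succ']
    congr 1
    · refine Finset.prod_congr rfl fun a _ => ?_
      rw [Polynomial.map_sub, map_X, map_C, frobenius_def, ← pow_mul, ← pow_succ]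
    · rw [Polynomial.map_sub, map_X, map_C, frobenius_def, ← pow_mul, ← pow_succ, hzb, pow_zero,
        pow_one]
  have hlift : P ∈ lifts (Int.castRingHom (KK q)) := by
    rw [lifts_iff_coeff_lifts]
    intro n
    have h1 : (P.coeff n) ^ q = P.coeff n := by
      conv_rhs => rw [← hPfrob, coeff_map, frobenius_def]
    obtain ⟨k, hk⟩ := prime_field h1
    exact ⟨k, by rw [hk]; simp⟩
  obtain ⟨P1, hP1⟩ := (mem_lifts _).mp hlift
  have heval : ∀ x : VO q, red (eval₂ (Int.castRingHom (VO q)) x P1) = P.eval (red x) := by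
    intro x
    rw [← hP1, eval_map, Polynomial.hom_eval₂]
    congr 1
  have h0 : P.eval zb = 0 := by
    rw [eval_prod]
    apply Finset.prod_eq_zero (Finset.mem_range.mpr hm)
    simp
  have h1 : ‖((eval₂ (Int.castRingHom (VO q)) z P1 : VO q) : Om q)‖ < 1 := by
    rw [← red_eq_zero, heval]; exact h0
  have hcoe : ∀ x : VO q, ((eval₂ (Int.castRingHom (VO q)) x P1 : VO q) : Om q) =
      eval₂ (Int.castRingHom (Om q)) (x : Om q) P1 := by
    intro x
    have := Polynomial.hom_eval₂ P1 (Int.castRingHom (VO q)) (VO q).subtype x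
    rw [show ((eval₂ (Int.castRingHom (VO q)) x P1 : VO q) : Om q) =
      (VO q).subtype (eval₂ (Int.castRingHom (VO q)) x P1) from rfl, this]
    congr 1
  have h2 : ‖((eval₂ (Int.castRingHom (VO q)) zσ P1 : VO q) : Om q)‖ < 1 := by
    have h3 : eval₂ (Int.castRingHom (Om q)) (σ ζ) P1 =
        σ (eval₂ (Int.castRingHom (Om q)) ζ P1) := by
      have := Polynomial.hom_eval₂ P1 (Int.castRingHom (Om q)) (σ : Om q →+* Om q) ζ
      rw [show σ (eval₂ (Int.castRingHom (Om q)) ζ P1) =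
        (σ : Om q →+* Om q) (eval₂ (Int.castRingHom (Om q)) ζ P1) from rfl, this]
      congr 1
      exact RingHom.ext_int _ _
    rw [hcoe]
    change ‖eval₂ (Int.castRingHom (Om q)) (σ ζ) P1‖ < 1
    rw [h3, norm_gal]
    rw [hcoe] at h1
    exact h1
  rw [← red_eq_zero, heval, eval_prod, Finset.prod_eq_zero_iff] at h2
  obtain ⟨a, _, ha⟩ := h2
  rw [eval_sub, eval_X, eval_C, sub_eq_zero] at ha
  refine ⟨a, ?_⟩
  have hn := coprime_pow_sub_one (q := q) hm
  refine sep hn ?_ ?_ ?_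
  · rw [← map_pow, hζ.pow_eq_one, map_one]
  · rw [← pow_mul, mul_comm, pow_mul, hζ.pow_eq_one, one_pow]
  · have h4 : red zσ = red (z ^ (q ^ a)) := by rw [map_pow]; exact ha
    have h5 := red_eq.mp h4
    have h6 : ((z ^ (q ^ a) : VO q) : Om q) = ζ ^ (q ^ a) := (VO q).toSubring.subtype.map_pow z _
    rw [h6] at h5
    exact h5

end zeta

end Fermat.Agent.CFTLocal
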