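import Fermat.Agent.CFTLocal.Lattice

set_option autoImplicit false
set_option maxHeartbeats 400000

/-! (L1): the index of `p` on the multiplicative group of a local field. -/

namespace Fermat.Agent.CFTLocal

open Fermat.Agent.CFT

variable {q : ℕ} [hq : Fact q.Prime]

/-- the fixed field -/
noncomputable abbrev EE (N : Subgroup (Gq q)) : IntermediateField ℚ_[q] (PadicAlgCl q) :=
  IntermediateField.fixedField N

theorem mem_EE {N : Subgroup (Gq q)} {x : Om q} : x ∈ EE N ↔ ∀ g ∈ N, g x = x :=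
  IntermediateField.mem_fixedField_iff N x

theorem mem_fix_iff {N : Subgroup (Gq q)} {a : AA q} : a ∈ fix (AA q) N ↔ el a ∈ EE N := by
  rw [mem_EE, mem_fix]
  refine forall_congr' fun g => forall_congr' fun _ => ?_
  rw [← el_smul]
  exact ⟨fun h => by rw [h], fun h => el_injective h⟩

section fin

variable {N : Subgroup (Gq q)} (hN : IsOpen (N : Set (Gq q)))

include hN

theorem fixing_EE : (EE N).fixingSubgroup = N :=
  InfiniteGalois.fixingSubgroup_fixedField ⟨N, Subgroup.isClosed_of_isOpen N hN⟩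

theorem index_ne_zero : N.index ≠ 0 := by
  have : Finite (Gq q ⧸ N) := Subgroup.quotient_finite_of_isOpen N hN
  exact Subgroup.index_ne_zero_of_finite

theorem finrank_EE : Module.finrank ℚ_[q] (EE N) = N.index := by
  rw [IntermediateField.finrank_eq_fixingSubgroup_index, fixing_EE hN]

theorem finiteDimensional_EE : FiniteDimensional ℚ_[q] (EE N) :=
  Module.finite_of_finrank_pos (by rw [finrank_EE hN]; exact Nat.pos_of_ne_zero (index_ne_zero hN))

end fin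

instance (E : IntermediateField ℚ_[q] (PadicAlgCl q)) : IsUltrametricDist E :=
  IsUltrametricDist.isUltrametricDist_of_forall_norm_add_le_max_norm
    (fun x y => PadicAlgCl.isNonarchimedean q (x : Om q) y)

section comm

variable (V : Type*) [NormedAddCommGroup V] [NormedSpace ℚ_[q] V] [IsUltrametricDist V]
  [FiniteDimensional ℚ_[q] V]

theorem finInd_pow (B : AddSubgroup V)
    (hB1 : ∃ ρ : ℝ, 0 < ρ ∧ ∀ x : V, ‖x‖ ≤ ρ → x ∈ B) (hB2 : ∃ ρ : ℝ, ∀ x ∈ B, ‖x‖ ≤ ρ) (k : ℕ) :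
    FinInd (mulN B (q ^ k)) := by
  induction k with
  | zero =>
    have h1 : mulN B (q ^ 0) = AddMonoidHom.id B := by ext x; simp
    rw [h1]
    refine ⟨?_, ?_⟩
    · rw [(AddMonoidHom.ker_eq_bot_iff _).mpr (fun x y h => h)]; simp
    · rw [AddMonoidHom.range_eq_top.mpr (fun x => ⟨x, rfl⟩)]; simp
  | succ k ih =>
    have h1 : mulN B (q ^ (k + 1)) = (mulN B q).comp (mulN B (q ^ k)) := by
      ext x; simp [pow_succ, mul_smul, mul_comm]
    rw [h1]
    exact ih.comp (ind_ball q q V B hB1 hB2).1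

omit hq [NormedSpace ℚ_[q] V] [FiniteDimensional ℚ_[q] V] in
/-- two sandwiched subgroups are commensurable -/
theorem relIndex_ne_zero (q : ℕ) [hq : Fact q.Prime] [NormedSpace ℚ_[q] V]
    [FiniteDimensional ℚ_[q] V] (B1 B2 : AddSubgroup V)
    (h1 : ∃ ρ : ℝ, 0 < ρ ∧ ∀ x : V, ‖x‖ ≤ ρ → x ∈ B1)
    (h2 : ∃ ρ : ℝ, 0 < ρ ∧ ∀ x : V, ‖x‖ ≤ ρ → x ∈ B2) (h3 : ∃ ρ : ℝ, ∀ x ∈ B2, ‖x‖ ≤ ρ) :
    B1.relIndex B2 ≠ 0 := by
  have hq1 : (1 : ℝ) < q := by exact_mod_cast hq.out.one_lt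
  obtain ⟨ρ1, hρ1, h1⟩ := h1
  obtain ⟨ρ2, h3'⟩ := h3
  obtain ⟨k, hk⟩ := pow_unbounded_of_one_lt (ρ2 / ρ1) hq1
  have h4 := (finInd_pow (q := q) V B2 h2 ⟨ρ2, h3'⟩ k).coker
  have h5 : (mulN B2 (q ^ k)).range ≤ B1.addSubgroupOf B2 := by
    rintro _ ⟨x, rfl⟩
    rw [AddSubgroup.mem_addSubgroupOf]
    apply h1
    change ‖(q ^ k) • (x : V)‖ ≤ ρ1
    rw [← Nat.cast_smul_eq_nsmul ℚ_[q], norm_smul, Nat.cast_pow, norm_pow, Padic.norm_p, inv_pow,
      inv_mul_le_iff₀ (by positivity)]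
    rw [div_lt_iff₀ hρ1] at hk
    rw [mul_comm] at hk
    exact (h3' x x.2).trans (by linarith)
  intro h6
  have h7 := AddSubgroup.relIndex_mul_index h5
  rw [show (B1.addSubgroupOf B2).index = 0 from h6, mul_zero] at h7
  exact h4 h7.symm

end comm

end Fermat.Agent.CFTLocal
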