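import Fermat.Agent.CFTLocal.Res

set_option autoImplicit false
set_option maxHeartbeats 400000

/-! The unramified character and unramified extensions. -/

namespace Fermat.Agent.CFTLocal

open Fermat.Agent.CFT

variable {q : ℕ} [hq : Fact q.Prime]

theorem card_units_subring {K : Type*} [Field K] (R : Subring K) [Finite R] :
    Nat.card Rˣ = Nat.card R - 1 := by
  classical
  have : Fintype R := Fintype.ofFinite R
  have h1 : Nat.card Rˣ = Nat.card {x : R // x ≠ 0} := by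
    refine Nat.card_congr (Equiv.ofBijective (fun u : Rˣ => ⟨(u : R), u.ne_zero⟩) ⟨?_, ?_⟩)
    · intro u v h
      exact Units.ext (Subtype.mk.inj h)
    · rintro ⟨x, hx⟩
      let _ : Field R := Fintype.fieldOfDomain R
      have h2 : x * x⁻¹ = 1 := mul_inv_cancel₀ hx
      have h3 : x⁻¹ * x = 1 := inv_mul_cancel₀ hx
      exact ⟨⟨x, x⁻¹, h2, h3⟩, rfl⟩
  rw [h1, Nat.card_eq_fintype_card, Nat.card_eq_fintype_card, Fintype.card_subtype_compl,
    Fintype.card_subtype_eq]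

theorem exists_zeta {m : ℕ} (hm : 0 < m) : ∃ ζ : Om q, IsPrimitiveRoot ζ (q ^ m - 1) := by
  have h1 : q ^ m - 1 ≠ 0 := by have := one_lt_pow' (q := q) hm; omega
  have : NeZero ((q ^ m - 1 : ℕ) : Om q) := ⟨Nat.cast_ne_zero.mpr h1⟩
  exact HasEnoughRootsOfUnity.exists_primitiveRoot (Om q) (q ^ m - 1)

section Frob

variable (q) (m : ℕ)

open Classical in
/-- a fixed root of unity of order `q^m-1` -/
noncomputable def zt : Om q := if h : 0 < m then (exists_zeta (q := q) h).choose else 1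

variable {m}

theorem zt_spec (hm : 0 < m) : IsPrimitiveRoot (zt q m) (q ^ m - 1) := by
  rw [zt, dif_pos hm]; exact (exists_zeta (q := q) hm).choose_spec

variable {q}

theorem exists_exp (hm : 0 < m) (σ : Gq q) : ∃ a : ℕ, σ (zt q m) = zt q m ^ (q ^ a) :=
  gal_zeta hm (zt_spec q hm) σ

open Classical in
/-- the unramified character -/
noncomputable def dg (m : ℕ) (σ : Gq q) : ZMod m :=
  if hm : 0 < m then ((exists_exp hm σ).choose : ZMod m) else 0

theorem dg_eq (hm : 0 < m) {σ : Gq q} {a : ℕ} (h : σ (zt q m) = zt q m ^ (q ^ a)) :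
    dg m σ = a := by
  rw [dg, dif_pos hm]
  have h1 := (exists_exp hm σ).choose_spec
  exact ((zeta_pow_eq_iff hm (zt_spec q hm)).mp (h.symm.trans h1)).symm

theorem dg_spec (hm : 0 < m) (σ : Gq q) : σ (zt q m) = zt q m ^ (q ^ (dg m σ).val) := by
  have : NeZero m := ⟨hm.ne'⟩
  obtain ⟨a, ha⟩ := exists_exp hm σ
  rw [ha, zeta_pow_eq_iff hm (zt_spec q hm), ZMod.natCast_zmod_val, dg_eq hm ha]

theorem dg_mul (hm : 0 < m) (σ τ : Gq q) : dg m (σ * τ) = dg m σ + dg m τ := by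
  have : NeZero m := ⟨hm.ne'⟩
  have h : (σ * τ) (zt q m) = zt q m ^ (q ^ ((dg m σ).val + (dg m τ).val)) := by
    rw [AlgEquiv.mul_apply, dg_spec hm τ, map_pow, dg_spec hm σ, ← pow_mul, ← pow_add]
  rw [dg_eq hm h]
  push_cast
  rw [ZMod.natCast_zmod_val, ZMod.natCast_zmod_val]

theorem dg_one (hm : 0 < m) : dg m (1 : Gq q) = 0 := by
  have := dg_mul hm (1 : Gq q) 1
  rw [one_mul] at this
  simpa using this

theorem dg_inv (hm : 0 < m) (σ : Gq q) : dg m σ⁻¹ = -dg m σ := by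
  have := dg_mul hm σ σ⁻¹
  rw [mul_inv_cancel, dg_one hm] at this
  exact (neg_eq_of_add_eq_zero_right this.symm).symm

theorem dg_eq_zero_iff (hm : 0 < m) (σ : Gq q) : dg m σ = 0 ↔ σ (zt q m) = zt q m := by
  have : NeZero m := ⟨hm.ne'⟩
  constructor
  · intro h
    have := dg_spec hm σ
    rw [h, ZMod.val_zero, pow_zero, pow_one] at this
    exact this
  · intro h
    have := dg_eq hm (σ := σ) (a := 0) (by rw [h]; simp)
    simpa using this

variable (q)

/-- the kernel of the unramified character -/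
def Km (hm : 0 < m) : Subgroup (Gq q) where
  carrier := {σ | dg m σ = 0}
  one_mem' := dg_one hm
  mul_mem' := by
    intro a b ha hb
    change dg m (a * b) = 0
    rw [dg_mul hm, show dg m a = 0 from ha, show dg m b = 0 from hb, add_zero]
  inv_mem' := by
    intro a ha
    change dg m a⁻¹ = 0
    rw [dg_inv hm, show dg m a = 0 from ha, neg_zero]

variable {q}

theorem mem_Km {hm : 0 < m} {σ : Gq q} : σ ∈ Km q hm ↔ dg m σ = 0 := Iff.rfl

theorem Km_normal (hm : 0 < m) : (Km q hm).Normal := ⟨fun n hn g => by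
  rw [mem_Km] at hn ⊢
  rw [dg_mul hm, dg_mul hm, dg_inv hm, hn]; ring⟩

theorem Km_open (hm : 0 < m) : IsOpen (Km q hm : Set (Gq q)) := by
  have hfd : FiniteDimensional ℚ_[q] (IntermediateField.adjoin ℚ_[q] {zt q m}) :=
    IntermediateField.adjoin.finiteDimensional (Algebra.IsIntegral.isIntegral _)
  have h1 := IntermediateField.fixingSubgroup_isOpen (IntermediateField.adjoin ℚ_[q] {zt q m})
  convert h1 using 1
  ext σ
  change dg m σ = 0 ↔ σ ∈ (IntermediateField.adjoin ℚ_[q] {zt q m}).fixingSubgroup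
  rw [dg_eq_zero_iff hm]
  constructor
  · intro h
    rw [IntermediateField.mem_fixingSubgroup_iff]
    intro x hx
    have h2 : IntermediateField.adjoin ℚ_[q] {zt q m} ≤
        IntermediateField.fixedField (Subgroup.zpowers σ) := by
      rw [IntermediateField.adjoin_le_iff]
      rintro _ rfl
      rw [SetLike.mem_coe, IntermediateField.mem_fixedField_iff]
      rintro f ⟨n, rfl⟩
      have h3 : σ ∈ MulAction.stabilizer (Gq q) (zt q m) := h
      exact (MulAction.stabilizer (Gq q) (zt q m)).zpow_mem h3 n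
    exact (IntermediateField.mem_fixedField_iff _ _).mp (h2 hx) σ (Subgroup.mem_zpowers σ)
  · intro h
    exact (IntermediateField.mem_fixingSubgroup_iff _ _).mp h _
      (IntermediateField.mem_adjoin_simple_self ℚ_[q] (zt q m))

end Frob

section main

variable {m : ℕ} (hm : 0 < m) {N : Subgroup (Gq q)} (hN : IsOpen (N : Set (Gq q)))

include hN

theorem inf_open : IsOpen ((N ⊓ Km q hm : Subgroup (Gq q)) : Set (Gq q)) := by
  rw [Subgroup.coe_inf]
  exact hN.inter (Km_open hm)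

theorem dvd_fdeg : m ∣ fdeg (N ⊓ Km q hm) := by
  have hζ := zt_spec q hm
  have h1 : zt q m ∈ EE (N ⊓ Km q hm) := by
    rw [mem_EE]
    rintro g ⟨_, hg⟩
    exact (dg_eq_zero_iff hm g).mp hg
  have hz : zt q m ∈ VO q := mem_VO_of_norm_eq (norm_zeta' hm hζ)
  have h2 : red ⟨zt q m, hz⟩ ∈ RE (N ⊓ Km q hm) := mem_RE.mpr ⟨_, h1, rfl⟩
  rw [mem_RE_iff (inf_open hm hN), ← map_pow, red_eq] at h2
  have h3 : zt q m ^ (q ^ fdeg (N ⊓ Km q hm)) = zt q m ^ (q ^ 0) := by
    rw [pow_zero, pow_one]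
    refine sep (coprime_pow_sub_one (q := q) hm) ?_ hζ.pow_eq_one h2
    rw [← pow_mul, mul_comm, pow_mul, hζ.pow_eq_one, one_pow]
  rw [zeta_pow_eq_iff hm hζ, Nat.cast_zero, ZMod.natCast_eq_zero_iff] at h3
  exact h3

theorem fdeg_dvd_fdeg {N' : Subgroup (Gq q)} (hN' : IsOpen (N' : Set (Gq q))) (hle : N' ≤ N) :
    fdeg N ∣ fdeg N' := by
  have hf1 : Finite (RE N) := Nat.finite_of_card_ne_zero (by rw [card_RE]; exact finite_OO_BB hN)
  have hf2 : Finite (RE N') := Nat.finite_of_card_ne_zero (by rw [card_RE]; exact finite_OO_BB hN')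
  have hsub : RE N ≤ RE N' := by
    intro c hc
    obtain ⟨x, hx, rfl⟩ := mem_RE.mp hc
    refine mem_RE.mpr ⟨x, ?_, rfl⟩
    rw [mem_EE] at hx ⊢
    exact fun g hg => hx g (hle hg)
  have h1 : Nat.card (RE N)ˣ ∣ Nat.card (RE N')ˣ := by
    refine Subgroup.card_dvd_of_injective (Units.map (Subring.inclusion hsub : RE N →* RE N')) ?_
    exact Units.map_injective (Subring.inclusion_injective hsub)
  rw [card_units_subring, card_units_subring, card_RE, card_RE, resCard_eq hN, resCard_eq hN'] at h1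
  exact dvd_of_pow_sub_one_dvd hq.out.one_lt h1

include hm in
theorem gcd_dvd_dg {σ : Gq q} (hσ : σ ∈ N) : m.gcd (fdeg N) ∣ (dg m σ).val := by
  have hNZ : NeZero m := ⟨hm.ne'⟩
  have hζ := zt_spec q hm
  obtain ⟨g0, hg0⟩ : ∃ g0, g0 = m.gcd (fdeg N) := ⟨_, rfl⟩
  rw [← hg0]
  have hg0pos : 0 < g0 := by rw [hg0]; exact Nat.gcd_pos_of_pos_left _ hm
  have hgm : g0 ∣ m := by rw [hg0]; exact Nat.gcd_dvd_left _ _
  have hgf : g0 ∣ fdeg N := by rw [hg0]; exact Nat.gcd_dvd_right _ _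
  have hd : q ^ g0 - 1 ∣ q ^ m - 1 := pow_sub_one_dvd hgm
  have hm1 : q ^ m - 1 ≠ 0 := by have := one_lt_pow' (q := q) hm; omega
  obtain ⟨t, ht⟩ := hd
  obtain ⟨ξ, hξdef⟩ : ∃ ξ, ξ = zt q m ^ t := ⟨_, rfl⟩
  have hξ : IsPrimitiveRoot ξ (q ^ g0 - 1) := by
    rw [hξdef]
    exact hζ.pow (Nat.pos_of_ne_zero hm1) (by rw [ht, mul_comm])
  have hσξ : σ ξ = ξ ^ (q ^ (dg m σ).val) := by
    rw [hξdef, map_pow, dg_spec hm σ, ← pow_mul, ← pow_mul, mul_comm]
  have hξf : ξ ^ (q ^ fdeg N) = ξ := by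
    have h1 : ξ ^ (q ^ fdeg N) = ξ ^ (q ^ 0) := by
      rw [zeta_pow_eq_iff hg0pos hξ, Nat.cast_zero, ZMod.natCast_eq_zero_iff]
      exact hgf
    rw [h1, pow_zero, pow_one]
  have hξn := norm_zeta' hg0pos hξ
  have hξV : ξ ∈ VO q := mem_VO_of_norm_eq hξn
  obtain ⟨y, hy⟩ : ∃ y : VO q, (y : Om q) = ξ := ⟨⟨ξ, hξV⟩, rfl⟩
  have h2 : red y ∈ RE N := by
    rw [mem_RE_iff hN, ← map_pow]
    have h4 : y ^ (q ^ fdeg N) = y := by
      apply Subtype.ext
      have h5 : ((y ^ (q ^ fdeg N) : VO q) : Om q) = (y : Om q) ^ (q ^ fdeg N) :=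
        (VO q).toSubring.subtype.map_pow y _
      rw [h5, hy, hξf]
    rw [h4]
  obtain ⟨x, hx, hxr⟩ := mem_RE.mp h2
  have h3 : ‖(x : Om q) - ξ‖ < 1 := by rw [← hy]; exact red_eq.mp hxr
  have h4 : ‖σ ξ - ξ‖ < 1 := by
    have h5 : σ ξ - ξ = ((x : Om q) - ξ) - (σ (x : Om q) - σ ξ) := by
      rw [mem_EE.mp hx σ hσ]; ring
    rw [h5]
    refine (norm_sub_le_max' _ _).trans_lt (max_lt h3 ?_)
    rw [← map_sub, norm_gal]; exact h3
  have h5 : σ ξ = ξ := by
    refine sep (coprime_pow_sub_one (q := q) hg0pos) ?_ hξ.pow_eq_one h4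
    rw [← map_pow, hξ.pow_eq_one, map_one]
  have h6 : ξ ^ (q ^ (dg m σ).val) = ξ ^ (q ^ 0) := by rw [← hσξ, h5, pow_zero, pow_one]
  rw [zeta_pow_eq_iff hg0pos hξ, Nat.cast_zero, ZMod.natCast_eq_zero_iff] at h6
  exact h6

end main

/-- dividing the unramified character -/
theorem div_add {m g0 M : ℕ} [NeZero m] (hm : m = g0 * M) (hg0 : 0 < g0) (a b : ZMod m)
    (ha : g0 ∣ a.val) (hb : g0 ∣ b.val) :
    (((a + b).val / g0 : ℕ) : ZMod M) = ((a.val / g0 : ℕ) : ZMod M) + ((b.val / g0 : ℕ) : ZMod M) := by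
  obtain ⟨c, hc⟩ := ha
  obtain ⟨d, hd⟩ := hb
  rw [ZMod.val_add, hc, hd, hm, ← mul_add, Nat.mul_mod_mul_left, Nat.mul_div_cancel_left _ hg0,
    Nat.mul_div_cancel_left _ hg0, Nat.mul_div_cancel_left _ hg0, ZMod.natCast_mod]
  push_cast; rfl

section main2

variable {m : ℕ} (hm : 0 < m) {N : Subgroup (Gq q)} (hN : IsOpen (N : Set (Gq q)))

include hN

theorem relIndex_le : (N ⊓ Km q hm).relIndex N ≤ m / m.gcd (fdeg N) := by
  have : NeZero m := ⟨hm.ne'⟩
  set g0 := m.gcd (fdeg N) with hg0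
  have hg0pos : 0 < g0 := Nat.gcd_pos_of_pos_left _ hm
  have hgm : g0 ∣ m := Nat.gcd_dvd_left _ _
  set M := m / g0 with hM
  have hmM : m = g0 * M := (Nat.mul_div_cancel' hgm).symm
  have hMpos : 0 < M := Nat.pos_of_ne_zero (by rintro h; rw [h, mul_zero] at hmM; omega)
  have : NeZero M := ⟨hMpos.ne'⟩
  let ψ : N →* Multiplicative (ZMod M) := MonoidHom.mk' (fun σ =>
    Multiplicative.ofAdd (((dg m (σ : Gq q)).val / g0 : ℕ) : ZMod M)) (by
      intro a b
      rw [← ofAdd_add]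
      congr 1
      rw [Subgroup.coe_mul, dg_mul hm]
      exact div_add hmM hg0pos _ _ (gcd_dvd_dg hm hN a.2) (gcd_dvd_dg hm hN b.2))
  have hker : ψ.ker = (N ⊓ Km q hm).subgroupOf N := by
    ext σ
    rw [MonoidHom.mem_ker, Subgroup.mem_subgroupOf]
    have h1 : ψ σ = Multiplicative.ofAdd (((dg m (σ : Gq q)).val / g0 : ℕ) : ZMod M) := rfl
    rw [h1, ofAdd_eq_one, ZMod.natCast_eq_zero_iff, Subgroup.mem_inf, mem_Km]
    obtain ⟨c, hc⟩ := gcd_dvd_dg hm hN σ.2
    rw [← hg0] at hc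
    constructor
    · rintro h
      refine ⟨σ.2, ?_⟩
      rw [hc, Nat.mul_div_cancel_left _ hg0pos] at h
      rw [← ZMod.val_eq_zero]
      have h2 : m ∣ (dg m (σ : Gq q)).val := by rw [hc, hmM]; exact Nat.mul_dvd_mul_left _ h
      exact Nat.eq_zero_of_dvd_of_lt h2 (ZMod.val_lt _)
    · rintro ⟨_, h⟩
      rw [h, ZMod.val_zero, Nat.zero_div]; exact dvd_zero _
  rw [Subgroup.relIndex, ← hker, Subgroup.index_ker]
  calc Nat.card ψ.range ≤ Nat.card (Multiplicative (ZMod M)) :=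
        Nat.card_le_card_of_injective _ Subtype.val_injective
    _ = M := by rw [Nat.card_congr Multiplicative.toAdd, Nat.card_zmod]

/-- **Unramifiedness.** -/
theorem unram : VG (N ⊓ Km q hm) = VG N ∧ (N ⊓ Km q hm).relIndex N = m / m.gcd (fdeg N) := by
  set N' := N ⊓ Km q hm with hN'
  have hN'o : IsOpen (N' : Set (Gq q)) := inf_open hm hN
  have hle : N' ≤ N := inf_le_left
  set g0 := m.gcd (fdeg N) with hg0
  have hg0pos : 0 < g0 := Nat.gcd_pos_of_pos_left _ hm
  have hgm : g0 ∣ m := Nat.gcd_dvd_left _ _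
  set M := m / g0 with hM
  have hmM : m = g0 * M := (Nat.mul_div_cancel' hgm).symm
  have hMpos : 0 < M := Nat.pos_of_ne_zero (by rintro h; rw [h, mul_zero] at hmM; omega)
  have h1 := relIndex_le hm hN
  have h2 : N'.relIndex N * N.index = N'.index := Subgroup.relIndex_mul_index hle
  rw [← ram_mul_fdeg hN, ← ram_mul_fdeg hN'o] at h2
  have h3 : ram N' = ram N * (VG N).relIndex (VG N') := by
    have := AddSubgroup.relIndex_mul_relIndex (VG (⊤ : Subgroup (Gq q))) (VG N) (VG N')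
      (VG_mono le_top) (VG_mono hle)
    exact this.symm
  have h4 : M * fdeg N ∣ fdeg N' := by
    have h5 : m.lcm (fdeg N) ∣ fdeg N' :=
      Nat.lcm_dvd (dvd_fdeg hm hN) (fdeg_dvd_fdeg hN hN'o hle)
    have h6 : m.lcm (fdeg N) = M * fdeg N := by
      rw [Nat.lcm, ← hg0]
      rw [Nat.mul_comm m, Nat.mul_div_assoc _ hgm, Nat.mul_comm]
    rwa [h6] at h5
  have hf := fdeg_pos hN
  have hf' := fdeg_pos hN'o
  have he := ram_pos hN
  have he' := ram_pos hN'o
  set r := N'.relIndex N with hr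
  set k := (VG N).relIndex (VG N') with hk
  have hkpos : 0 < k := by
    rw [h3] at he'
    exact Nat.pos_of_mul_pos_left he' |> fun h => by
      rcases Nat.eq_zero_or_pos k with h | h
      · rw [h, mul_zero] at he'; omega
      · exact h
  rw [h3] at h2
  have h5 : r * fdeg N = k * fdeg N' := by
    have : ram N * (r * fdeg N) = ram N * (k * fdeg N') := by linarith
    exact Nat.eq_of_mul_eq_mul_left he this
  have h6 : M * fdeg N ≤ fdeg N' := Nat.le_of_dvd hf' h4
  have h7 : k * M ≤ r := by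
    have : k * M * fdeg N ≤ r * fdeg N := by
      rw [h5, mul_assoc]; exact Nat.mul_le_mul_left _ h6
    exact Nat.le_of_mul_le_mul_right this hf
  have hr1 : r ≤ M := h1
  have hk1 : k = 1 := by
    have h8 : k * M ≤ 1 * M := by rw [one_mul]; exact h7.trans hr1
    have h9 := Nat.le_of_mul_le_mul_right h8 hMpos
    omega
  constructor
  · apply le_antisymm _ (VG_mono hle)
    rw [← AddSubgroup.relIndex_eq_one]
    exact hk1
  · rw [hk1, one_mul] at h7
    exact le_antisymm hr1 h7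

end main2

end Fermat.Agent.CFTLocal
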