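import Fermat.Agent.CFTLocal.L1

set_option autoImplicit false
set_option maxHeartbeats 400000

/-! Value groups, ramification index and residue degree. -/

namespace Fermat.Agent.CFTLocal

open Fermat.Agent.CFT

variable {q : ℕ} [hq : Fact q.Prime]

/-- logarithm of the norm -/
noncomputable def lg (N : Subgroup (Gq q)) : fix (AA q) N →+ ℝ :=
  AddMonoidHom.mk' (fun a => Real.log ‖eF a‖) (by
    intro a b
    rw [eF_add, norm_mul, Real.log_mul (norm_ne_zero_iff.mpr (eF_ne_zero a))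
      (norm_ne_zero_iff.mpr (eF_ne_zero b))])

theorem lg_apply {N : Subgroup (Gq q)} (a : fix (AA q) N) : lg N a = Real.log ‖eF a‖ := rfl

theorem ker_lg (N : Subgroup (Gq q)) : (lg N).ker = UU N := by
  ext a
  rw [AddMonoidHom.mem_ker, lg_apply, mem_UU, Real.log_eq_zero]
  have h1 : 0 < ‖eF a‖ := norm_pos_iff.mpr (eF_ne_zero a)
  constructor
  · rintro (h | h | h)
    · exact absurd h h1.ne'
    · exact h
    · linarith
  · intro h; exact Or.inr (Or.inl h)

/-- value group -/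
noncomputable def VG (N : Subgroup (Gq q)) : AddSubgroup ℝ := (lg N).range

theorem VG_mono {N N' : Subgroup (Gq q)} (h : N ≤ N') : VG N' ≤ VG N := by
  rintro _ ⟨a, rfl⟩
  exact ⟨⟨(a : AA q), fix_mono h a.2⟩, rfl⟩

theorem q_ne_zero : ((q : ℕ) : Om q) ≠ 0 := Nat.cast_ne_zero.mpr hq.out.ne_zero

theorem norm_q : ‖((q : ℕ) : Om q)‖ = (q : ℝ)⁻¹ := by
  rw [norm_natCast_eq, Padic.norm_p]

theorem natCast_mem_EE (N : Subgroup (Gq q)) (n : ℕ) : ((n : ℕ) : Om q) ∈ EE N :=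
  mem_EE.mpr (fun g _ => map_natCast g n)

/-- the element `q` -/
noncomputable def qF (N : Subgroup (Gq q)) : fix (AA q) N := ofF ((q : ℕ) : Om q) q_ne_zero
  (natCast_mem_EE N q)

theorem lg_qF (N : Subgroup (Gq q)) : lg N (qF N) = -Real.log q := by
  rw [lg_apply, qF, eF_ofF, norm_q, Real.log_inv]

theorem log_q_pos : 0 < Real.log q := Real.log_pos (by exact_mod_cast hq.out.one_lt)

theorem log_q_mem (N : Subgroup (Gq q)) : Real.log q ∈ VG N := by
  rw [← neg_neg (Real.log q), ← lg_qF N]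
  exact (VG N).neg_mem ⟨_, rfl⟩

theorem EE_top_norm {x : Om q} (hx : x ∈ EE (⊤ : Subgroup (Gq q))) (hx0 : x ≠ 0) :
    ∃ k : ℤ, ‖x‖ = (q : ℝ) ^ k := by
  have h1 : x ∈ (⊥ : IntermediateField ℚ_[q] (PadicAlgCl q)) := by
    rw [InfiniteGalois.mem_bot_iff_fixed]
    intro g
    exact mem_EE.mp hx g (Subgroup.mem_top g)
  obtain ⟨y, rfl⟩ := IntermediateField.mem_bot.mp h1
  have hy0 : y ≠ 0 := by rintro rfl; exact hx0 (map_zero _)
  refine ⟨-y.valuation, ?_⟩
  have := PadicAlgCl.norm_extends q y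
  rw [← Padic.norm_eq_zpow_neg_valuation hy0, ← this]

theorem VG_top : VG (⊤ : Subgroup (Gq q)) = AddSubgroup.zmultiples (Real.log q) := by
  apply le_antisymm
  · rintro _ ⟨a, rfl⟩
    obtain ⟨k, hk⟩ := EE_top_norm (eF_mem a) (eF_ne_zero a)
    rw [lg_apply, hk, Real.log_zpow, AddSubgroup.mem_zmultiples_iff]
    exact ⟨k, by rw [zsmul_eq_mul]⟩
  · rw [AddSubgroup.zmultiples_le]
    exact log_q_mem ⊤

section

variable {N : Subgroup (Gq q)} (hN : IsOpen (N : Set (Gq q)))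

include hN

theorem VG_discrete : ∃ b : ℝ, 0 < b ∧ VG N = AddSubgroup.zmultiples b := by
  classical
  have := finiteDimensional_EE hN
  have hq1 : (1 : ℝ) < q := by exact_mod_cast hq.out.one_lt
  -- finitely many values in `(-log q, 0]`
  have h1 : (cball (EE N) ((q : ℝ)⁻¹) (by positivity)).relIndex (OO N) ≠ 0 :=
    relIndex_ne_zero (EE N) q _ _ ⟨(q : ℝ)⁻¹, by positivity, fun _ h => h⟩ (OO_in N) (OO_out N)
  have hfin : Finite (OO N ⧸ (cball (EE N) ((q : ℝ)⁻¹) (by positivity)).addSubgroupOf (OO N)) := by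
    have : ((cball (EE N) ((q : ℝ)⁻¹) (by positivity)).addSubgroupOf (OO N)).FiniteIndex := ⟨h1⟩
    exact AddSubgroup.finite_quotient_of_finiteIndex
  let S : Set ℝ := {v | v ∈ VG N ∧ -Real.log q < v ∧ v < 0}
  have hS : S.Finite := by
    have h2 : ∀ v : S, ∃ x : OO N, Real.log ‖((x : EE N) : Om q)‖ = v ∧
        (q : ℝ)⁻¹ < ‖((x : EE N) : Om q)‖ := by
      rintro ⟨v, ⟨a, ha⟩, hv1, hv2⟩
      have ha' : Real.log ‖eF a‖ = v := ha
      have h0 : 0 < ‖eF a‖ := norm_pos_iff.mpr (eF_ne_zero a)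
      refine ⟨⟨⟨eF a, eF_mem a⟩, ?_⟩, ha', ?_⟩
      · rw [mem_cball]
        have : Real.log ‖eF a‖ < 0 := by rw [ha']; exact hv2
        exact (Real.log_neg_iff h0).mp this |>.le
      · have h3 : Real.log ((q : ℝ)⁻¹) < Real.log ‖eF a‖ := by
          rw [Real.log_inv, ha']; exact hv1
        exact (Real.log_lt_log_iff (by positivity) h0).mp h3
    choose x hx1 hx2 using h2
    have hinj : Function.Injective (fun v : S => (QuotientAddGroup.mk (x v) :
        OO N ⧸ (cball (EE N) ((q : ℝ)⁻¹) (by positivity)).addSubgroupOf (OO N))) := by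
      intro v w hvw
      have h3 := QuotientAddGroup.eq.mp hvw
      rw [AddSubgroup.mem_addSubgroupOf] at h3
      have h4 : ‖-((x v : EE N) : Om q) + ((x w : EE N) : Om q)‖ ≤ (q : ℝ)⁻¹ := h3
      have h5 : ‖((x w : EE N) : Om q)‖ = ‖((x v : EE N) : Om q)‖ := by
        have h6 : ((x w : EE N) : Om q) = ((x v : EE N) : Om q) +
          (-((x v : EE N) : Om q) + ((x w : EE N) : Om q)) := by ring
        rw [h6, norm_add_eq_of_lt (lt_of_le_of_lt h4 (hx2 v))]
      apply Subtype.ext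
      rw [← hx1 v, ← hx1 w, h5]
    have : Finite S := Finite.of_injective _ hinj
    exact Set.toFinite S
  -- an isolated zero
  obtain ⟨a, ha0, ha⟩ : ∃ a : ℝ, 0 < a ∧ Disjoint (VG N : Set ℝ) (Set.Ioo 0 a) := by
    by_cases hne : S.Nonempty
    · obtain ⟨m, hm, hmax⟩ := hS.exists_maximal hne
      refine ⟨-m, by have := hm.2.2; linarith, ?_⟩
      rw [Set.disjoint_left]
      rintro y hy ⟨hy1, hy2⟩
      have h3 : -y ∈ S := ⟨(VG N).neg_mem hy, by have := hm.2.1; linarith, by linarith⟩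
      have h4 := hmax h3 (by linarith : m ≤ -y)
      linarith
    · refine ⟨Real.log q, log_q_pos, ?_⟩
      rw [Set.disjoint_left]
      rintro y hy ⟨hy1, hy2⟩
      exact hne ⟨-y, (VG N).neg_mem hy, by linarith, by linarith⟩
  obtain ⟨b, hb⟩ := AddSubgroup.cyclic_of_isolated_zero ha0 ha
  have hb' : VG N = AddSubgroup.zmultiples b := by rw [hb, AddSubgroup.zmultiples_eq_closure]
  have hb0 : b ≠ 0 := by
    rintro rfl
    have := log_q_mem N
    rw [hb', AddSubgroup.zmultiples_zero_eq_bot, AddSubgroup.mem_bot] at this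
    exact log_q_pos.ne' this
  rcases lt_or_gt_of_ne hb0 with h | h
  · exact ⟨-b, by linarith, by rw [hb', AddSubgroup.zmultiples_neg]⟩
  · exact ⟨b, h, hb'⟩

theorem exists_pi : ∃ π : fix (AA q) N, ‖eF π‖ < 1 ∧ ∀ a : fix (AA q) N, ∃ k : ℤ,
    ‖eF a‖ = ‖eF π‖ ^ k := by
  obtain ⟨b, hb, hVG⟩ := VG_discrete hN
  have h1 : -b ∈ VG N := by rw [hVG]; exact neg_mem (AddSubgroup.mem_zmultiples b)
  obtain ⟨π, hπ⟩ := h1
  rw [lg_apply] at hπ
  have h0 : 0 < ‖eF π‖ := norm_pos_iff.mpr (eF_ne_zero π)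
  refine ⟨π, (Real.log_neg_iff h0).mp (by linarith), fun a => ?_⟩
  have h2 : lg N a ∈ VG N := ⟨a, rfl⟩
  rw [hVG, AddSubgroup.mem_zmultiples_iff] at h2
  obtain ⟨k, hk⟩ := h2
  refine ⟨-k, ?_⟩
  have ha0 : 0 < ‖eF a‖ := norm_pos_iff.mpr (eF_ne_zero a)
  apply Real.log_injOn_pos (Set.mem_Ioi.mpr ha0) (Set.mem_Ioi.mpr (zpow_pos h0 _))
  rw [Real.log_zpow, hπ]
  rw [lg_apply, zsmul_eq_mul] at hk
  rw [← hk]
  push_cast
  ring

end

end Fermat.Agent.CFTLocal
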